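import Fermat.Agent.HT.Descent.Cocycle
import Fermat.Agent.FLAT.LocalGroup

/-!
# Valuations at `n` take boundedly many values

A Frobenius `φ` at `n` with `φ² - t φ + n = 0` on `V/V₀` forces the valuations of coboundaries to
be killed by `t² - (n+1)²` and those of cocycles to be `φ`-invariant modulo these.
-/

set_option autoImplicit false

noncomputable section

open Fermat.EC.Val

namespace Fermat.HT.Descent

local notation "Γℚ" => (AlgebraicClosure ℚ ≃ₐ[ℚ] AlgebraicClosure ℚ)

variable {V : Type*} [AddCommGroup V] [DistribMulAction Γℚ V]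

namespace Ctx

variable (C : Ctx V)

/-- An endomorphism commuting with Galois, self-adjoint, preserving the multiplicative part. -/
structure IsOp (t : V →+ V) : Prop where
  /-- The endomorphism commutes with Galois. -/
  comm : ∀ (σ : Γℚ) (v : V), t (σ • v) = σ • t v
  /-- The endomorphism is self-adjoint for the pairing. -/
  adj : ∀ x y, C.e (t x) y = C.e x (t y)
  /-- The endomorphism preserves the multiplicative part. -/
  stable : ∀ v ∈ C.V0, t v ∈ C.V0

/-- A Frobenius at `n` with the congruence relation, and an integer `N = (t² - (n+1)²) s`. -/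
structure FrobN where
  /-- The Frobenius at `n`. -/
  φ : Γℚ
  /-- `φ` lies in the decomposition group at `n`. -/
  hφ : φ ∈ C.An.decompositionSubgroup ℚ
  /-- The Hecke operator at `n` in the congruence relation. -/
  t : V →+ V
  /-- The Hecke operator is an admissible operator. -/
  ht : C.IsOp t
  /-- The cofactor turning `t² - (n+1)²` into the integer `N`. -/
  s : V →+ V
  /-- The cofactor is an admissible operator. -/
  hs : C.IsOp s
  /-- The Hecke operator commutes with the cofactor. -/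
  comm : ∀ v, s (t v) = t (s v)
  /-- The integer `N` equal to `(t² - (n+1)²) s`. -/
  N : ℕ
  /-- `(t² - (n+1)²) s` is multiplication by `N`. -/
  hN : ∀ v, t (t (s v)) - (C.n + 1) ^ 2 • s v = N • v
  /-- `φ² - t φ + n` maps into the multiplicative part. -/
  rel : ∀ v, φ • φ • v - t (φ • v) + C.n • v ∈ C.V0

/-- Valuations vanish on the orthogonal of the multiplicative part. -/
lemma val_perp {c : Γℚ → V} (hc : c ∈ C.sel) {T : V} (hT : T ∈ perp C.e C.V0) : C.val c T = 0 :=
  C.val_eq_zero_of_forall fun _ hσ => hT _ (sel_mem hc hσ)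

/-- The multiplicative part is isotropic. -/
lemma V0_le_perp : C.V0 ≤ perp C.e C.V0 := fun b hb a ha => C.iso a ha b hb

/-- Coboundaries of the multiplicative part have valuation zero. -/
lemma val_cobd_V0 {w : V} (hw : w ∈ C.V0) (T : V) : C.val (cobd w) T = 0 := by
  have hz : C.IsGen (cobd w) T (num (C.e w T)) := ⟨num_ne_zero _, fun σ hσ => by
    rw [← num_gal, C.e_gal, ← num_add, ← AddMonoidHom.add_apply, ← map_add]
    change num (C.e (σ • w) (σ • T)) = num (C.e (σ • w - w + w) T)
    rw [sub_add_cancel, show σ • T = T + (σ • T - T) by abel, map_add,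
      C.iso _ (C.V0_stable σ (FLAT.inertia_le_decomposition _ hσ) w hw) _ (C.inertia_sub σ hσ T),
      add_zero]⟩
  have h0 : ord C.An C.n (num (C.e w T)) = 0 := by
    have h1 := ord_pow C.hn (num (C.e w T)) (C.n ^ C.r)
    rw [C.num_pow, ord_one C.hn] at h1
    rcases mul_eq_zero.mp h1.symm with h | h
    · exact absurd (Nat.cast_eq_zero.mp h) (pow_ne_zero _ C.hn.1.ne_zero)
    · exact h
  rw [C.val_eq hz, h0]
  rfl

/-- Operators move from the coboundary to the element. -/
lemma val_op {t : V →+ V} (ht : C.IsOp t) (b T : V) :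
    C.val (cobd (t b)) T = C.val (cobd b) (t T) := by
  obtain ⟨z, hz⟩ := C.exists_isGen (C.cobd_mem b) (t T)
  rw [C.val_eq hz, C.val_eq (z := z) ⟨hz.1, fun σ hσ => ?_⟩]
  rw [hz.2 σ hσ]
  change num (C.e (σ • b - b) (t T)) * z = num (C.e (σ • t b - t b) T) * z
  rw [← ht.comm, ← map_sub, ht.adj]

/-- Transport by an element of the decomposition group. -/
lemma val_conj {c : Γℚ → V} (hc : c ∈ C.sel) {φ : Γℚ} (hφ : φ ∈ C.An.decompositionSubgroup ℚ)
    (T : V) : C.val (c + cobd (c φ)) (φ • T) = C.val c T := by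
  obtain ⟨z, hz⟩ := C.exists_isGen hc T
  have h : C.IsGen (c + cobd (c φ)) (φ • T) (φ z) := by
    refine ⟨by simpa using hz.1, fun σ hσ => ?_⟩
    have hτ : φ⁻¹ * σ * φ ∈ C.An.inertiaSubgroupIn ℚ := by
      have := Fermat.FLAT.conj_mem_inertia C.hn (inv_mem hφ) hσ
      rwa [inv_inv] at this
    have e : σ (φ z) = φ ((φ⁻¹ * σ * φ) z) := by
      rw [← AlgEquiv.mul_apply, ← AlgEquiv.mul_apply, mul_assoc φ⁻¹ σ φ, mul_inv_cancel_left]
    rw [e, hz.2 _ hτ, map_mul, ← num_gal, C.e_gal]
    congr 4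
    change φ • c (φ⁻¹ * σ * φ) = c σ + (σ • c φ - c φ)
    have e1 := sel_mul hc φ (φ⁻¹ * σ * φ)
    rw [mul_assoc φ⁻¹ σ φ, mul_inv_cancel_left, sel_mul hc σ φ] at e1
    rw [mul_assoc φ⁻¹ σ φ, ← add_sub_assoc, e1]
    abel
  rw [C.val_eq h, C.val_eq hz, Fermat.FLAT.ord_apply_decomp C.hn hφ]

variable [Finite V]

omit [Finite V] in
/-- A valuation killed by an integer prime to `n` is zero. -/
lemma val_eq_zero_of_nsmul {k : ℕ} {c : Γℚ → V} (hc : c ∈ C.sel) (T : V) (hk : k.Coprime C.n)
    (h : k • C.val c T = 0) : C.val c T = 0 := by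
  have h2 : (C.n ^ C.r) • C.val c T = 0 := by
    rw [← C.valHom_apply ⟨c, hc⟩, ← map_nsmul, C.killed, map_zero]
  have hd : addOrderOf (C.val c T) ∣ Nat.gcd k (C.n ^ C.r) :=
    Nat.dvd_gcd (addOrderOf_dvd_of_nsmul_eq_zero h) (addOrderOf_dvd_of_nsmul_eq_zero h2)
  rw [(hk.pow_right C.r : k.gcd (C.n ^ C.r) = 1), Nat.dvd_one, AddMonoid.addOrderOf_eq_one_iff]
    at hd
  exact hd

variable {C} (Fr : C.FrobN)

omit [Finite V] in
include Fr in
/-- The valuation of the coboundary vanishes on multiples by the norm. -/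
theorem val_cobd_nsmul (b T : V) : C.val (cobd b) (Fr.N • T) = 0 := by
  set B := fun b T => C.val (cobd b) T
  have hB : ∀ b, ∀ T S, B b (T + S) = B b T + B b S := fun b T S =>
    C.val_add_right (C.cobd_mem b) T S
  have hBs : ∀ b, ∀ (k : ℕ) T, B b (k • T) = k • B b T := fun b k T => by
    change C.valHom ⟨_, C.cobd_mem b⟩ (k • T) = _
    rw [map_nsmul]; rfl
  have hB0 : ∀ b T, T ∈ C.V0 → B b T = 0 := fun b T hT =>
    C.val_perp (C.cobd_mem b) (C.V0_le_perp hT)
  have hφB : ∀ b T, B (Fr.φ • b) (Fr.φ • T) = B b T := fun b T => by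
    have h := C.val_conj (C.cobd_mem b) Fr.hφ T
    have e : cobd (V := V) b + cobd (cobd b Fr.φ) = cobd (Fr.φ • b) := by
      rw [← map_add]
      change cobd (b + (Fr.φ • b - b)) = _
      rw [add_sub_cancel]
    rw [e] at h
    exact h
  have hBneg : ∀ b T, B b (-T) = -B b T := fun b T => map_neg (C.valHom ⟨_, C.cobd_mem b⟩) T
  have eq1 : ∀ T, B b (Fr.φ • Fr.φ • T) - B b (Fr.t (Fr.φ • T)) + C.n • B b T = 0 := fun T => by
    have h := hB0 b _ (Fr.rel T)
    rwa [hB, hBs, sub_eq_add_neg (Fr.φ • Fr.φ • T), hB, hBneg, ← sub_eq_add_neg] at h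
  have eq2 : ∀ T, B b T - B b (Fr.t (Fr.φ • T)) + C.n • B b (Fr.φ • Fr.φ • T) = 0 := fun T => by
    set S := Fr.φ • Fr.φ • T
    let Bl : V →+ AddCircle (1 : ℚ) :=
      AddMonoidHom.mk' (fun w => B w S) fun u w => by
        change C.val (cobd (u + w)) S = _
        rw [map_add]
        exact C.val_add_left (C.cobd_mem u) (C.cobd_mem w) S
    have h : Bl (Fr.φ • Fr.φ • b - Fr.t (Fr.φ • b) + C.n • b) = 0 := C.val_cobd_V0 (Fr.rel b) S
    rw [map_add, map_sub, map_nsmul] at h
    have e1 : Bl (Fr.φ • Fr.φ • b) = B b T := (hφB _ _).trans (hφB _ _)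
    have e2 : Bl (Fr.t (Fr.φ • b)) = B b (Fr.t (Fr.φ • T)) := by
      change C.val _ _ = _
      rw [C.val_op Fr.ht, Fr.ht.comm]
      exact hφB _ _
    rw [e1, e2] at h
    exact h
  -- the two relations force `φ ^ 2` to fix the valuations, and `t` to act as `(n + 1) φ⁻¹`
  have hdiff : ∀ T, B b (Fr.φ • Fr.φ • T) = B b T := fun T => by
    have e4 : B b (Fr.φ • Fr.φ • T) - B b T = B b (Fr.φ • Fr.φ • T - T) :=
      (map_sub (C.valHom ⟨_, C.cobd_mem b⟩) _ _).symm
    rw [← sub_eq_zero, e4]
    refine C.val_eq_zero_of_nsmul (C.cobd_mem b) _ (k := C.n - 1) ?_ ?_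
    · refine ((C.hn.1.coprime_iff_not_dvd).mpr fun hd => ?_).symm
      have := C.hn.1.two_le
      exact absurd (Nat.le_of_dvd (by omega) hd) (by omega)
    · change (C.n - 1) • B b (Fr.φ • Fr.φ • T - T) = 0
      rw [← e4, nsmul_sub, sub_nsmul _ C.hn.1.one_le, sub_nsmul _ C.hn.1.one_le, one_smul, one_smul]
      calc C.n • B b (Fr.φ • Fr.φ • T) + -B b (Fr.φ • Fr.φ • T)
            - (C.n • B b T + -B b T)
          = (B b T - B b (Fr.t (Fr.φ • T)) + C.n • B b (Fr.φ • Fr.φ • T))
            - (B b (Fr.φ • Fr.φ • T) - B b (Fr.t (Fr.φ • T)) + C.n • B b T) := by abel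
        _ = 0 := by rw [eq1 T, eq2 T, sub_zero]
  have key : ∀ T, B b (Fr.t (Fr.φ • T)) = (C.n + 1) • B b T := fun T => by
    have h1 := eq1 T
    rw [hdiff T] at h1
    rw [succ_nsmul', ← sub_eq_zero, ← neg_eq_zero, ← h1]
    abel
  have hsq : ∀ T, B b (Fr.t (Fr.t T)) = (C.n + 1) ^ 2 • B b T := fun T => by
    have h1 := key (Fr.t (Fr.φ • T))
    rw [key T, ← mul_nsmul', ← sq, ← Fr.ht.comm Fr.φ (Fr.φ • T), Fr.ht.comm, Fr.ht.comm] at h1
    rw [← h1, ← hdiff (Fr.t (Fr.t T)), Fr.ht.comm, Fr.ht.comm]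
  have hrw : Fr.N • T = Fr.t (Fr.t (Fr.s T)) - (C.n + 1) ^ 2 • Fr.s T := (Fr.hN T).symm
  rw [hrw]
  change C.valHom ⟨_, C.cobd_mem b⟩ _ = 0
  rw [map_sub, map_nsmul, sub_eq_zero]
  exact hsq (Fr.s T)

omit [Finite V] in
include Fr in
/-- The orthogonal of the subgroup is stable under Frobenius. -/
theorem perp_smul_mem {T : V} (hT : T ∈ perp C.e C.V0) : Fr.φ • T ∈ perp C.e C.V0 := fun w hw => by
  have h1 := C.e_gal Fr.φ (Fr.φ⁻¹ • w) T
  rw [smul_inv_smul, hT _ (C.V0_stable _ (inv_mem Fr.hφ) w hw), map_zero] at h1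
  exact h1.symm

omit [Finite V] in
/-- The orthogonal of the subgroup is stable under the operators. -/
theorem perp_op_mem {u : V →+ V} (hu : C.IsOp u) {T : V} (hT : T ∈ perp C.e C.V0) :
    u T ∈ perp C.e C.V0 := fun w hw => by
  rw [← hu.adj]; exact hT _ (hu.stable w hw)

/-- The coinvariants of Frobenius on the quotient by the orthogonal number at most `#V[N]`. -/
theorem card_coinvariants_le
    (hd : ∀ T ∈ perp C.e C.V0, (DistribSMul.toAddMonoidHom V Fr.φ - AddMonoidHom.id V) T ∈
      perp C.e C.V0) :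
    Nat.card ((V ⧸ perp C.e C.V0) ⧸
      (QuotientAddGroup.map (perp C.e C.V0) (perp C.e C.V0)
        (DistribSMul.toAddMonoidHom V Fr.φ - AddMonoidHom.id V) hd).range) ≤
      Nat.card (tors V Fr.N) := by
  set P := perp C.e C.V0
  set Q := V ⧸ P
  set d : Q →+ Q := QuotientAddGroup.map P P
    (DistribSMul.toAddMonoidHom V Fr.φ - AddMonoidHom.id V) hd
  have h2 : Nat.card (Q ⧸ d.range) = Nat.card d.ker := by
    have e1 := AddSubgroup.card_eq_card_quotient_mul_card_addSubgroup d.range
    have e2 := AddSubgroup.card_eq_card_quotient_mul_card_addSubgroup d.ker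
    rw [Nat.card_congr (QuotientAddGroup.quotientKerEquivRange d).toEquiv, mul_comm] at e2
    rw [e2] at e1
    exact (Nat.eq_of_mul_eq_mul_right Nat.card_pos e1).symm
  have h3 : d.ker ≤ tors Q Fr.N := by
    intro q hq
    induction q using QuotientAddGroup.induction_on with
    | H T =>
      have hT : Fr.φ • T - T ∈ P := (QuotientAddGroup.eq_zero_iff _).mp hq
      have hφφ : Fr.φ • Fr.φ • T - T ∈ P := by
        have := add_mem (perp_smul_mem Fr hT) hT
        rwa [smul_sub, sub_add_sub_cancel] at this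
      -- `t T ≡ (n + 1) T`
      have hrel : Fr.t T - (C.n + 1) • T ∈ P := by
        have e : Fr.t T - (C.n + 1) • T = -(Fr.φ • Fr.φ • T - Fr.t (Fr.φ • T) + C.n • T)
            + (Fr.φ • Fr.φ • T - T) - Fr.t (Fr.φ • T - T) := by
          rw [map_sub, succ_nsmul']; abel
        rw [e]
        exact sub_mem (add_mem (neg_mem (C.V0_le_perp (Fr.rel T))) hφφ) (perp_op_mem Fr.ht hT)
      refine mem_tors.mpr ?_
      rw [← QuotientAddGroup.mk_nsmul, QuotientAddGroup.eq_zero_iff, ← Fr.hN T]
      have e : Fr.t (Fr.t (Fr.s T)) - (C.n + 1) ^ 2 • Fr.s T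
          = Fr.s (Fr.t (Fr.t T - (C.n + 1) • T) + (C.n + 1) • (Fr.t T - (C.n + 1) • T)) := by
        simp only [map_add, map_sub, map_nsmul, nsmul_sub, Fr.comm, ← mul_nsmul', ← sq]
        abel
      rw [e]
      exact perp_op_mem Fr.hs (add_mem (perp_op_mem Fr.ht hrel) (nsmul_mem hrel _))
  exact h2.le.trans ((AddSubgroup.card_le_of_le h3).trans (card_tors_quotient_le P _))

include Fr in
/-- **Boundedly many valuations.** The valuations at `n` take at most `#V[N] ²` values, `N` that of
the Frobenius data. -/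
theorem card_valHom_range_le :
    Nat.card C.valHom.range ≤ Nat.card (tors V Fr.N) * Nat.card (tors V Fr.N) := by
  classical
  have : Finite (V →+ AddCircle (1 : ℚ)) := finite_hom smallTorsion_circle
  let β : V →+ (V →+ AddCircle (1 : ℚ)) := C.valHom.comp
    { toFun := fun b => ⟨cobd b, C.cobd_mem b⟩
      map_zero' := Subtype.ext (map_zero (cobd (V := V)))
      map_add' := fun a b => Subtype.ext (map_add (cobd (V := V)) a b) }
  -- valuations of coboundaries factor through `V / N V`
  have hβcard : Nat.card β.range ≤ Nat.card (tors V Fr.N) := by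
    have := finite_hom (G := V ⧸ (nsmulAddMonoidHom (α := V) Fr.N).range) smallTorsion_circle
    rw [← card_quotient_nsmul]
    refine le_trans ?_ (card_hom_le smallTorsion_circle _)
    refine Nat.card_le_card_of_injective
      (fun f => QuotientAddGroup.lift _ f.1 ?_) fun f f' h => ?_
    · rintro _ ⟨T, rfl⟩
      obtain ⟨_, b, rfl⟩ := f
      exact val_cobd_nsmul Fr b T
    · exact Subtype.ext (AddMonoidHom.ext fun T => DFunLike.congr_fun h (T : V ⧸ _))
  set P := perp C.e C.V0
  have hPφ : ∀ T ∈ P, Fr.φ • T ∈ P := fun T hT => perp_smul_mem Fr hT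
  let Wp : AddSubgroup (V →+ AddCircle (1 : ℚ)) :=
    { carrier := {f | ∀ T ∈ P, f T = 0}
      zero_mem' := fun _ _ => rfl
      add_mem' := fun ha hb T hT => by
        rw [AddMonoidHom.add_apply, ha T hT, hb T hT, add_zero]
      neg_mem' := fun ha T hT => by rw [AddMonoidHom.neg_apply, ha T hT, neg_zero] }
  let φV : V →+ V := DistribSMul.toAddMonoidHom V Fr.φ
  let D : Wp →+ (V →+ AddCircle (1 : ℚ)) :=
    AddMonoidHom.mk' (fun f => f.1.comp φV - f.1) fun f g => by
      ext T; simp only [AddMonoidHom.sub_apply, AddMonoidHom.comp_apply, AddSubgroup.coe_add,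
        AddMonoidHom.add_apply]; abel
  set Rset : AddSubgroup (V →+ AddCircle (1 : ℚ)) :=
    β.range.map (AddMonoidHom.mk' (fun g => g.comp φV) fun _ _ => rfl)
  -- the kernel of `D`
  have hker : Nat.card D.ker ≤ Nat.card (tors V Fr.N) := by
    set Q := V ⧸ P
    let d : Q →+ Q := QuotientAddGroup.map P P (φV - AddMonoidHom.id V) fun T hT => by
      exact sub_mem (hPφ T hT) hT
    have h1 : Nat.card D.ker ≤ Nat.card (Q ⧸ d.range) := by
      have := finite_hom (G := Q ⧸ d.range) smallTorsion_circle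
      refine le_trans ?_ (card_hom_le smallTorsion_circle _)
      refine Nat.card_le_card_of_injective
        (fun f => QuotientAddGroup.lift d.range (QuotientAddGroup.lift P f.1.1 f.1.2) ?_)
        fun f f' h => ?_
      · rintro _ ⟨q, rfl⟩
        induction q using QuotientAddGroup.induction_on with
        | H T =>
          have h := DFunLike.congr_fun (AddMonoidHom.mem_ker.mp f.2) T
          simp only [D, AddMonoidHom.mk'_apply, AddMonoidHom.sub_apply, AddMonoidHom.comp_apply,
            AddMonoidHom.zero_apply] at h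
          change f.1.1 (φV T - T) = 0
          rw [map_sub]
          exact h
      · refine Subtype.ext (Subtype.ext (AddMonoidHom.ext fun T => ?_))
        exact DFunLike.congr_fun h ((T : Q) : Q ⧸ d.range)
    exact h1.trans (card_coinvariants_le Fr fun T hT => sub_mem (hPφ T hT) hT)
  -- every valuation is moved by `D` into the valuations of coboundaries
  have hsub : C.valHom.range ≤ (Rset.comap D).map Wp.subtype := by
    rintro _ ⟨c, rfl⟩
    have hcW : C.valHom c ∈ Wp := fun T hT => C.val_perp c.2 hT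
    refine ⟨⟨_, hcW⟩, ?_, rfl⟩
    refine AddSubgroup.mem_comap.mpr ⟨-β (c.1 Fr.φ), neg_mem ⟨_, rfl⟩, ?_⟩
    ext T
    have h := C.val_conj c.2 Fr.hφ T
    rw [C.val_add_left c.2 (C.cobd_mem _)] at h
    change -(C.val (cobd (c.1 Fr.φ)) (Fr.φ • T)) = C.val c.1 (Fr.φ • T) - C.val c.1 T
    rw [← h]; abel
  refine (AddSubgroup.card_le_of_le hsub).trans ?_
  rw [AddSubgroup.card_subtype]
  have hle : Nat.card (Rset.comap D) ≤ Nat.card D.ker * Nat.card Rset := by
    let g : Rset.comap D →+ Rset := (D.comp (Rset.comap D).subtype).codRestrict Rset fun x => x.2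
    rw [AddSubgroup.card_eq_card_quotient_mul_card_addSubgroup g.ker,
      Nat.card_congr (QuotientAddGroup.quotientKerEquivRange g).toEquiv, mul_comm]
    refine Nat.mul_le_mul ?_ (Nat.card_le_card_of_injective Subtype.val Subtype.val_injective)
    refine Nat.card_le_card_of_injective (fun x : g.ker => (⟨x.1.1, ?_⟩ : D.ker)) ?_
    · exact congrArg Subtype.val (AddMonoidHom.mem_ker.mp x.2)
    · intro a b h
      exact Subtype.ext (Subtype.ext (congrArg (fun y : D.ker => y.1) h))
  refine hle.trans (Nat.mul_le_mul hker (le_trans ?_ hβcard))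
  have : Finite β.range := inferInstance
  exact Nat.card_le_card_of_surjective
    (fun x : β.range => (⟨_, x.1, x.2, rfl⟩ : Rset)) fun y => by
      obtain ⟨_, g, hg, rfl⟩ := y
      exact ⟨⟨g, hg⟩, rfl⟩

end Ctx

end Fermat.HT.Descent

end
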