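import Fermat.Agent.HT.Descent.Devissage
import Fermat.Agent.HT.Descent.LocalN
import Mathlib.RingTheory.IntegralDomain

/-!
# The descent bound

Main theorem `card_levelSel_le`, for any `Ctx` with residual pieces (`Devissage`) and Frobenius
data at `n` (`LocalN`) and at `p` (`FrobP`): tame inertia at `p` is generated by one element on a
finite level; cocycle classes there are Frobenius eigenvectors in the coinvariants, dual to the
Frobenius fixed part of the inertia invariants. Together with the dévissage this bounds the Selmer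
classes; `Rank` applies it to `J₀(p)`.
-/

set_option autoImplicit false

noncomputable section

open Fermat.CFT Fermat.EC.Val Fermat.FLAT
open scoped Pointwise

namespace Fermat.HT.Descent

local notation "ℚbar" => AlgebraicClosure ℚ
local notation "Γℚ" => (AlgebraicClosure ℚ ≃ₐ[ℚ] AlgebraicClosure ℚ)

variable {p : ℕ} {A : ValuationSubring ℚbar}

/-- Orders on a field of degree `D` have denominators dividing `D!`. -/
theorem exists_int_mul_ord (h : IsPlace A p) (L : IntermediateField ℚ ℚbar) [FiniteDimensional ℚ L]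
    {x : ℚbar} (hxL : x ∈ L) (hx : x ≠ 0) :
    ∃ k : ℤ, (Nat.factorial (Module.finrank ℚ L) : ℚ) * ord A p x = k := by
  classical
  set D := Module.finrank ℚ L
  -- `x` satisfies a relation of degree at most `D`
  have hnli : ¬ LinearIndependent ℚ fun i : Fin (D + 1) => (⟨x, hxL⟩ : L) ^ (i : ℕ) := fun hli => by
    have := hli.fintype_card_le_finrank
    rw [Fintype.card_fin] at this
    omega
  rw [Fintype.linearIndependent_iff] at hnli
  push Not at hnli
  obtain ⟨g, hg, i₀, hi₀⟩ := hnli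
  set S := Finset.univ.filter fun i => g i ≠ 0
  let t : Fin (D + 1) → ℚbar := fun i => (g i : ℚbar) * x ^ (i : ℕ)
  have hsum : ∑ i ∈ S, t i = 0 := by
    have h1 := congrArg (fun z : L => (z : ℚbar)) hg
    push_cast at h1
    rw [← h1]
    refine Finset.sum_subset (Finset.subset_univ _) (fun i _ hi => ?_) |>.trans ?_
    · simp only [S, Finset.mem_filter, Finset.mem_univ, true_and, not_not] at hi
      simp [t, hi]
    · exact Finset.sum_congr rfl fun i _ => by simp [t, Algebra.smul_def]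
  have hSne : S.Nonempty := ⟨i₀, by simp [S, hi₀]⟩
  obtain ⟨i, hi, hmax⟩ := Finset.exists_max_image S (fun i => A.valuation (t i)) hSne
  have hti : ∀ i ∈ S, t i ≠ 0 := fun i hi => by
    simp only [S, Finset.mem_filter, Finset.mem_univ, true_and] at hi
    exact mul_ne_zero (by exact_mod_cast hi) (pow_ne_zero _ hx)
  have : ∃ j ∈ S, j ≠ i ∧ A.valuation (t j) = A.valuation (t i) := by
    by_contra hc
    push Not at hc
    have h2 := Valuation.map_sum_eq_of_lt (v := A.valuation) hi (fun j hj => by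
      rw [Finset.mem_sdiff, Finset.mem_singleton] at hj
      exact lt_of_le_of_ne (hmax j hj.1) (hc j hj.1 hj.2))
    rw [hsum, map_zero] at h2
    exact hti i hi ((map_eq_zero A.valuation).mp h2.symm)
  -- two terms share the largest valuation, so `(j - i) ord x` is an integer
  obtain ⟨j, hj, hne, heq⟩ := this
  have hord : ord A p (t j) = ord A p (t i) := le_antisymm
    ((v_le_iff h (hti i hi) (hti j hj)).mp heq.ge) ((v_le_iff h (hti j hj) (hti i hi)).mp heq.le)
  have hq : ∀ i ∈ S, ord A p (g i : ℚbar) = padicValRat p (g i) := fun i hi => by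
    simp only [S, Finset.mem_filter, Finset.mem_univ, true_and] at hi
    exact ord_ratCast h hi
  have hg0 : ∀ i ∈ S, (g i : ℚbar) ≠ 0 := fun i hi => by
    simp only [S, Finset.mem_filter, Finset.mem_univ, true_and] at hi
    exact_mod_cast hi
  rw [ord_mul h (hg0 j hj) (pow_ne_zero _ hx), ord_mul h (hg0 i hi) (pow_ne_zero _ hx),
    ord_pow h, ord_pow h, hq i hi, hq j hj] at hord
  have hd : ((j : ℕ) : ℤ) - (i : ℕ) ∣ (Nat.factorial D : ℤ) := by
    rw [← Int.natAbs_dvd, Int.natCast_dvd_natCast]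
    exact Nat.dvd_factorial
      (Int.natAbs_pos.mpr (sub_ne_zero.mpr fun e => hne (Fin.ext (Int.ofNat_inj.mp e))))
      (by have := i.2; have := j.2; omega)
  obtain ⟨q, hq'⟩ := hd
  refine ⟨q * (padicValRat p (g i) - padicValRat p (g j)), ?_⟩
  rw [show (Nat.factorial D : ℚ) = (((j : ℕ) : ℚ) - (i : ℕ)) * (q : ℚ) by exact_mod_cast hq']
  push_cast
  linear_combination (q : ℚ) * hord

/-- Tame inertia on a level is generated by one element modulo wild inertia. -/
theorem exists_tame_generator (h : IsPlace A p) (L : IntermediateField ℚ ℚbar)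
    [FiniteDimensional ℚ L] [Normal ℚ L] :
    ∃ τ ∈ A.inertiaSubgroupIn ℚ, ∀ σ ∈ A.inertiaSubgroupIn ℚ, ∃ i : ℕ, ∃ w ∈ wildOn A L,
      σ = w * τ ^ i := by
  classical
  set F := Nat.factorial (Module.finrank ℚ L)
  have hex : ∃ k : ℕ, 0 < k ∧ ∃ x ∈ L, x ≠ 0 ∧ (F : ℚ) * ord A p x = k :=
    ⟨F, Nat.factorial_pos _, p, natCast_mem L p, Nat.cast_ne_zero.mpr h.1.ne_zero,
      by rw [ord_q h, mul_one]⟩
  obtain ⟨hk0, π, hπL, hπ0, hπ⟩ := Nat.find_spec hex
  set k₀ := Nat.find hex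
  -- `π` has the least positive order in `L`, so every element is a power of `π` times a unit
  have hgen : ∀ y ∈ L, y ≠ 0 → ∃ m : ℤ, Is A p (y / π ^ m) 0 := by
    intro y hy hy0
    obtain ⟨a, ha⟩ := exists_int_mul_ord h L hy hy0
    refine ⟨a / k₀, div_ne_zero hy0 (zpow_ne_zero _ hπ0), ?_⟩
    rw [div_eq_mul_inv, ord_mul h hy0 (inv_ne_zero (zpow_ne_zero _ hπ0)), ord_inv h, ord_zpow h]
    have hr : a % (k₀ : ℤ) = 0 := by
      by_contra hne
      have hlt := Int.emod_lt_of_pos a (b := (k₀ : ℤ)) (by exact_mod_cast hk0)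
      have hnn := Int.emod_nonneg a (b := (k₀ : ℤ)) (by exact_mod_cast hk0.ne')
      refine Nat.find_min hex (m := (a % (k₀ : ℤ)).toNat) (by omega)
        ⟨by omega, y / π ^ (a / (k₀ : ℤ)), div_mem hy (zpow_mem hπL _),
          div_ne_zero hy0 (zpow_ne_zero _ hπ0), ?_⟩
      rw [div_eq_mul_inv, ord_mul h hy0 (inv_ne_zero (zpow_ne_zero _ hπ0)), ord_inv h, ord_zpow h,
        mul_add, ha, mul_neg, mul_left_comm, hπ,
        show (((a % (k₀ : ℤ)).toNat : ℕ) : ℚ) = ((a % (k₀ : ℤ) : ℤ) : ℚ) by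
          conv_rhs => rw [← Int.toNat_of_nonneg hnn]
          push_cast; ring,
        Int.emod_def]
      push_cast
      ring
    have hd : (a : ℚ) = ((a / (k₀ : ℤ) : ℤ) : ℚ) * k₀ := by
      have := Int.mul_ediv_add_emod a k₀
      rw [hr, add_zero, mul_comm] at this
      exact_mod_cast this.symm
    refine mul_left_cancel₀ (b := _)
      (show (F : ℚ) ≠ 0 by exact_mod_cast (Nat.factorial_pos _).ne') ?_
    rw [mul_add, ha, mul_neg, mul_left_comm, hπ, mul_zero, hd]
    ring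
  -- the tame character, the residue of `σ π / π`, has finite, hence cyclic, image
  let θ : A.inertiaSubgroupIn ℚ →* (IsLocalRing.ResidueField A) :=
    { toFun := fun σ => psi A σ.1 π
      map_one' := psi_one hπ0
      map_mul' := fun σ τ => psi_mul h σ.2 τ.2 hπ0 }
  have hfin : Finite θ.toHomUnits.range := by
    set res := AlgEquiv.restrictNormalHom (F := ℚ) (K₁ := ℚbar) L
    refine Finite.of_surjective
      (α := Set.range fun σ : A.inertiaSubgroupIn ℚ => res σ.1)
      (fun g => ⟨θ.toHomUnits g.2.choose, _, rfl⟩) fun u => ?_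
    obtain ⟨_, σ, rfl⟩ := u
    refine ⟨⟨_, σ, rfl⟩, Subtype.ext (Units.ext ?_)⟩
    have hs := (⟨σ, rfl⟩ : ∃ x : A.inertiaSubgroupIn ℚ, res x.1 = res σ.1).choose_spec
    change red A _ = red A _
    congr 2
    have h1 := AlgEquiv.restrictNormal_commutes
      (⟨σ, rfl⟩ : ∃ x : A.inertiaSubgroupIn ℚ, res x.1 = res σ.1).choose.1 L ⟨π, hπL⟩
    have h2 := AlgEquiv.restrictNormal_commutes σ.1 L ⟨π, hπL⟩
    refine h1.symm.trans (Eq.trans ?_ h2)
    exact congrArg (fun g : L ≃ₐ[ℚ] L => algebraMap L ℚbar (g ⟨π, hπL⟩)) hs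
  obtain ⟨g, hg⟩ := IsCyclic.exists_generator (α := θ.toHomUnits.range)
  -- `τ` maps to a generator; dividing by its power lands in the kernel
  obtain ⟨_, τ, rfl⟩ := g
  refine ⟨τ.1, τ.2, fun σ hσ => ?_⟩
  obtain ⟨i, hi⟩ := (mem_powers_iff_mem_zpowers).mpr (hg ⟨_, ⟨σ, hσ⟩, rfl⟩)
  refine ⟨i, σ * (τ.1 ^ i)⁻¹, ?_, by rw [inv_mul_cancel_right]⟩
  have hmem : σ * (τ.1 ^ i)⁻¹ ∈ A.inertiaSubgroupIn ℚ := mul_mem hσ (inv_mem (pow_mem τ.2 i))
  have h1 : psi A (σ * (τ.1 ^ i)⁻¹) π = 1 := by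
    rw [psi_mul h hσ (inv_mem (pow_mem τ.2 i)) hπ0, psi_inv h (pow_mem τ.2 i) hπ0,
      psi_pow h τ.2 hπ0]
    have := congrArg (fun u => ((u : (IsLocalRing.ResidueField A)ˣ) : IsLocalRing.ResidueField A))
      (congrArg Subtype.val hi)
    simp only [SubmonoidClass.coe_pow, Units.val_pow_eq_pow_val, MonoidHom.coe_toHomUnits] at this
    change psi A τ.1 π ^ i = psi A σ π at this
    rw [this]
    exact mul_inv_cancel₀ (psi_ne_zero h hσ hπ0)
  refine ⟨hmem, fun y hy hy0 => ?_⟩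
  -- being trivial on `π`, the quotient is trivial on all of `L`
  obtain ⟨m, hm⟩ := hgen y hy hy0
  rw [show y = y / π ^ m * π ^ m by rw [div_mul_cancel₀ _ (zpow_ne_zero _ hπ0)],
    psi_unit_mul h hmem hm]
  have hpow : ∀ j : ℕ, psi A (σ * (τ.1 ^ i)⁻¹) (π ^ j) = 1 := by
    intro j
    induction j with
    | zero => rw [pow_zero, psi, map_one, div_one, red_one]
    | succ j ih => rw [pow_succ, psi_mul_right h hmem (pow_ne_zero _ hπ0) hπ0, ih, h1, one_mul]
  rcases Int.eq_nat_or_neg m with ⟨j, rfl | rfl⟩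
  · rw [zpow_natCast]; exact hpow j
  · have h2 := psi_mul_right h hmem (zpow_ne_zero (-(j : ℤ)) hπ0) (pow_ne_zero j hπ0)
    rw [zpow_neg, zpow_natCast, inv_mul_cancel₀ (pow_ne_zero _ hπ0), hpow, mul_one] at h2
    rw [zpow_neg, zpow_natCast, ← h2, psi, map_one, div_one, red_one]

/-- `|I ⊓ J| |X| ≤ |I| |X ⊓ J|` for a subgroup `X` of `I`. -/
lemma card_inf_mul_le {G : Type*} [AddCommGroup G] [Finite G] {I J X : AddSubgroup G}
    (hX : X ≤ I) :
    Nat.card (I ⊓ J : AddSubgroup G) * Nat.card X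
      ≤ Nat.card I * Nat.card (X ⊓ J : AddSubgroup G) := by
  let g : (I ⊓ J : AddSubgroup G) × X →+ I :=
    AddMonoidHom.mk' (fun x => ⟨x.1.1 + x.2.1, add_mem x.1.2.1 (hX x.2.2)⟩) fun x y =>
      Subtype.ext (by simp only [Prod.fst_add, Prod.snd_add, AddSubgroup.coe_add]; abel)
  rw [← Nat.card_prod, AddSubgroup.card_eq_card_quotient_mul_card_addSubgroup g.ker,
    Nat.card_congr (QuotientAddGroup.quotientKerEquivRange g).toEquiv]
  refine Nat.mul_le_mul (Nat.card_le_card_of_injective Subtype.val Subtype.val_injective) ?_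
  refine Nat.card_le_card_of_injective (fun x : g.ker => (⟨x.1.2.1, x.1.2.2, ?_⟩ :
    (X ⊓ J : AddSubgroup G))) ?_
  · have hx : x.1.1.1 + x.1.2.1 = 0 := congrArg Subtype.val (AddMonoidHom.mem_ker.mp x.2)
    rw [eq_neg_of_add_eq_zero_right hx]
    exact J.neg_mem (AddSubgroup.mem_inf.mp x.1.1.2).2
  · intro x y hxy
    have hx2 : x.1.2.1 = y.1.2.1 := congrArg (fun z : (X ⊓ J : AddSubgroup G) => z.1) hxy
    have hx : x.1.1.1 + x.1.2.1 = 0 := congrArg Subtype.val (AddMonoidHom.mem_ker.mp x.2)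
    have hy : y.1.1.1 + y.1.2.1 = 0 := congrArg Subtype.val (AddMonoidHom.mem_ker.mp y.2)
    refine Subtype.ext (Prod.ext (Subtype.ext ?_) (Subtype.ext hx2))
    rw [eq_neg_of_add_eq_zero_left hx, eq_neg_of_add_eq_zero_left hy, hx2]

/-- The kernel of an endomorphism of `G ⧸ N` is as large as its cokernel. -/
lemma card_ker_map_eq_card_quotient {G : Type*} [AddCommGroup G] [Finite G] (N : AddSubgroup G)
    (f : G →+ G) (h : N ≤ N.comap f) :
    Nat.card (QuotientAddGroup.map N N f h).ker = Nat.card (G ⧸ N ⊔ f.range) := by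
  set d := QuotientAddGroup.map N N f h
  have e3 := AddSubgroup.card_eq_card_quotient_mul_card_addSubgroup d.range
  have e4 := AddSubgroup.card_eq_card_quotient_mul_card_addSubgroup d.ker
  rw [Nat.card_congr (QuotientAddGroup.quotientKerEquivRange d).toEquiv, mul_comm] at e4
  rw [e4] at e3
  rw [Nat.eq_of_mul_eq_mul_right Nat.card_pos e3]
  let g : G →+ (G ⧸ N) ⧸ d.range :=
    (QuotientAddGroup.mk' d.range).comp (QuotientAddGroup.mk' N)
  have hg : Function.Surjective g :=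
    (QuotientAddGroup.mk'_surjective _).comp (QuotientAddGroup.mk'_surjective N)
  have hgker : g.ker = N ⊔ f.range := by
    ext v
    constructor
    · intro hv
      obtain ⟨q, hq⟩ := (QuotientAddGroup.eq_zero_iff _).mp (AddMonoidHom.mem_ker.mp hv)
      induction q using QuotientAddGroup.induction_on with
      | H u =>
        change ((f u : G) : G ⧸ N) = (v : G ⧸ N) at hq
        rw [QuotientAddGroup.eq] at hq
        refine AddSubgroup.mem_sup.mpr ⟨_, hq, _, ⟨u, rfl⟩, ?_⟩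
        abel
    · intro hv
      obtain ⟨a, ha, y, ⟨u, rfl⟩, rfl⟩ := AddSubgroup.mem_sup.mp hv
      rw [AddMonoidHom.mem_ker, map_add]
      have ha' : g a = 0 := by
        change QuotientAddGroup.mk' d.range ((a : G) : G ⧸ N) = 0
        rw [(QuotientAddGroup.eq_zero_iff a).mpr ha, map_zero]
      rw [ha', zero_add]
      exact (QuotientAddGroup.eq_zero_iff _).mpr ⟨(u : G ⧸ N), rfl⟩
  rw [← hgker]
  exact (Nat.card_congr (QuotientAddGroup.quotientKerEquivOfSurjective g hg).toEquiv).symm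

variable {V : Type*} [AddCommGroup V] [DistribMulAction Γℚ V]

namespace Ctx

variable (C : Ctx V)

/-- A Frobenius at `p` and a subgroup fixed by inertia with small Frobenius-fixed part. -/
structure FrobP where
  /-- A Frobenius at the place over `p`. -/
  φ : Γℚ
  /-- `φ` is a Frobenius at that place. -/
  hφ : C.Ap.IsFrobeniusAt φ C.p
  /-- The subgroup on which Frobenius has few fixed points. -/
  X : AddSubgroup V
  /-- Inertia at `p` fixes the subgroup pointwise. -/
  fixed : ∀ σ ∈ C.Ap.inertiaSubgroupIn ℚ, ∀ w ∈ X, σ • w = w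
  /-- An integer killing the Frobenius-fixed part of the subgroup. -/
  N : ℕ
  /-- The elements of the subgroup fixed by Frobenius are killed by `N`. -/
  hX : ∀ w ∈ X, φ • w = w → N • w = 0

/-- Selmer cocycles of level `L`. -/
def levelSel (L : IntermediateField ℚ ℚbar) : AddSubgroup (Γℚ → V) :=
  C.sel ⊓
  { carrier := {c | ∀ σ : Γℚ, ∀ τ ∈ L.fixingSubgroup, c (σ * τ) = c σ}
    zero_mem' := fun _ _ _ => rfl
    add_mem' := fun ha hb σ τ hτ => by simp only [Pi.add_apply, ha σ τ hτ, hb σ τ hτ]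
    neg_mem' := fun ha σ τ hτ => by simp only [Pi.neg_apply, ha σ τ hτ] }

/-- Elements fixed by inertia at `p`. -/
def inertiaFix : AddSubgroup V where
  carrier := {v | ∀ σ ∈ C.Ap.inertiaSubgroupIn ℚ, σ • v = v}
  zero_mem' := fun σ _ => smul_zero σ
  add_mem' := fun ha hb σ hσ => by rw [smul_add, ha σ hσ, hb σ hσ]
  neg_mem' := fun ha σ hσ => by rw [smul_neg, ha σ hσ]

/-- The elements `τ • v - v`. -/
def movedBy (τ : Γℚ) : AddSubgroup V := (DistribSMul.toAddMonoidHom V τ - AddMonoidHom.id V).range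

/-- `τ v - v` is moved by `τ`. -/
lemma smul_sub_mem_movedBy (τ : Γℚ) (v : V) : τ • v - v ∈ movedBy τ := ⟨v, rfl⟩

/-- `τ ^ i v - v` is moved by `τ`. -/
lemma pow_smul_sub_mem_movedBy (τ : Γℚ) (i : ℕ) (v : V) : τ ^ i • v - v ∈ movedBy τ := by
  induction i with
  | zero => simp
  | succ i ih =>
    have := add_mem (smul_sub_mem_movedBy τ (τ ^ i • v)) ih
    rwa [sub_add_sub_cancel, ← mul_smul, ← pow_succ'] at this

/-- A cocycle on `τ ^ i` is `i` times its value at `τ`, modulo the elements moved by `τ`. -/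
lemma sel_pow_sub_mem_movedBy {C : Ctx V} {c : Γℚ → V} (hc : c ∈ C.sel) (τ : Γℚ) (i : ℕ) :
    c (τ ^ i) - i • c τ ∈ movedBy τ := by
  induction i with
  | zero => simp [sel_one hc]
  | succ i ih =>
    have := add_mem ih (pow_smul_sub_mem_movedBy τ i (c τ))
    rw [pow_succ, sel_mul hc, succ_nsmul]
    convert this using 1
    abel

variable [Finite V] [Fact C.n.Prime]

/-- Inertia at `p` acts through elements of `n`-power order on a residual module. -/
lemma exists_pow_fix (hres : C.Residual) {σ : Γℚ} (hσ : σ ∈ C.Ap.inertiaSubgroupIn ℚ) :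
    ∃ j : ℕ, ∀ v : V, σ ^ C.n ^ j • v = v := by
  -- induction along a filtration of `V` by residual steps
  have key : ∀ (d : ℕ) (S : AddSubgroup V), Nat.card V - Nat.card S ≤ d →
      (∀ σ : Γℚ, ∀ a ∈ S, σ • a ∈ S) → (∃ j : ℕ, ∀ v ∈ S, σ ^ C.n ^ j • v = v) →
      ∃ j : ℕ, ∀ v : V, σ ^ C.n ^ j • v = v := by
    intro d
    induction d with
    | zero =>
      intro S hd _ hj
      have : S = ⊤ := AddSubgroup.eq_top_of_card_eq S
        (le_antisymm (AddSubgroup.card_le_card_addGroup S) (by omega))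
      obtain ⟨j, hj⟩ := hj
      exact ⟨j, fun v => hj v (this ▸ trivial)⟩
    | succ d ih =>
      intro S hd hS hj
      by_cases htop : S = ⊤
      · obtain ⟨j, hj⟩ := hj
        exact ⟨j, fun v => hj v (htop ▸ trivial)⟩
      obtain ⟨b, hb, hnb, hact⟩ := hres S hS htop
      obtain ⟨j, hj⟩ := hj
      -- inertia acts trivially on the next step modulo `S`
      have hσb : σ • b - b ∈ S := by
        rcases hact with h | h
        · exact h σ
        · have := h σ
          rwa [C.cexp_eq_one (cycChar_eq_one_of_mem_inertia C.hp.1 C.hpn C.hp.2 hσ), one_smul]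
            at this
      have hN : σ ^ C.n ^ j • b - b ∈ S := by
        have : ∀ i : ℕ, σ ^ i • b - b ∈ S := by
          intro i
          induction i with
          | zero => simp
          | succ i ih =>
            have := add_mem (hS σ _ ih) hσb
            rwa [smul_sub, sub_add_sub_cancel, ← mul_smul, ← pow_succ'] at this
        exact this _
      set g := σ ^ C.n ^ j
      -- so a power of `σ` translates `b` by an element fixed by it, and a further power fixes it
      have hiter : ∀ i : ℕ, g ^ i • b = b + i • (g • b - b) := by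
        intro i
        induction i with
        | zero => simp
        | succ i ih =>
          rw [pow_succ', mul_smul, ih, smul_add, smul_comm g i, hj _ hN, succ_nsmul]
          abel
      refine ih (S ⊔ AddSubgroup.zmultiples b) ?_ ?_ ⟨j + C.r, ?_⟩
      · have : Nat.card S < Nat.card (S ⊔ AddSubgroup.zmultiples b : AddSubgroup V) :=
          Set.Finite.card_lt_card (Set.toFinite _) (SetLike.coe_ssubset_coe.mpr
            (lt_of_le_of_ne le_sup_left fun h =>
              hb (h ▸ le_sup_right (a := S) (AddSubgroup.mem_zmultiples b))))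
        omega
      · exact C.smul_mem_sup hS hact
      · intro v hv
        obtain ⟨a, ha, y, hy, rfl⟩ := AddSubgroup.mem_sup.mp hv
        obtain ⟨k, rfl⟩ := AddSubgroup.mem_zmultiples_iff.mp hy
        rw [pow_add, pow_mul, smul_add, smul_comm _ k b]
        congr 1
        · have : ∀ i : ℕ, g ^ i • a = a := by
            intro i
            induction i with
            | zero => simp
            | succ i ih => rw [pow_succ', mul_smul, ih, hj a ha]
          exact this _
        · rw [hiter, C.killed, add_zero]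
  refine key (Nat.card V) ⊥ (by omega) (fun τ a ha => ?_) ⟨0, fun v hv => ?_⟩
  · rw [AddSubgroup.mem_bot] at ha ⊢; rw [ha, smul_zero]
  · rw [AddSubgroup.mem_bot] at hv; rw [hv, smul_zero]

omit [Fact C.n.Prime] in
/-- A level has finitely many Selmer cocycles. -/
lemma finite_levelSel (L : IntermediateField ℚ ℚbar) [FiniteDimensional ℚ L] [Normal ℚ L] :
    Finite (C.levelSel L) := by
  set res := AlgEquiv.restrictNormalHom (F := ℚ) (K₁ := ℚbar) L
  have hwd : ∀ c ∈ C.levelSel L, ∀ σ σ' : Γℚ, res σ = res σ' → c σ = c σ' := fun c hc σ σ' h => by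
    have : σ⁻¹ * σ' ∈ L.fixingSubgroup := by
      rw [← Fermat.CFT.restrict_eq_one_iff]
      change res (σ⁻¹ * σ') = 1
      rw [map_mul, map_inv, h, inv_mul_cancel]
    have := hc.2 σ _ this
    rwa [mul_inv_cancel_left, eq_comm] at this
  refine Finite.of_injective (fun c : C.levelSel L => fun g => c.1 (Function.surjInv
    (AlgEquiv.restrictNormalHom_surjective (F := ℚ) (K₁ := L) ℚbar) g)) fun c d h => ?_
  refine Subtype.ext (funext fun σ => ?_)
  have := congrFun h (res σ)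
  simp only at this
  rwa [hwd _ c.2 _ σ (Function.surjInv_eq _ _), hwd _ d.2 _ σ (Function.surjInv_eq _ _)] at this

/-- Wild inertia at `p` fixes `V` and kills the cocycles of the level. -/
lemma wild_trivial (hres : C.Residual) (L : IntermediateField ℚ ℚbar) [FiniteDimensional ℚ L]
    [Normal ℚ L] (hL : ∀ σ ∈ L.fixingSubgroup, ∀ v : V, σ • v = v) {w : Γℚ}
    (hw : w ∈ wildOn C.Ap L) : (∀ v : V, w • v = v) ∧ ∀ c ∈ C.levelSel L, c w = 0 := by
  set res := AlgEquiv.restrictNormalHom (F := ℚ) (K₁ := ℚbar) L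
  obtain ⟨a, ha⟩ := exists_pow_eq_one_of_wild (ρ := res) C.hp
    (fun σ hσ => (Fermat.CFT.restrict_eq_one_iff L σ).mpr hσ) hw
  have hmem : w ^ C.p ^ a ∈ L.fixingSubgroup := by
    rw [← Fermat.CFT.restrict_eq_one_iff]
    change res (w ^ C.p ^ a) = 1
    rw [map_pow]; exact ha
  obtain ⟨j, hj⟩ := C.exists_pow_fix hres hw.1
  have hcop : ∀ i, Nat.Coprime (C.p ^ a) (C.n ^ i) := fun i =>
    Nat.Coprime.pow _ _ ((Nat.coprime_primes C.hp.1 C.hn.1).mpr C.hpn)
  have htriv : ∀ v : V, w • v = v := by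
    set π : Equiv.Perm V := MulAction.toPermHom Γℚ V w
    have h1 : π ^ C.p ^ a = 1 := by
      rw [← map_pow]; exact Equiv.ext fun v => hL _ hmem v
    have h2 : π ^ C.n ^ j = 1 := by
      rw [← map_pow]; exact Equiv.ext hj
    have h3 := pow_gcd_eq_one.mpr ⟨h1, h2⟩
    rw [hcop j, pow_one] at h3
    exact fun v => Equiv.Perm.congr_fun h3 v
  refine ⟨htriv, fun c hc => ?_⟩
  have hpow : ∀ i : ℕ, c (w ^ i) = i • c w := by
    intro i
    induction i with
    | zero => rw [pow_zero, sel_one hc.1, zero_smul]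
    | succ i ih => rw [pow_succ', sel_mul hc.1, ih, htriv, succ_nsmul']
  have h2 := hc.2 1 _ hmem
  rw [one_mul, sel_one hc.1, hpow] at h2
  have hd : addOrderOf (c w) ∣ Nat.gcd (C.p ^ a) (C.n ^ C.r) :=
    Nat.dvd_gcd (addOrderOf_dvd_of_nsmul_eq_zero h2)
      (addOrderOf_dvd_of_nsmul_eq_zero (C.killed _))
  rw [hcop C.r, Nat.dvd_one, AddMonoid.addOrderOf_eq_one_iff] at hd
  exact hd

omit [Finite V] [Fact C.n.Prime] in
/-- The inertia invariants are the fixed points of a tame generator. -/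
lemma mem_inertiaFix_of_smul_eq {L : IntermediateField ℚ ℚbar} {τ : Γℚ}
    (hwild : ∀ w ∈ wildOn C.Ap L, ∀ v : V, w • v = v)
    (hgen : ∀ σ ∈ C.Ap.inertiaSubgroupIn ℚ, ∃ i : ℕ, ∃ w ∈ wildOn C.Ap L, σ = w * τ ^ i)
    {v : V} (hv : τ • v = v) : v ∈ C.inertiaFix := fun σ hσ => by
  obtain ⟨i, w, hw, rfl⟩ := hgen σ hσ
  rw [mul_smul, hwild w hw]
  clear hσ
  induction i with
  | zero => simp
  | succ i ih => rw [pow_succ, mul_smul, hv, ih]

omit [Finite V] [Fact C.n.Prime] in
/-- A cocycle of the level equal to `τ • b - b` at a tame generator `τ` is so on inertia at `p`. -/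
lemma eq_smul_sub_of_tame {L : IntermediateField ℚ ℚbar} {τ : Γℚ}
    (hwild : ∀ w ∈ wildOn C.Ap L, (∀ v : V, w • v = v) ∧ ∀ c ∈ C.levelSel L, c w = 0)
    (hgen : ∀ σ ∈ C.Ap.inertiaSubgroupIn ℚ, ∃ i : ℕ, ∃ w ∈ wildOn C.Ap L, σ = w * τ ^ i)
    {c : Γℚ → V} (hc : c ∈ C.levelSel L) {b : V} (hb : τ • b - b = c τ) {σ : Γℚ}
    (hσ : σ ∈ C.Ap.inertiaSubgroupIn ℚ) : c σ = σ • b - b := by
  obtain ⟨i, w, hw, rfl⟩ := hgen σ hσ
  rw [sel_mul hc.1, (hwild w hw).2 _ hc, zero_add, (hwild w hw).1, mul_smul, (hwild w hw).1]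
  clear hσ
  induction i with
  | zero => simp [sel_one hc.1]
  | succ i ih =>
    rw [pow_succ', sel_mul hc.1, ih, ← hb, smul_sub, mul_smul]
    abel

omit [Finite V] [Fact C.n.Prime] in
/-- Frobenius acts as `p` on the classes of cocycles at a tame generator. -/
lemma frob_sub_mem_movedBy {φ τ w : Γℚ} (hconj : φ * τ * φ⁻¹ = w * τ ^ C.p)
    (hwv : ∀ v : V, w • v = v) {c : Γℚ → V} (hc : c ∈ C.sel) (hwc : c w = 0) :
    φ • c τ - C.p • c τ ∈ movedBy τ := by
  have h2 : c (φ * τ * φ⁻¹) = c (τ ^ C.p) := by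
    rw [hconj, sel_mul hc, hwc, zero_add, hwv]
  rw [sel_mul hc (φ * τ), sel_mul hc φ] at h2
  have h3 : c φ⁻¹ = -(φ⁻¹ • c φ) := by
    have e := sel_mul hc φ⁻¹ φ
    rw [inv_mul_cancel, sel_one hc] at e
    exact eq_neg_of_add_eq_zero_left e.symm
  rw [h3, smul_neg, ← mul_smul, hconj, mul_smul, hwv] at h2
  have h4 := add_mem (sel_pow_sub_mem_movedBy hc τ C.p)
    (pow_smul_sub_mem_movedBy τ C.p (c φ))
  rw [← h2] at h4
  convert h4 using 1
  abel

/-- Cocycles of the level, of valuation zero at `n` and trivial in the coinvariants at `p`, are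
bounded by the dévissage. -/
lemma card_mul_inertiaFix_le (hres : C.Residual) {L : IntermediateField ℚ ℚbar} {τ : Γℚ}
    (hwild : ∀ w ∈ wildOn C.Ap L, (∀ v : V, w • v = v) ∧ ∀ c ∈ C.levelSel L, c w = 0)
    (hgen : ∀ σ ∈ C.Ap.inertiaSubgroupIn ℚ, ∃ i : ℕ, ∃ w ∈ wildOn C.Ap L, σ = w * τ ^ i)
    (K : AddSubgroup (C.levelSel L))
    (hK : ∀ c ∈ K, C.valHom ⟨c.1, c.2.1⟩ = 0 ∧ c.1 τ ∈ movedBy τ) :
    Nat.card K * Nat.card C.inertiaFix ≤ Nat.card V * Nat.card C.V0 := by
  obtain ⟨hPfin, hP⟩ := C.pairs_le hres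
  refine le_trans ?_ hP
  have := hPfin
  have hb : ∀ c : K, ∃ b : V, ∀ σ ∈ C.Ap.inertiaSubgroupIn ℚ, c.1.1 σ = σ • b - b := fun c => by
    obtain ⟨b, hb⟩ := (hK c.1 c.2).2
    exact ⟨b, fun σ hσ => C.eq_smul_sub_of_tame hwild hgen c.1.2 hb hσ⟩
  choose b hb using hb
  rw [← Nat.card_prod]
  refine Nat.card_le_card_of_injective (fun x : K × C.inertiaFix =>
    (⟨(x.1.1.1, b x.1 + x.2.1), ?_⟩ : C.pairs ⊤)) ?_
  · refine ⟨x.1.1.2.1, (hK x.1.1 x.1.2).1, fun σ hσ => ?_, fun _ => trivial, trivial⟩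
    change x.1.1.1 σ = σ • (b x.1 + x.2.1) - (b x.1 + x.2.1)
    rw [hb x.1 σ hσ, smul_add, x.2.2 σ hσ]; abel
  · rintro ⟨c, u⟩ ⟨c', u'⟩ h
    have h' := congrArg (fun y : C.pairs ⊤ => y.1) h
    simp only [Prod.mk.injEq] at h'
    obtain ⟨h1, h2⟩ := h'
    have hc : c = c' := Subtype.ext (Subtype.ext h1)
    subst hc
    exact Prod.ext rfl (Subtype.ext (add_left_cancel h2))

omit [Fact C.n.Prime] in
/-- The pairing is non-degenerate on the right. -/
lemma eq_zero_of_forall_e {y : V} (hy : ∀ x, C.e x y = 0) : y = 0 := by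
  have h := card_perp_mul_card C.e (smallTorsion_units _) C.nondeg ⊤
  rw [AddSubgroup.card_top] at h
  have h1 : Nat.card (perp C.e (⊤ : AddSubgroup V)) = 1 :=
    Nat.eq_of_mul_eq_mul_right Nat.card_pos (h.trans (one_mul _).symm)
  have := AddSubgroup.eq_bot_of_card_eq _ h1
  exact AddSubgroup.mem_bot.mp (this ▸ fun x _ => hy x)

omit [Fact C.n.Prime] in
/-- The orthogonal of `(τ - 1) V + (φ - p) V` is fixed by `τ` and the Frobenius `φ`. -/
lemma smul_eq_of_mem_perp {φ τ : Γℚ} (hφ : C.Ap.IsFrobeniusAt φ C.p)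
    (hτ : τ ∈ C.Ap.inertiaSubgroupIn ℚ) {y : V}
    (hy : y ∈ perp C.e
      (movedBy τ ⊔ (DistribSMul.toAddMonoidHom V φ - nsmulAddMonoidHom C.p).range)) :
    τ • y = y ∧ φ • y = y := by
  have hpn : ¬ C.p ∣ C.n ^ C.r := fun hd => C.hpn
    ((Nat.prime_dvd_prime_iff_eq C.hp.1 C.hn.1).mp (C.hp.1.dvd_of_dvd_pow hd))
  refine ⟨sub_eq_zero.mp (C.eq_zero_of_forall_e fun x => ?_),
    sub_eq_zero.mp (C.eq_zero_of_forall_e fun x => ?_)⟩
  · have e1 := C.e_gal τ (τ⁻¹ • x) y
    rw [smul_inv_smul] at e1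
    have e2 : gal τ (C.e (τ⁻¹ • x) y) = C.e (τ⁻¹ • x) y := num_injective (by
      rw [num_gal]; exact apply_root_eq C.hp hpn (C.num_pow _ _) (isInert_of_mem_inertia hτ))
    have e3 : C.e (x - τ⁻¹ • x) y = 0 := hy _ (le_sup_left (a := movedBy τ)
      (by simpa using smul_sub_mem_movedBy τ (τ⁻¹ • x)))
    rw [map_sub, AddMonoidHom.sub_apply, sub_eq_zero] at e3
    rw [map_sub, ← e1, e2, e3, sub_self]
  · have e1 := C.e_gal φ (φ⁻¹ • x) y
    rw [smul_inv_smul] at e1
    have e2 : gal φ (C.e (φ⁻¹ • x) y) = C.p • C.e (φ⁻¹ • x) y := num_injective (by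
      rw [num_gal, num_nsmul]; exact frob_apply_root C.hp hφ hpn (C.num_pow _ _))
    have e3 : C.e (φ • (φ⁻¹ • x) - C.p • (φ⁻¹ • x)) y = 0 :=
      hy _ (le_sup_right (a := movedBy τ) ⟨φ⁻¹ • x, rfl⟩)
    rw [map_sub, AddMonoidHom.sub_apply, smul_inv_smul, map_nsmul, AddMonoidHom.nsmul_apply,
      sub_eq_zero] at e3
    rw [map_sub, ← e1, e2, e3, sub_self]

omit [Fact C.n.Prime] in
/-- The kernel of `φ - p` on the coinvariants, times `#X`, has order at most that of the inertia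
invariants times `#V[N]`. -/
lemma card_frob_ker_le (Fp : C.FrobP) {L : IntermediateField ℚ ℚbar} {τ : Γℚ}
    (hτ : τ ∈ C.Ap.inertiaSubgroupIn ℚ) (hwild : ∀ w ∈ wildOn C.Ap L, ∀ v : V, w • v = v)
    (hgen : ∀ σ ∈ C.Ap.inertiaSubgroupIn ℚ, ∃ i : ℕ, ∃ w ∈ wildOn C.Ap L, σ = w * τ ^ i)
    (h : movedBy τ ≤
      (movedBy τ).comap (DistribSMul.toAddMonoidHom V Fp.φ - nsmulAddMonoidHom C.p)) :
    Nat.card (QuotientAddGroup.map (movedBy τ) (movedBy τ) _ h).ker * Nat.card Fp.X
      ≤ Nat.card C.inertiaFix * Nat.card (tors V Fp.N) := by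
  set U := movedBy τ ⊔ (DistribSMul.toAddMonoidHom V Fp.φ - nsmulAddMonoidHom C.p).range
  have h1 : Nat.card (perp C.e U) = Nat.card (V ⧸ U) :=
    Nat.eq_of_mul_eq_mul_right Nat.card_pos
      ((card_perp_mul_card C.e (smallTorsion_units _) C.nondeg U).trans
        (AddSubgroup.card_eq_card_quotient_mul_card_addSubgroup U))
  rw [card_ker_map_eq_card_quotient, ← h1]
  set fφ : AddSubgroup V := (DistribSMul.toAddMonoidHom V Fp.φ - AddMonoidHom.id V).ker
  have hsub : perp C.e U ≤ C.inertiaFix ⊓ fφ := fun y hy =>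
    have h2 := C.smul_eq_of_mem_perp Fp.hφ hτ hy
    AddSubgroup.mem_inf.mpr ⟨C.mem_inertiaFix_of_smul_eq hwild hgen h2.1, sub_eq_zero.mpr h2.2⟩
  -- fixed points meet `X` in torsion
  have hX : Fp.X ⊓ fφ ≤ tors V Fp.N := fun w hw =>
    mem_tors.mpr (Fp.hX w hw.1 (sub_eq_zero.mp (AddMonoidHom.mem_ker.mp hw.2)))
  have hfix : Fp.X ≤ C.inertiaFix := fun w hw σ hσ => Fp.fixed σ hσ w hw
  exact (Nat.mul_le_mul_right _ (AddSubgroup.card_le_of_le hsub)).trans
    ((card_inf_mul_le hfix).trans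
      (Nat.mul_le_mul_left _ (AddSubgroup.card_le_of_le hX)))

/-- **The descent bound.** With Frobenius data at `n` and `p` the Selmer group at the level `L` is
finite, of order bounded by torsion orders. -/
theorem card_levelSel_le (hres : C.Residual) (Fn : C.FrobN) (Fp : C.FrobP)
    (L : IntermediateField ℚ ℚbar) [FiniteDimensional ℚ L] [Normal ℚ L]
    (hL : ∀ σ ∈ L.fixingSubgroup, ∀ v : V, σ • v = v) :
    Finite (C.levelSel L) ∧ Nat.card (C.levelSel L) * Nat.card Fp.X ≤
      Nat.card V * Nat.card C.V0 * (Nat.card (tors V Fn.N) * Nat.card (tors V Fn.N))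
        * Nat.card (tors V Fp.N) := by
  set M := C.levelSel L
  have : Finite M := C.finite_levelSel L
  refine ⟨inferInstance, ?_⟩
  obtain ⟨τ, hτ, hgen⟩ := exists_tame_generator C.hp L
  have hwild := fun w (hw : w ∈ wildOn C.Ap L) => C.wild_trivial hres L hL hw
  obtain ⟨w₀, hw₀, hconj⟩ : ∃ w ∈ wildOn C.Ap L, Fp.φ * τ * Fp.φ⁻¹ = w * τ ^ C.p :=
    ⟨_, frob_conj_mem_wildOn C.hp Fp.hφ hτ, by rw [inv_mul_cancel_right]⟩
  -- the coinvariants and their endomorphism `φ - p`
  set U0 : AddSubgroup V := movedBy τ with hU0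
  have hU0φ : U0 ≤ U0.comap (DistribSMul.toAddMonoidHom V Fp.φ - nsmulAddMonoidHom C.p) := by
    intro u hu
    refine AddSubgroup.mem_comap.mpr (sub_mem ?_ (nsmul_mem hu _))
    obtain ⟨v, rfl⟩ := hu
    change Fp.φ • (τ • v - v) ∈ U0
    have e : Fp.φ • τ • v = τ ^ C.p • (Fp.φ • v) := by
      rw [← mul_smul, show Fp.φ * τ = w₀ * τ ^ C.p * Fp.φ by
        rw [← hconj, inv_mul_cancel_right], mul_smul, mul_smul, (hwild w₀ hw₀).1]
    rw [smul_sub, e]
    exact pow_smul_sub_mem_movedBy _ _ _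
  set d := QuotientAddGroup.map U0 U0 _ hU0φ
  -- valuation at `n` and class at `τ`
  let K : M →+ V ⧸ U0 := (QuotientAddGroup.mk' U0).comp
    (AddMonoidHom.mk' (fun c : M => c.1 τ) fun _ _ => rfl)
  let val : M →+ (V →+ AddCircle (1 : ℚ)) :=
    C.valHom.comp (AddSubgroup.inclusion (inf_le_left : M ≤ C.sel))
  let Φ : M →+ (V →+ AddCircle (1 : ℚ)) × (V ⧸ U0) := val.prod K
  have hKrange : K.range ≤ d.ker := by
    rintro _ ⟨c, rfl⟩
    exact (QuotientAddGroup.eq_zero_iff _).mpr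
      (C.frob_sub_mem_movedBy hconj (hwild w₀ hw₀).1 c.2.1 ((hwild w₀ hw₀).2 _ c.2))
  have hker : Nat.card Φ.ker * Nat.card C.inertiaFix ≤ Nat.card V * Nat.card C.V0 :=
    C.card_mul_inertiaFix_le hres hwild hgen Φ.ker fun c hc =>
      ⟨congrArg Prod.fst (AddMonoidHom.mem_ker.mp hc),
        (QuotientAddGroup.eq_zero_iff _).mp (congrArg Prod.snd (AddMonoidHom.mem_ker.mp hc))⟩
  have hdker : Nat.card d.ker * Nat.card Fp.X ≤ Nat.card C.inertiaFix * Nat.card (tors V Fp.N) :=
    C.card_frob_ker_le Fp hτ (fun w hw => (hwild w hw).1) hgen hU0φ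
  -- assembly
  have := finite_hom (G := V) (smallTorsion_circle)
  have hrange : Nat.card Φ.range ≤ Nat.card C.valHom.range * Nat.card d.ker := by
    rw [← Nat.card_prod]
    refine Nat.card_le_card_of_injective (fun y : Φ.range =>
      ((⟨y.1.1, ?_⟩ : C.valHom.range), (⟨y.1.2, ?_⟩ : d.ker))) fun y z h => ?_
    · obtain ⟨_, c, rfl⟩ := y
      exact ⟨_, rfl⟩
    · obtain ⟨_, c, rfl⟩ := y
      exact hKrange ⟨c, rfl⟩
    · exact Subtype.ext (Prod.ext (congrArg (fun u => u.1.1) h) (congrArg (fun u => u.2.1) h))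
  rw [AddSubgroup.card_eq_card_quotient_mul_card_addSubgroup Φ.ker,
    Nat.card_congr (QuotientAddGroup.quotientKerEquivRange Φ).toEquiv]
  calc Nat.card Φ.range * Nat.card Φ.ker * Nat.card Fp.X
      ≤ Nat.card C.valHom.range * Nat.card Φ.ker * (Nat.card d.ker * Nat.card Fp.X) := by
        have := Nat.mul_le_mul_right (Nat.card Φ.ker * Nat.card Fp.X) hrange
        linarith
    _ ≤ Nat.card C.valHom.range * Nat.card Φ.ker
          * (Nat.card C.inertiaFix * Nat.card (tors V Fp.N)) :=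
        Nat.mul_le_mul_left _ hdker
    _ = Nat.card C.valHom.range * (Nat.card Φ.ker * Nat.card C.inertiaFix)
          * Nat.card (tors V Fp.N) := by
        ring
    _ ≤ (Nat.card (tors V Fn.N) * Nat.card (tors V Fn.N)) * (Nat.card V * Nat.card C.V0)
          * Nat.card (tors V Fp.N) :=
        Nat.mul_le_mul_right _ (Nat.mul_le_mul (card_valHom_range_le Fn) hker)
    _ = _ := by ring

end Ctx

end Fermat.HT.Descent

end
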