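import Fermat.Agent.MF.Petersson.Inner
import Fermat.Agent.GR.ES.Gamma0

/-!
# `T_ℓ` has no eigenvalue of absolute value `ℓ + 1` on cusp forms

`y |f|` attains a maximum; at a maximum every branch of `T_ℓ` would be maximal as well, in
particular the point `ℓ τ`, but `y |f| → 0` at `∞` (at every cusp and for every arithmetic
group: `isZeroAtImInfty_norm_petersson`).
-/

set_option autoImplicit false

noncomputable section

open UpperHalfPlane hiding I
open Filter Topology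
open scoped Modular MatrixGroups Manifold Pointwise

namespace Fermat.HT.Descent

open CongruenceSubgroup Matrix.SpecialLinearGroup
open Fermat.GR (FullHecke)

/-- An invariant continuous function vanishing at all cusps attains its maximum. -/
theorem exists_max {f : ℍ → ℝ} (hc : Continuous f) (h0 : ∀ τ, 0 ≤ f τ)
    (hinf : ∀ g : SL(2, ℤ), IsZeroAtImInfty fun τ => f (g • τ))
    {Γ : Subgroup SL(2, ℤ)} [Γ.FiniteIndex] (hinv : ∀ g ∈ Γ, ∀ τ, f (g • τ) = f τ) :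
    ∃ τ₀, ∀ τ, f τ ≤ f τ₀ := by
  classical
  by_cases hz : ∀ τ, f τ = 0
  · exact ⟨UpperHalfPlane.I, fun τ => by rw [hz, hz]⟩
  push Not at hz
  obtain ⟨τ₁, hτ₁⟩ := hz
  have hpos : 0 < f τ₁ := lt_of_le_of_ne (h0 τ₁) (Ne.symm hτ₁)
  have : Fintype (SL(2, ℤ) ⧸ Γ) := Subgroup.fintypeQuotientOfFiniteIndex
  -- near infinity every translate of `f` is smaller than the positive value `f τ₁`
  have hbig : ∀ q : SL(2, ℤ) ⧸ Γ, ∀ᶠ τ in atImInfty, f (q.out⁻¹ • τ) < f τ₁ := fun q => by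
    exact (hinf _).eventually_lt_const hpos
  obtain ⟨y, hy⟩ : ∃ y : ℝ, ∀ τ : ℍ, y ≤ τ.im → ∀ q : SL(2, ℤ) ⧸ Γ, f (q.out⁻¹ • τ) < f τ₁ := by
    have h := Filter.eventually_all.mpr hbig
    obtain ⟨y, hy⟩ := (atImInfty_mem _).mp h
    exact ⟨y, fun τ hτ q => hy τ hτ q⟩
  -- every value is one of a translate on the fundamental domain
  have hrep : ∀ τ, ∃ (σ : ℍ) (q : SL(2, ℤ) ⧸ Γ), σ ∈ 𝒟 ∧ f τ = f (q.out⁻¹ • σ) := fun τ => by
    obtain ⟨g, hg⟩ := ModularGroup.exists_smul_mem_fd τ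
    refine ⟨g • τ, QuotientGroup.mk g, hg, ?_⟩
    obtain ⟨γ, hγ⟩ := QuotientGroup.mk_out_eq_mul Γ g
    rw [hγ, ← mul_smul, mul_inv_rev, mul_assoc, inv_mul_cancel, mul_one]
    exact (hinv _ (inv_mem γ.2) τ).symm
  obtain ⟨σ₁, q₁, hσ₁, he₁⟩ := hrep τ₁
  have hσ₁y : σ₁.im ≤ y := by
    by_contra hc
    exact lt_irrefl _ (he₁ ▸ hy σ₁ (not_le.mp hc).le q₁)
  -- so the maximum over finitely many translates on the truncated compact domain will do
  have hK := ModularGroup.isCompact_truncatedFundamentalDomain y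
  have hne : (ModularGroup.truncatedFundamentalDomain y).Nonempty := ⟨σ₁, hσ₁, hσ₁y⟩
  have hcont : ∀ q : SL(2, ℤ) ⧸ Γ, Continuous fun σ : ℍ => f (q.out⁻¹ • σ) := fun q =>
    hc.comp (continuous_const_smul ((q.out⁻¹ : SL(2, ℤ)) : GL (Fin 2) ℝ))
  choose m hm hmax using fun q => hK.exists_isMaxOn hne (hcont q).continuousOn
  obtain ⟨q₀, -, hq₀⟩ := Finset.exists_max_image Finset.univ (fun q => f (q.out⁻¹ • m q))
    ⟨q₁, Finset.mem_univ _⟩
  refine ⟨q₀.out⁻¹ • m q₀, fun τ => ?_⟩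
  obtain ⟨σ, q, hσ, he⟩ := hrep τ
  have hstep : ∀ (σ : ℍ) (q : SL(2, ℤ) ⧸ Γ), σ ∈ 𝒟 → σ.im ≤ y → f (q.out⁻¹ • σ) ≤
      f (q₀.out⁻¹ • m q₀) :=
    fun σ q h1 h2 => (isMaxOn_iff.mp (hmax q) σ ⟨h1, h2⟩).trans (hq₀ q (Finset.mem_univ q))
  rcases le_total σ.im y with h | h
  · exact he ▸ hstep σ q hσ h
  · exact he ▸ ((hy σ h q).le.trans (he₁ ▸ hstep σ₁ q₁ hσ₁ hσ₁y))

/-- The Petersson integrand `|f|² y²` of a cusp form tends to zero at every cusp. -/
theorem isZeroAtImInfty_norm_petersson {Γ : Subgroup (GL (Fin 2) ℝ)} [Γ.IsArithmetic]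
    (f : CuspForm Γ 2) (g : SL(2, ℤ)) :
    IsZeroAtImInfty fun τ => ‖petersson 2 f f (g • τ)‖ := by
  simp_rw [← UpperHalfPlane.petersson_slash_SL]
  rw [IsZeroAtImInfty, ZeroAtFilter, ← tendsto_zero_iff_norm_tendsto_zero]
  have : ((ConjAct.toConjAct (g : GL (Fin 2) ℝ)⁻¹) • Γ).IsArithmetic := by
    simpa [(show Rat.castHom ℝ = algebraMap ℚ ℝ by rfl), map_inv, map_mapGL]
      using! Subgroup.IsArithmetic.conj Γ (mapGL ℚ g)⁻¹
  exact (CuspFormClass.zero_at_infty <| CuspForm.translate f g).petersson_isZeroAtImInfty_left 2 _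
    (CuspForm.translate f g)

variable {p : ℕ} [NeZero p]

/-- `T_ℓ f = μ f` with `|μ| = ℓ + 1` forces `f = 0`. -/
theorem heckeT_eigen_eq_zero {ℓ : ℕ} (hℓ : ℓ.Prime) (hℓp : ¬ ℓ ∣ p) {μ : ℂ}
    (hμ : (ℓ : ℝ) + 1 ≤ ‖μ‖) (f : CuspForm (Gamma0 p) 2)
    (hf : CuspForm.heckeTLin 2 hℓ hℓp f = μ • f) : f = 0 := by
  set h : ℍ → ℝ := fun τ => ‖f τ‖ * τ.im
  have hsq : ∀ τ, h τ ^ 2 = ‖petersson 2 f f τ‖ := fun τ => by
    rw [Fermat.MF.Petersson.norm_petersson, sq]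
  have hh0 : ∀ τ, 0 ≤ h τ := fun τ => mul_nonneg (norm_nonneg _) τ.im_pos.le
  have hinf : ∀ g : SL(2, ℤ), IsZeroAtImInfty fun τ => h (g • τ) ^ 2 := fun g => by
    simp_rw [hsq]
    exact isZeroAtImInfty_norm_petersson f g
  have hcf : Continuous ⇑f := (CuspFormClass.holo f).continuous
  have hinv : ∀ g ∈ Gamma0 p, ∀ τ, h (g • τ) ^ 2 = h τ ^ 2 := fun g hg τ => by
    rw [hsq, hsq]
    exact SlashInvariantFormClass.norm_petersson_smul (f := f) (f' := f) (g := (g : GL (Fin 2) ℝ))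
      (Subgroup.mem_map_of_mem _ hg)
  have : (Gamma0 p).FiniteIndex := inferInstance
  obtain ⟨τ₀, hτ₀⟩ := exists_max (f := fun τ => h τ ^ 2)
    ((hcf.norm.mul UpperHalfPlane.continuous_im).pow 2) (fun τ => sq_nonneg _) hinf hinv
  replace hτ₀ : ∀ τ, h τ ≤ h τ₀ := fun τ => (sq_le_sq₀ (hh0 τ) (hh0 τ₀)).mp (hτ₀ τ)
  have hℓ0 : (ℓ : ℝ) ≠ 0 := Nat.cast_ne_zero.mpr hℓ.ne_zero
  -- at a maximum the diagonal branch is again maximal
  have step : ∀ τ, h τ = h τ₀ → h (ModularForm.heckeDiagMatrix ℓ • τ) = h τ₀ := by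
    intro τ hτ
    refine le_antisymm (hτ₀ _) ?_
    have e : ModularForm.heckeT 2 ℓ ⇑f τ = μ * f τ := by
      have := congrArg (fun g : CuspForm (Gamma0 p) 2 => g τ) hf
      simpa using this
    rw [ModularForm.heckeT_apply 2 hℓ.ne_zero] at e
    have hj : ∀ j, ‖f (ModularForm.heckeMatrix ℓ j • τ)‖ * (τ.im / ℓ) =
        h (ModularForm.heckeMatrix ℓ j • τ) := fun j => by
      change _ = _ * (ModularForm.heckeMatrix ℓ j • τ).im
      rw [← UpperHalfPlane.coe_im (ModularForm.heckeMatrix ℓ j • τ),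
        ModularForm.coe_heckeMatrix_smul hℓ.ne_zero]
      simp
    have hd : ‖f (ModularForm.heckeDiagMatrix ℓ • τ)‖ * (ℓ * τ.im) =
        h (ModularForm.heckeDiagMatrix ℓ • τ) := by
      change _ = _ * (ModularForm.heckeDiagMatrix ℓ • τ).im
      rw [← UpperHalfPlane.coe_im (ModularForm.heckeDiagMatrix ℓ • τ),
        ModularForm.coe_heckeDiagMatrix_smul hℓ.ne_zero]
      simp
    have hn := norm_add_le ((ℓ : ℂ)⁻¹ * ∑ j ∈ Finset.range ℓ, f (ModularForm.heckeMatrix ℓ j • τ))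
      ((ℓ : ℂ) ^ ((2 : ℤ) - 1) * f (ModularForm.heckeDiagMatrix ℓ • τ))
    rw [e, norm_mul, norm_mul, norm_mul, norm_inv, Complex.norm_natCast, norm_zpow,
      Complex.norm_natCast, show ((2 : ℤ) - 1) = 1 by norm_num, zpow_one] at hn
    have hsum := norm_sum_le (Finset.range ℓ) fun j => f (ModularForm.heckeMatrix ℓ j • τ)
    have h1 : (ℓ + 1 : ℝ) * h τ ≤ (∑ j ∈ Finset.range ℓ, h (ModularForm.heckeMatrix ℓ j • τ)) +
        h (ModularForm.heckeDiagMatrix ℓ • τ) := by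
      simp only [← hj, ← hd, ← Finset.sum_mul]
      calc (ℓ + 1 : ℝ) * h τ ≤ ‖μ‖ * ‖f τ‖ * τ.im := by
            rw [mul_assoc]; exact mul_le_mul_of_nonneg_right hμ (hh0 τ)
        _ ≤ ((ℓ : ℝ)⁻¹ * (∑ j ∈ Finset.range ℓ, ‖f (ModularForm.heckeMatrix ℓ j • τ)‖) +
              ℓ * ‖f (ModularForm.heckeDiagMatrix ℓ • τ)‖) * τ.im :=
            mul_le_mul_of_nonneg_right (hn.trans (add_le_add
              (mul_le_mul_of_nonneg_left hsum (by positivity)) le_rfl)) τ.im_pos.le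
        _ = _ := by field_simp
    have h2 : ∑ j ∈ Finset.range ℓ, h (ModularForm.heckeMatrix ℓ j • τ) ≤ ℓ * h τ₀ :=
      (Finset.sum_le_sum fun j _ => hτ₀ _).trans_eq (by simp)
    rw [hτ] at h1
    linarith
  set seq : ℕ → ℍ := fun k => (fun τ => ModularForm.heckeDiagMatrix ℓ • τ)^[k] τ₀
  have hseq : ∀ k, h (seq k) = h τ₀ ∧ (seq k).im = (ℓ : ℝ) ^ k * τ₀.im := by
    intro k
    induction k with
    | zero => simp [seq]
    | succ k ih =>
      have e : seq (k + 1) = ModularForm.heckeDiagMatrix ℓ • seq k :=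
        Function.iterate_succ_apply' _ _ _
      rw [e]
      refine ⟨step _ ih.1, ?_⟩
      rw [← UpperHalfPlane.coe_im (ModularForm.heckeDiagMatrix ℓ • seq k),
        ModularForm.coe_heckeDiagMatrix_smul hℓ.ne_zero]
      simp [ih.2, pow_succ]; ring
  -- iterating pushes the maximum to `∞`, where `h` tends to zero
  have htend : Tendsto seq atTop atImInfty := by
    rw [atImInfty, tendsto_comap_iff]
    refine ((tendsto_pow_atTop_atTop_of_one_lt
      (by exact_mod_cast hℓ.one_lt : (1 : ℝ) < ℓ)).atTop_mul_const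
      τ₀.im_pos).congr fun k => (hseq k).2.symm
  have h3 : Tendsto (fun k => h (seq k) ^ 2) atTop (𝓝 0) := by
    have := (hinf 1).comp htend
    simpa [Function.comp_def] using this
  simp only [fun k => (hseq k).1] at h3
  have hM : h τ₀ = 0 := eq_zero_of_pow_eq_zero (tendsto_nhds_unique tendsto_const_nhds h3)
  ext τ
  have h4 : h τ = 0 := le_antisymm (hM ▸ hτ₀ τ) (hh0 τ)
  rcases mul_eq_zero.mp h4 with h5 | h5
  · simpa using norm_eq_zero.mp h5
  · exact absurd h5 τ.im_pos.ne'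

/-- A positive integer is a multiple of an operator without kernel. -/
theorem exists_nat_dvd (x : FullHecke p)
    (hx : ∀ f, (x : Module.End ℂ (CuspForm (Gamma0 p) 2)) f = 0 → f = 0) :
    ∃ (y : FullHecke p) (N : ℕ), N ≠ 0 ∧ x * y = N := by
  have hinj : Function.Injective (LinearMap.mulLeft ℤ x) := by
    refine (injective_iff_map_eq_zero _).mpr fun z hz => Subtype.ext (LinearMap.ext fun f => ?_)
    refine hx _ ?_
    exact congrArg (fun w : FullHecke p => (w : Module.End ℂ (CuspForm (Gamma0 p) 2)) f) hz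
  have hr : Module.finrank ℤ (FullHecke p ⧸ LinearMap.range (LinearMap.mulLeft ℤ x)) = 0 := by
    have := Submodule.finrank_quotient_add_finrank (LinearMap.range (LinearMap.mulLeft ℤ x))
    rw [LinearMap.finrank_range_of_inj hinj] at this
    omega
  obtain ⟨d, hd, hd'⟩ := Module.finrank_eq_zero_iff.mp hr (Submodule.Quotient.mk 1)
  rw [← Submodule.Quotient.mk_smul, Submodule.Quotient.mk_eq_zero] at hd'
  obtain ⟨y, hy⟩ := hd'
  refine ⟨(d : FullHecke p) * y, (d ^ 2).natAbs, by positivity, ?_⟩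
  rw [show x * ((d : FullHecke p) * y) = (d : FullHecke p) * (LinearMap.mulLeft ℤ x y) by
      rw [LinearMap.mulLeft_apply]; ring, hy, zsmul_eq_mul, mul_one, ← Int.cast_mul, ← sq,
    ← Int.natAbs_of_nonneg (sq_nonneg d), Int.cast_natCast, Int.natAbs_natCast]

/-- `T_ℓ ∓ (ℓ + 1)` divides a positive integer. -/
theorem exists_nat_dvd_heckeT {ℓ : ℕ} (hℓ : ℓ.Prime) (hℓp : ¬ ℓ ∣ p) (c : ℤ)
    (hc : c.natAbs = ℓ + 1) :
    ∃ (y : FullHecke p) (N : ℕ), N ≠ 0 ∧
      ((CuspForm.heckeAlgebra.T hℓ hℓp (Set.notMem_empty ℓ) : FullHecke p) - (c : FullHecke p)) *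
        y =
        (N : FullHecke p) := by
  refine exists_nat_dvd _ fun f hf => heckeT_eigen_eq_zero hℓ hℓp (μ := (c : ℂ)) ?_ f ?_
  · rw [Complex.norm_intCast, ← Int.cast_abs, Int.abs_eq_natAbs, hc]
    push_cast
    rfl
  · have h : CuspForm.heckeTLin 2 hℓ hℓp f - c • f = 0 := by
      have := hf
      simpa [CuspForm.heckeAlgebra.T] using this
    rw [sub_eq_zero] at h
    rw [h, Int.cast_smul_eq_zsmul]

end Fermat.HT.Descent

end
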