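import Fermat.Agent.HT.Descent.Setting
import Fermat.Agent.HT.Descent.Bound
import Fermat.Agent.HT.Descent.Ramanujan
import Fermat.Agent.HT.Cusp.Torsion
import Fermat.Agent.EC.Cyclo

/-!
# The multiplicative part at `n`

The kernel of reduction `K` in `e J₀(p)[n ^ s]` has at most `|e (T / n)| ^ s` elements and inertia
acts on its orthogonal through the cyclotomic character; hence `n ^ k K` is orthogonal to `K` for
some `k` independent of `s` (`exists_iso`). So the module with `K` shrunk is a descent context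
(`ctxV`), whose remaining data are found in `Residual`, `FrobN` and `AtP`.
-/

set_option autoImplicit false
set_option linter.unusedSectionVars false

attribute [local instance 10000] SubalgebraClass.toAlgebra HahnSeries.powerSeriesAlgebra

noncomputable section

open ModularCurve Fermat.EC.Val

namespace Fermat.HT.Descent

open Fermat.GR (FullHecke)
open Fermat.JAC.X0 (jAct frickePair)
open Fermat.HT.Cusp (Red)

local notation "ℚbar" => AlgebraicClosure ℚ
local notation "Γℚ" => (AlgebraicClosure ℚ ≃ₐ[ℚ] AlgebraicClosure ℚ)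

/-- Shortcut: ring homomorphisms are additive. The generic search first tries normed and linear
structures, and takes seconds. -/
private local instance addMonoidHomClassRingHom {A B : Type*} [NonAssocSemiring A]
    [NonAssocSemiring B] : AddMonoidHomClass (A →+* B) A B :=
  RingHomClass.toAddMonoidHomClass

/-- Shortcut: ring homomorphisms respect addition. -/
private local instance addHomClassRingHom {A B : Type*} [NonAssocSemiring A]
    [NonAssocSemiring B] : AddHomClass (A →+* B) A B :=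
  AddMonoidHomClass.toAddHomClass

variable {p : ℕ} [hp : Fact p.Prime] [NeZero p] {n : ℕ} [hn : Fact n.Prime]
variable {r s : ℕ} {e : FullHecke p} {θ : FullHecke p →+* ZMod n}

/-- A subgroup killed by `m ^ s` has at most as many elements as the `s`-th power of the order of
its `m`-torsion. -/
theorem card_le_pow_torsion {G : Type*} [AddCommGroup G] [Finite G] (m : ℕ) :
    ∀ (s : ℕ) (S : AddSubgroup G), (∀ x ∈ S, m ^ s • x = 0) →
      Nat.card S ≤ Nat.card (tors G m ⊓ S : AddSubgroup G) ^ s := by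
  intro s
  induction s with
  | zero =>
    intro S hS
    have : Subsingleton S := ⟨fun a b => Subtype.ext (by
      have ha := hS a a.2; have hb := hS b b.2
      rw [pow_zero, one_nsmul] at ha hb
      rw [ha, hb])⟩
    simp
  | succ s ih =>
    intro S hS
    let f : S →+ G := (nsmulAddMonoidHom (α := G) m).comp S.subtype
    have hker : Nat.card f.ker ≤ Nat.card (tors G m ⊓ S : AddSubgroup G) := by
      refine Nat.card_le_card_of_injective (fun x => ⟨x.1.1, x.2, x.1.2⟩) fun a b h => ?_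
      exact Subtype.ext (Subtype.ext (congrArg (fun y : (tors G m ⊓ S : AddSubgroup G) => y.1) h))
    have hR : f.range ≤ S := by
      rintro _ ⟨x, rfl⟩
      exact nsmul_mem x.2 m
    have h1 := ih f.range fun y hy => by
      obtain ⟨x, rfl⟩ := hy
      change m ^ s • (m • (x : G)) = 0
      rw [← mul_nsmul', ← pow_succ]
      exact hS x x.2
    have h2 : Nat.card (tors G m ⊓ f.range : AddSubgroup G) ≤
        Nat.card (tors G m ⊓ S : AddSubgroup G) :=
      Nat.card_le_card_of_injective (AddSubgroup.inclusion (inf_le_inf_left _ hR))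
        (AddSubgroup.inclusion_injective _)
    rw [← AddSubgroup.card_mul_index f.ker, AddSubgroup.index_ker, pow_succ, mul_comm (_ ^ s)]
    exact Nat.mul_le_mul hker (h1.trans (Nat.pow_le_pow_left h2 s))

/-- Coordinates on two independent vectors of an equation between multiples. -/
theorem coords_eq_zero_of_smul_eq {T L : Type*} [CommRing T] [AddCommGroup L] [Module T L]
    {b : Fin 2 → L} (hli : LinearIndependent T b) {u v : T} {c : Fin 2 → T} {m : L} {k N : ℕ}
    (hm : N • m = u • b 0 + v • b 1) (hc : ∑ i, c i • b i = k • m) :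
    (k : T) * u - (N : T) * c 0 = 0 ∧ (k : T) * v - (N : T) * c 1 = 0 := by
  rw [Fin.sum_univ_two] at hc
  have h1 : ∑ i, ![(k : T) * u - (N : T) * c 0, (k : T) * v - (N : T) * c 1] i • b i = 0 := by
    have h2 : k • (u • b 0 + v • b 1) = N • (c 0 • b 0 + c 1 • b 1) := by
      rw [hc, ← hm, smul_comm]
    rw [Fin.sum_univ_two]
    simp only [Matrix.cons_val_zero, Matrix.cons_val_one, sub_smul, mul_smul,
      Nat.cast_smul_eq_nsmul]
    simp only [nsmul_add] at h2
    rw [← sub_eq_zero] at h2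
    rw [← h2]
    abel
  have h3 := Fintype.linearIndependent_iff.mp hli _ h1
  exact ⟨h3 0, h3 1⟩

/-- If `ψ` loses at most `k` times each coordinate modulo `I`, then two copies of `e (T / I)` have
at most as many elements as the target, up to the square of the `k`-torsion of `T / I`. -/
theorem card_range_mulLeft_sq_le {T V : Type*} [CommRing T] [AddCommGroup V] [Finite V]
    (I : Ideal T) [Finite (T ⧸ I)] (e : T) (k K : ℕ)
    (hK : Nat.card {y : T ⧸ I // k • y = 0} ≤ K) (ψ : T × T →+ V)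
    (hψ : ∀ x, ψ x = 0 →
      k • Ideal.Quotient.mk I (e * x.1) = 0 ∧ k • Ideal.Quotient.mk I (e * x.2) = 0) :
    Nat.card (AddMonoidHom.mulLeft (Ideal.Quotient.mk I e)).range ^ 2 ≤ K ^ 2 * Nat.card V := by
  set mk := Ideal.Quotient.mk I
  let χ : T × T →+ (T ⧸ I) × (T ⧸ I) := AddMonoidHom.mk'
    (fun x => (k • mk (e * x.1), k • mk (e * x.2)))
    fun x y => by
      simp only [Prod.fst_add, Prod.snd_add, mul_add, map_add, smul_add, Prod.mk_add_mk]
  have hle : ψ.ker ≤ χ.ker := fun x hx =>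
    AddMonoidHom.mem_ker.mpr (Prod.ext (hψ x hx).1 (hψ x hx).2)
  have : ψ.ker.FiniteIndex := ⟨by rw [AddSubgroup.index_ker]; exact Nat.card_pos.ne'⟩
  have h5 : Nat.card χ.range ≤ Nat.card V := by
    rw [← AddSubgroup.index_ker]
    refine (Nat.le_of_dvd (Nat.pos_of_ne_zero AddSubgroup.FiniteIndex.index_ne_zero)
      (AddSubgroup.index_dvd_of_le hle)).trans ?_
    rw [AddSubgroup.index_ker]
    exact Nat.card_le_card_of_injective _ ψ.range.subtype_injective
  -- the image of `χ` holds `k` times two copies of the factor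
  set F := (AddMonoidHom.mulLeft (mk e)).range
  let g : F × F →+ (T ⧸ I) × (T ⧸ I) :=
    AddMonoidHom.mk' (fun y => (k • y.1.1, k • y.2.1)) fun y z => by
      simp only [Prod.fst_add, Prod.snd_add, AddSubgroup.coe_add, smul_add, Prod.mk_add_mk]
  have h6 : g.range ≤ χ.range := by
    rintro _ ⟨⟨⟨_, u, rfl⟩, _, v, rfl⟩, rfl⟩
    obtain ⟨u, rfl⟩ := Ideal.Quotient.mk_surjective u
    obtain ⟨v, rfl⟩ := Ideal.Quotient.mk_surjective v
    exact ⟨(u, v), Prod.ext (congrArg (k • ·) (map_mul mk e u)) (congrArg (k • ·) (map_mul mk e v))⟩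
  have h7 : Nat.card g.ker ≤ K ^ 2 := by
    rw [pow_two]
    refine le_trans (Nat.card_le_card_of_injective
      (fun y : g.ker => ((⟨y.1.1.1, congrArg Prod.fst y.2⟩ : {y : T ⧸ I // k • y = 0}),
        (⟨y.1.2.1, congrArg Prod.snd y.2⟩ : {y : T ⧸ I // k • y = 0})))
      fun y z h => ?_) ?_
    · exact Subtype.ext (Prod.ext (Subtype.ext (congrArg
        (fun x : {y : T ⧸ I // k • y = 0} × {y : T ⧸ I // k • y = 0} => x.1.1) h))
        (Subtype.ext (congrArg
        (fun x : {y : T ⧸ I // k • y = 0} × {y : T ⧸ I // k • y = 0} => x.2.1) h)))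
    · rw [Nat.card_prod]; exact Nat.mul_le_mul hK hK
  rw [pow_two, ← Nat.card_prod, ← AddSubgroup.card_mul_index g.ker, AddSubgroup.index_ker]
  exact Nat.mul_le_mul h7
    ((Nat.card_le_card_of_injective _ (AddSubgroup.inclusion_injective h6)).trans h5)

/-- A biadditive map kills `N • a` against `b` if it kills `(N * m) • a` and `m` is prime to a
multiple killing `a`. -/
theorem apply_nsmul_eq_zero_of_coprime {G M : Type*} [AddCommGroup G] [AddCommGroup M]
    (f : G →+ G →+ M) {a b : G} {N m q : ℕ} (hcop : Nat.Coprime m q) (hq : q • a = 0)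
    (h : f ((N * m) • a) b = 0) : f (N • a) b = 0 := by
  refine AddMonoid.addOrderOf_eq_one_iff.mp (Nat.eq_one_of_dvd_coprimes hcop ?_ ?_)
  · refine addOrderOf_dvd_of_nsmul_eq_zero ?_
    rwa [← AddMonoidHom.nsmul_apply, ← map_nsmul, ← mul_nsmul', mul_comm]
  · refine addOrderOf_dvd_of_nsmul_eq_zero ?_
    rw [← AddMonoidHom.nsmul_apply, ← map_nsmul, ← mul_nsmul', mul_comm, mul_nsmul', hq,
      smul_zero, map_zero, AddMonoidHom.zero_apply]

/-- If `f x z = c`, `f y z = d` and `c = u • d` then `f (x - u • y) z = 0`. -/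
theorem apply_sub_nsmul_eq_zero {G M : Type*} [AddCommGroup G] [AddCommGroup M]
    (f : G →+ G →+ M) {x y z : G} {u : ℕ} {c d : M} (h1 : f x z = c) (h2 : f y z = d)
    (h3 : c = u • d) : f (x - u • y) z = 0 := by
  rw [map_sub, AddMonoidHom.sub_apply, h1, map_nsmul, AddMonoidHom.nsmul_apply, h2, h3, sub_self]

/-- Cardinality of the source from those of kernel and range. -/
theorem card_eq_card_ker_mul_card_range {G H : Type*} [AddGroup G] [AddGroup H] (f : G →+ H) :
    Nat.card G = Nat.card f.ker * Nat.card f.range := by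
  rw [← AddSubgroup.index_ker, AddSubgroup.card_mul_index]

/-- If `K` holds `m • a` and `N • a = 0` then it holds `gcd (m, N) • a`. -/
theorem gcd_nsmul_mem {G : Type*} [AddCommGroup G] (K : AddSubgroup G) {a : G} {m N : ℕ}
    (hm : m • a ∈ K) (hN : N • a = 0) : Nat.gcd m N • a ∈ K := by
  rw [← natCast_zsmul a (Nat.gcd m N), Nat.gcd_eq_gcd_ab, add_zsmul, mul_comm (m : ℤ), mul_zsmul,
    natCast_zsmul, mul_comm (N : ℤ), mul_zsmul, natCast_zsmul, hN, zsmul_zero, add_zero]
  exact zsmul_mem hm _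

/-- The order of the image of multiplication by `e` depends only on the ideal. -/
theorem card_range_mulLeft_congr {I J : Ideal (FullHecke p)} (h : I = J) (e : FullHecke p) :
    Nat.card (AddMonoidHom.mulLeft (Ideal.Quotient.mk I e)).range =
      Nat.card (AddMonoidHom.mulLeft (Ideal.Quotient.mk J e)).range := by
  subst h; rfl

/-- Small torsion in the quotients `T / n ^ s`. -/
theorem card_quot_tors_le {k : ℕ} (hk : k ≠ 0) (s : ℕ) :
    Nat.card {y : FullHecke p ⧸ lvl p n s // k • y = 0} ≤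
      k ^ Module.finrank ℤ (FullHecke p) := by
  have := finite_quot_lvl (p := p) (n := n) s
  obtain ⟨a, ha⟩ := (Nat.dvd_prime_pow hn.out).mp (Nat.gcd_dvd_right k (n ^ s))
  obtain ⟨haS, hga⟩ := ha
  have := finite_quot_lvl (p := p) (n := n) a
  have hle : n ^ a ≤ k := by
    rw [← hga]; exact Nat.le_of_dvd (Nat.pos_of_ne_zero hk) (Nat.gcd_dvd_left k _)
  have hrep : ∀ y : {y : FullHecke p ⧸ lvl p n s // k • y = 0}, ∃ t : FullHecke p,
      Ideal.Quotient.mk (lvl p n s) ((n : FullHecke p) ^ (s - a) * t) = y.1 := by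
    rintro ⟨y, hy⟩
    obtain ⟨t, rfl⟩ := Ideal.Quotient.mk_surjective y
    have h0 : n ^ a • Ideal.Quotient.mk (lvl p n s) t = 0 := by
      rw [← hga]
      exact addOrderOf_dvd_iff_nsmul_eq_zero.mp (Nat.dvd_gcd
        (addOrderOf_dvd_of_nsmul_eq_zero hy)
        (addOrderOf_dvd_of_nsmul_eq_zero (nsmul_quot_lvl s _)))
    rw [← map_nsmul, Ideal.Quotient.eq_zero_iff_mem, Ideal.mem_span_singleton, nsmul_eq_mul] at h0
    obtain ⟨u, hu⟩ := h0
    refine ⟨u, congrArg _ ?_⟩
    refine smul_right_injective (FullHecke p) (r := ((n ^ a : ℕ) : ℤ))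
      (Int.natCast_ne_zero.mpr (pow_ne_zero a hn.out.ne_zero)) ?_
    simp only [natCast_zsmul, nsmul_eq_mul]
    rw [hu, Nat.cast_pow, ← mul_assoc, ← pow_add, Nat.add_sub_cancel' haS]
  choose t ht using hrep
  refine le_trans (Nat.card_le_card_of_injective (fun y => Ideal.Quotient.mk (lvl p n a) (t y))
    fun y z h => Subtype.ext ?_) ?_
  · rw [← ht y, ← ht z, Ideal.Quotient.eq, ← mul_sub, Ideal.mem_span_singleton,
      show (n : FullHecke p) ^ s = (n : FullHecke p) ^ (s - a) * (n : FullHecke p) ^ a by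
        rw [← pow_add, Nat.sub_add_cancel haS]]
    exact mul_dvd_mul_left _ (Ideal.mem_span_singleton.mp (Ideal.Quotient.eq.mp h))
  · rw [card_quot_lvl, pow_mul]
    exact Nat.pow_le_pow_left hle _

variable (p n) in
/-- The modules are at least as large as two copies of `e (T / n ^ s)`, up to a constant. -/
theorem exists_card_eisV_ge : ∃ C : ℕ, C ≠ 0 ∧ ∀ (s : ℕ) (e : FullHecke p),
    e * e - e ∈ lvl p n s →
      Nat.card (factor (n := n) e s) ^ 2 ≤ C * Nat.card (eisV p n s e) := by
  set D := esIn p n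
  obtain ⟨k, hk, b, hli, hspan⟩ := D.exists_basis
  refine ⟨(k ^ Module.finrank ℤ (FullHecke p)) ^ 2, pow_ne_zero _ (pow_ne_zero _ hk),
    fun s e he => ?_⟩
  have := finite_eisV (p := p) (n := n) (r := s) (e := e) hn.out.ne_zero
  have := finite_quot_lvl (p := p) (n := n) s
  set mk := Ideal.Quotient.mk (lvl p n s)
  have hact : ∀ (t : FullHecke p) (x : JZero p), D.act t x = jAct p t x := fun _ _ => rfl
  have htors : ∀ l, n ^ s • D.π s l = 0 := fun l => by
    rw [← map_nsmul]
    exact (D.π_eq_zero_iff s _).mpr ⟨l, rfl⟩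
  -- `ψ` maps pairs into the module, `χ` records `k e` times them modulo `n ^ s`
  let ψ : FullHecke p × FullHecke p →+ eisV p n s e := AddMonoidHom.mk'
    (fun x => ⟨jAct p e (D.π s (x.1 • b 0 + x.2 • b 1)), proj_mem_eisV he (htors _)⟩)
    fun x y => Subtype.ext (by
      change jAct p e (D.π s ((x.1 + y.1) • b 0 + (x.2 + y.2) • b 1)) =
        jAct p e (D.π s (x.1 • b 0 + x.2 • b 1)) + jAct p e (D.π s (y.1 • b 0 + y.2 • b 1))
      rw [← map_add, ← map_add, add_smul, add_smul, add_add_add_comm])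
  refine card_range_mulLeft_sq_le (lvl p n s) e k _ (card_quot_tors_le hk s) ψ fun x hx => ?_
  have h0 : D.π s ((e * x.1) • b 0 + (e * x.2) • b 1) = 0 := by
    rw [mul_smul, mul_smul, ← smul_add, D.π_smul, hact]
    exact congrArg Subtype.val hx
  obtain ⟨m, hm⟩ := (D.π_eq_zero_iff s _).mp h0
  obtain ⟨c, hc⟩ := (Submodule.mem_span_range_iff_exists_fun _).mp (hspan m)
  obtain ⟨h3, h3'⟩ := coords_eq_zero_of_smul_eq hli hm hc
  have h4 : ∀ t c : FullHecke p, (k : FullHecke p) *
    (e * t) - ((n ^ s : ℕ) : FullHecke p) * c = 0 →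
      k • mk (e * t) = 0 := fun t c h => by
    rw [← map_nsmul, Ideal.Quotient.eq_zero_iff_mem, Ideal.mem_span_singleton, nsmul_eq_mul]
    exact ⟨c, by rw [sub_eq_zero.mp h, Nat.cast_pow]⟩
  exact ⟨h4 _ (c 0) h3, h4 _ (c 1) h3'⟩

/-! ### The kernel of reduction -/

/-- The kernel of reduction is stable under the decomposition group. -/
theorem redJ_galois (R : Red p) {σ : Γℚ} (hσ : σ ∈ R.A.decompositionSubgroup ℚ) {x : JZero p}
    (hx : R.redJ x = 0) : R.redJ (σ • x) = 0 := by
  have h := Fermat.RED.redPic_galois R.hr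
    (Fermat.RED.picDivisible_modularFunctionFieldBar p) hσ rfl x
  refine h.trans ?_
  rw [show Fermat.RED.redPic R.hr x = 0 from hx]
  exact Fermat.RED.pic0_smul_zero _

/-- Inertia moves every class into the kernel of reduction. -/
theorem redJ_inertia (R : Red p) {σ : Γℚ} (hσ : σ ∈ R.A.inertiaSubgroupIn ℚ) (x : JZero p) :
    R.redJ (σ • x - x) = 0 := by
  obtain ⟨hdec, hres⟩ := Fermat.RED.residueAut_eq_refl hσ
  have h := Fermat.RED.redPic_galois R.hr
    (Fermat.RED.picDivisible_modularFunctionFieldBar p) hdec hres x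
  rw [map_sub, sub_eq_zero]
  refine h.trans ?_
  rw [Fermat.RED.coeffAutFull_refl]
  exact one_smul _ _

variable (R : Red p)

variable (n r e) in
/-- The kernel of reduction in the module. -/
def kerV : AddSubgroup (eisV p n r e) := (R.redJ.comp (eisV p n r e).subtype).ker

/-- Membership in the kernel of reduction in the module. -/
theorem mem_kerV {x : eisV p n r e} : x ∈ kerV n r e R ↔ R.redJ (x : JZero p) = 0 := Iff.rfl

/-- `θ (T n) = n + 1` is not zero modulo `n`. -/
theorem theta_Tell (hθT : ∀ ℓ (hℓ : ℓ.Prime) (hℓp : ¬ ℓ ∣ p),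
    θ (CuspForm.heckeAlgebra.T hℓ hℓp (Set.notMem_empty ℓ)) = (ℓ + 1 : ℕ)) (hR : R.ℓ = n) :
    θ R.Tell ≠ 0 := by
  rw [show θ R.Tell = ((R.ℓ + 1 : ℕ) : ZMod n) from hθT R.ℓ R.hℓ R.not_dvd, hR]
  simp

/-- The kernel of reduction in the Eisenstein part is bounded by the power of its first layer. -/
theorem card_kerV_le (hθT : ∀ ℓ (hℓ : ℓ.Prime) (hℓp : ¬ ℓ ∣ p),
    θ (CuspForm.heckeAlgebra.T hℓ hℓp (Set.notMem_empty ℓ)) = (ℓ + 1 : ℕ)) (hR : R.ℓ = n)
    (he : IsEisIdem θ r e) :
    Nat.card (kerV n r e R) ≤ Nat.card (factor (n := n) e 1) ^ r := by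
  have := finite_eisV (p := p) (n := n) (r := r) (e := e) hn.out.ne_zero
  obtain ⟨y, hy⟩ := he.exists_inv (theta_Tell R hθT hR)
  obtain ⟨hfin, hcard⟩ := R.card_torSub_le e y
  have := hfin
  refine (card_le_pow_torsion n r (kerV n r e R) fun x _ => killed_eisV x).trans
    (Nat.pow_le_pow_left ((Nat.card_le_card_of_injective
      (fun w => (⟨(w.1 : JZero p), ?_⟩ : R.torSub e y)) fun a b h => ?_).trans (hcard.trans ?_)) r)
  · obtain ⟨⟨x, hx1, hx2⟩, h1, h2⟩ := w
    refine ⟨h2, ?_, hx2, ?_⟩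
    · exact (congrArg (· • x) hR).trans (congrArg Subtype.val (mem_tors.mp h1))
    · change jAct p y (jAct p R.Tell x) = x
      conv_lhs => rw [← hx2]
      rw [← jAct_mul, ← jAct_mul]
      refine (jAct_eq_of_sub_mem ?_ hx1).trans hx2
      rwa [mul_comm y R.Tell]
  · exact Subtype.ext (Subtype.ext (congrArg (fun w : R.torSub e y => w.1) h))
  · exact (card_range_mulLeft_congr (by rw [lvl, pow_one, hR]) e).le

/-- Inertia at `n` moves a root of unity of order dividing `n ^ 2`. -/
theorem exists_inertia_moves_root (hA : IsPlace R.A n) :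
    ∃ σ ∈ R.A.inertiaSubgroupIn ℚ, ∃ z : ℚbar, z ^ (n ^ 2) = 1 ∧ σ z ≠ z := by
  rcases eq_or_ne n 2 with h2 | h2
  -- for `n = 2`, `(i - 1) ^ 2` has order one, so inertia moves `i`
  · obtain ⟨i, hi⟩ := IsAlgClosed.exists_pow_nat_eq (-1 : ℚbar) (n := 2) two_pos
    have hi1 : i - 1 ≠ 0 := fun h => by
      rw [sub_eq_zero] at h
      rw [h, one_pow] at hi
      norm_num at hi
    by_contra hcon
    push Not at hcon
    obtain ⟨k, hk⟩ := Fermat.FLAT.exists_int_ord hA hi1 fun σ hσ => by
      rw [map_sub, map_one, hcon σ hσ i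
        (by rw [h2, show (2 : ℕ) ^ 2 = 2 * 2 by norm_num, pow_mul, hi]; norm_num)]
    have h3 := ord_pow hA (i - 1) 2
    have h4 : (i - 1) ^ 2 = (-(2 : ℕ) : ℚbar) * i := by push_cast; linear_combination hi
    have hi0 : i ≠ 0 := fun h => by rw [h] at hi; norm_num at hi
    have hi4 : ord R.A n i = 0 := (FLAT.is_root_unity hA (n := 4) (by norm_num) (by
      rw [show 4 = 2 * 2 by norm_num, pow_mul, hi]; norm_num)).2
    have hm1 : ord R.A n (-1 : ℚbar) = 0 :=
        (FLAT.is_root_unity hA (n := 2) two_ne_zero (by norm_num)).2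
    rw [h4, ord_mul hA (neg_ne_zero.mpr (by norm_num)) hi0, hi4, add_zero,
      show (-(2 : ℕ) : ℚbar) = (-1) * ((n : ℕ) : ℚbar) by rw [h2]; ring,
      ord_mul hA (by norm_num) (Nat.cast_ne_zero.mpr hn.out.ne_zero), hm1, zero_add,
      ord_q hA, hk] at h3
    have h5 : (1 : ℤ) = 2 * k := by exact_mod_cast h3
    omega
  -- for `n > 2`, `ζ - 1` has order `1 / (n - 1)`, not an integer
  · obtain ⟨ζ, hζ⟩ := Fermat.EC.Cyclo.exists_zeta hA.1
    have hord := Fermat.EC.Cyclo.is_zeta_sub_one hA hζ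
    by_contra hcon
    push Not at hcon
    obtain ⟨k, hk⟩ := Fermat.FLAT.exists_int_ord hA hord.1 fun σ hσ => by
      rw [map_sub, map_one, hcon σ hσ ζ (by rw [pow_two, pow_mul, hζ.pow_eq_one, one_pow])]
    rw [hord.2] at hk
    have h3 : (3 : ℚ) ≤ n := by
      have := hn.out.two_le
      exact_mod_cast (show 3 ≤ n by omega)
    rcases le_or_gt k 0 with h | h
    · have h' : (k : ℚ) ≤ 0 := by exact_mod_cast h
      have hpos : 0 < 1 / ((n : ℚ) - 1) := by
        apply div_pos one_pos; linarith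
      linarith
    · have h' : (1 : ℚ) ≤ k := by exact_mod_cast h
      rw [← hk, le_div_iff₀ (by linarith), one_mul] at h'
      linarith

/-- The place of the reduction lies over `n`. -/
theorem isPlace_red (hR : R.ℓ = n) : IsPlace R.A n := ⟨hn.out, hR ▸ R.hA⟩

/-- `ℚ̄ˣ` has small torsion. -/
theorem smallTorsion_Mu : SmallTorsion Mu := smallTorsion_units ℚbar

/-- `n P ⊆ K` for the orthogonal `P` of the kernel of reduction `K`. -/
theorem nsmul_mem_kerV_of_mem_perp (hR : R.ℓ = n) (he : e * e - e ∈ lvl p n r) {a : eisV p n r e}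
    (ha : a ∈ perp (pairV n r e) (kerV n r e R)) : n • a ∈ kerV n r e R := by
  rcases lt_or_ge r 2 with hr | hr
  · have h1 : n • a = 0 := by
      have := killed_eisV a
      interval_cases r
      · rw [pow_zero, one_nsmul] at this; rw [this, smul_zero]
      · rwa [pow_one] at this
    rw [h1]; exact zero_mem _
  obtain ⟨σ, hσ, z, hz, hzσ⟩ := exists_inertia_moves_root R (isPlace_red R hR)
  have : NeZero (n ^ r) := ⟨pow_ne_zero r hn.out.ne_zero⟩
  obtain ⟨ζ, hζ⟩ := HasEnoughRootsOfUnity.exists_primitiveRoot ℚbar (n ^ r)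
  obtain ⟨u, -, hu⟩ := hζ.eq_pow_of_pow_eq_one
    (show σ ζ ^ n ^ r = 1 by rw [← map_pow, hζ.pow_eq_one, map_one])
  have hroot : ∀ x : ℚbar, x ^ n ^ r = 1 → σ x = x ^ u := fun x hx => by
    obtain ⟨i, -, rfl⟩ := hζ.eq_pow_of_pow_eq_one hx
    rw [map_pow, ← hu, ← pow_mul, ← pow_mul, mul_comm]
  have hu0 : 1 ≤ u := by
    by_contra h
    have h1 : σ z = 1 := by
      rw [hroot z (by rw [← Nat.add_sub_cancel' hr, pow_add, pow_mul, hz, one_pow]),
        Nat.lt_one_iff.mp (not_le.mp h), pow_zero]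
    rw [← map_one σ] at h1
    exact hzσ (by rw [σ.injective h1, map_one])
  -- inertia acts on the orthogonal through `u`
  have hact : σ • a = u • a := by
    refine sub_eq_zero.mp (pairV_nondeg he _ fun w => ?_)
    obtain ⟨w, rfl⟩ : ∃ v, σ • v = w := ⟨σ⁻¹ • w, smul_inv_smul σ w⟩
    have h2 : pairV n r e (σ • w - w) a = 0 := ha _ (mem_kerV R |>.mpr (redJ_inertia R hσ w.1))
    have h3 : pairV n r e a (σ • w) = pairV n r e a w := by
      rw [← sub_eq_zero, ← map_sub, pairV_symm, h2, neg_zero]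
    refine apply_sub_nsmul_eq_zero (G := eisV p n r e) (M := Mu) (pairV n r e)
      (pairV_gal σ a w).symm h3 ?_
    refine num_injective ?_
    refine ((num_gal σ _).trans ?_).trans (num_nsmul u _).symm
    exact hroot _ (Fermat.JAC.X0.frickePair_pow p a.2.1 w.2.1)
  have h4 : (u - 1) • a ∈ kerV n r e R := by
    have : (u - 1) • a = σ • a - a := by
      rw [hact, eq_sub_iff_add_eq, ← succ_nsmul, Nat.sub_add_cancel hu0]
    rw [this]
    exact (mem_kerV R).mpr (redJ_inertia R hσ a.1)
  -- `gcd (u - 1, n ^ r)` divides `n`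
  obtain ⟨b, hb, hgb⟩ := (Nat.dvd_prime_pow hn.out).mp (Nat.gcd_dvd_right (u - 1) (n ^ r))
  have hb1 : b ≤ 1 := by
    by_contra hb2
    have hd : n ^ 2 ∣ u - 1 :=
      ((pow_dvd_pow n (by omega : 2 ≤ b)).trans (dvd_of_eq hgb.symm)).trans (Nat.gcd_dvd_left _ _)
    obtain ⟨c, hc⟩ := hd
    refine hzσ ?_
    rw [hroot z (by rw [← Nat.add_sub_cancel' hr, pow_add, pow_mul, hz, one_pow]),
      show u = n ^ 2 * c + 1 by omega, pow_succ, pow_mul, hz, one_pow, one_mul]
  have hb' : n ^ b • a ∈ kerV n r e R := hgb ▸ gcd_nsmul_mem _ h4 (killed_eisV a)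
  interval_cases b
  · rw [pow_zero, one_nsmul] at hb'; exact nsmul_mem hb' n
  · rwa [pow_one] at hb'

variable (n r e) in
/-- The `n`-multiples of the orthogonal of the kernel of reduction. -/
def nPerp : AddSubgroup (eisV p n r e) :=
  (perp (pairV n r e) (kerV n r e R)).map (nsmulAddMonoidHom (α := eisV p n r e) n)

/-- The orthogonal of the kernel of reduction is at most `B` times its multiplicative part. -/
theorem card_perp_le (B : ℕ) [Finite {x : JZero p // n • x = 0}]
    (hB : Nat.card {x : JZero p // n • x = 0} ≤ B) :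
    Nat.card (perp (pairV n r e) (kerV n r e R)) ≤ B * Nat.card (nPerp n r e R) := by
  have := finite_eisV (p := p) (n := n) (r := r) (e := e) hn.out.ne_zero
  let ν : perp (pairV n r e) (kerV n r e R) →+ eisV p n r e :=
    (nsmulAddMonoidHom (α := eisV p n r e) n).comp (perp (pairV n r e) (kerV n r e R)).subtype
  have hr : ν.range = nPerp n r e R := by
    rw [AddMonoidHom.range_eq_map, ← AddSubgroup.map_map, ← AddMonoidHom.range_eq_map,
      AddSubgroup.range_subtype]
    rfl
  refine ((card_eq_card_ker_mul_card_range ν).trans (congrArg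
    (fun S : AddSubgroup (eisV p n r e) => Nat.card ν.ker * Nat.card S) hr)).trans_le ?_
  refine Nat.mul_le_mul_right _ (le_trans (Nat.card_le_card_of_injective
    (fun x => (⟨((x.1.1 : eisV p n r e) : JZero p), ?_⟩ : {x : JZero p // n • x = 0}))
    fun x y h => ?_) hB)
  · exact congrArg (fun v : eisV p n r e => (v : JZero p)) (AddMonoidHom.mem_ker.mp x.2)
  · exact Subtype.ext (Subtype.ext (Subtype.ext
      (congrArg (fun w : {x : JZero p // n • x = 0} => w.1) h)))

/-- The `n`-multiples of the orthogonal lie in the kernel of reduction. -/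
theorem nPerp_le_ker (hR : R.ℓ = n) (he : e * e - e ∈ lvl p n r) :
    nPerp n r e R ≤ kerV n r e R := by
  rintro _ ⟨x, hx, rfl⟩
  exact nsmul_mem_kerV_of_mem_perp R hR he hx

/-- The `n`-multiples of the orthogonal lie in the orthogonal. -/
theorem nPerp_le_perp : nPerp n r e R ≤ perp (pairV n r e) (kerV n r e R) := by
  rintro _ ⟨x, hx, rfl⟩
  exact nsmul_mem hx n

/-- The kernel of reduction is bounded by the multiplicative part of its orthogonal, up to `C B`. -/
theorem card_kerV_le_nPerp (hθT : ∀ ℓ (hℓ : ℓ.Prime) (hℓp : ¬ ℓ ∣ p),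
    θ (CuspForm.heckeAlgebra.T hℓ hℓp (Set.notMem_empty ℓ)) = (ℓ + 1 : ℕ)) (hR : R.ℓ = n)
    (hr : r ≠ 0) (he : IsEisIdem θ r e) (C B : ℕ)
    (hV : Nat.card (factor (n := n) e r) ^ 2 ≤ C * Nat.card (eisV p n r e))
    (hP : Nat.card (perp (pairV n r e) (kerV n r e R)) ≤ B * Nat.card (nPerp n r e R)) :
    Nat.card (kerV n r e R) ≤ C * B * Nat.card (nPerp n r e R) := by
  have := finite_eisV (p := p) (n := n) (r := r) (e := e) hn.out.ne_zero
  have := finite_quot_lvl (p := p) (n := n) 1
  have hPK := card_perp_mul_card (pairV n r e) smallTorsion_Mu (pairV_nondeg he.idem)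
    (kerV n r e R)
  have hKle := card_kerV_le R hθT hR he
  have hfge := he.card_factor_ge (θ := θ) hr
  -- given by hand: the instance search is slow
  have : Nonempty (factor (n := n) e 1) := ⟨⟨0, zero_mem _⟩⟩
  have hfpos : 0 < Nat.card (factor (n := n) e 1) ^ r := pow_pos Nat.card_pos _
  refine hKle.trans (Nat.le_of_mul_le_mul_right ?_ hfpos)
  refine (Nat.mul_le_mul hfge hfge).trans ((pow_two _).symm.trans_le (hV.trans ?_))
  rw [← hPK, mul_assoc C B, mul_assoc C]
  exact Nat.mul_le_mul_left _ (Nat.mul_le_mul hP hKle)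

/-- **Isotropy**: a fixed power of `n` makes the kernel of reduction isotropic. -/
theorem exists_iso (hθT : ∀ ℓ (hℓ : ℓ.Prime) (hℓp : ¬ ℓ ∣ p),
    θ (CuspForm.heckeAlgebra.T hℓ hℓp (Set.notMem_empty ℓ)) = (ℓ + 1 : ℕ)) (hR : R.ℓ = n) :
    ∃ k : ℕ, ∀ (s : ℕ) (e : FullHecke p), s ≠ 0 → IsEisIdem θ s e →
      ∀ a ∈ kerV n s e R, ∀ b ∈ kerV n s e R, pairV n s e (n ^ k • a) b = 0 := by
  obtain ⟨C, hC, hCb⟩ := exists_card_eisV_ge p n
  have := finite_torsion p (N := n) hn.out.ne_zero
  set B := Nat.card {x : JZero p // n • x = 0}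
  obtain ⟨k, m, hm, hM⟩ := Nat.exists_eq_pow_mul_and_not_dvd (Nat.factorial_ne_zero (C * B)) n
    hn.out.ne_one
  refine ⟨k, fun s e hs he a ha b hb => ?_⟩
  have := finite_eisV (p := p) (n := n) (r := s) (e := e) hn.out.ne_zero
  have hK := card_kerV_le_nPerp R hθT hR hs he C B (hCb s e he.idem) (card_perp_le R B le_rfl)
  have hle := nPerp_le_ker R hR he.idem
  have hcard := AddSubgroup.card_mul_index ((nPerp n s e R).addSubgroupOf (kerV n s e R))
  rw [Nat.card_congr (AddSubgroup.addSubgroupOfEquivOfLe hle).toEquiv] at hcard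
  have hidx : ((nPerp n s e R).addSubgroupOf (kerV n s e R)).index ∣ (C * B).factorial := by
    refine Nat.dvd_factorial (Nat.pos_of_ne_zero fun h => ?_) ?_
    · rw [h, mul_zero] at hcard; exact Nat.card_pos.ne hcard
    · refine Nat.le_of_mul_le_mul_left ?_ (Nat.card_pos (α := nPerp n s e R))
      rw [hcard]; exact hK.trans (le_of_eq (mul_comm _ _))
  -- `(C B)!` moves the kernel into its orthogonal; only the part at `n` matters
  have hMa : (C * B).factorial • a ∈ perp (pairV n s e) (kerV n s e R) := by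
    obtain ⟨c, hc⟩ := hidx
    rw [hc, mul_comm, mul_nsmul']
    exact nsmul_mem (nPerp_le_perp R (AddSubgroup.mem_addSubgroupOf.mp
      (AddSubgroup.nsmul_index_mem ((nPerp n s e R).addSubgroupOf (kerV n s e R)) ⟨a, ha⟩))) c
  have h2 : pairV n s e ((C * B).factorial • a) b = 0 := by
    rw [pairV_symm, hMa b hb, neg_zero]
  exact apply_nsmul_eq_zero_of_coprime (G := eisV p n s e) (M := Mu) (pairV n s e)
    (Nat.Coprime.pow_right s ((Nat.Prime.coprime_iff_not_dvd hn.out).mpr hm).symm)
    (killed_eisV a) (hM ▸ h2)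

/-! ### The descent context -/

variable (n) in
/-- Multiplication by `n ^ k` between the modules. -/
def shrinkV (r k : ℕ) (e : FullHecke p) : eisV p n (r + k) e →+ eisV p n r e :=
  AddMonoidHom.mk' (fun x => ⟨n ^ k • x.1,
    by rw [← mul_nsmul', ← pow_add]; exact x.2.1, by rw [map_nsmul, x.2.2]⟩)
    fun x y => Subtype.ext (nsmul_add _ _ _)

/-- `shrinkV` is multiplication by `n ^ k`. -/
theorem coe_shrinkV {k : ℕ} (x : eisV p n (r + k) e) :
    ((shrinkV n r k e x : eisV p n r e) : JZero p) = n ^ k • (x : JZero p) := rfl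

/-- `shrinkV` commutes with Galois. -/
theorem shrinkV_smul {k : ℕ} (σ : Γℚ) (x : eisV p n (r + k) e) :
    shrinkV n r k e (σ • x) = σ • shrinkV n r k e x :=
  Subtype.ext (nsmul_galois σ _ _).symm

/-- `shrinkV` is onto, as `J₀(p)(ℚ̄)` is divisible. -/
theorem shrinkV_surjective {k : ℕ} (he : e * e - e ∈ lvl p n (r + k)) :
    Function.Surjective (shrinkV (p := p) n r k e) := fun v => by
  obtain ⟨y, hy⟩ := Fermat.RED.picDivisible_modularFunctionFieldBar p (n ^ k)
    (pow_ne_zero k hn.out.ne_zero) v.1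
  refine ⟨⟨jAct p e y, proj_mem_eisV he ?_⟩, Subtype.ext ?_⟩
  · rw [pow_add, mul_nsmul', hy]; exact v.2.1
  · change n ^ k • jAct p e y = v.1
    rw [← map_nsmul, hy]; exact v.2.2

/-- Pairing of two shrunk elements is `n ^ k` times their pairing at level `r + k`. -/
theorem pairV_shrink {k : ℕ} (x y : eisV p n (r + k) e) :
    pairV n r e (shrinkV n r k e x) (shrinkV n r k e y) = pairV n (r + k) e (n ^ k • x) y :=
  num_injective (by
    refine (num_pairV _ _).trans (Eq.trans ?_
      ((congrArg num (DFunLike.congr_fun (map_nsmul (pairV n (r + k) e) (n ^ k) x) y)).trans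
        (num_nsmul (n ^ k) (pairV n (r + k) e x y))).symm)
    change frickePair p (n ^ r) (n ^ k • (x : JZero p)) (n ^ k • (y : JZero p)) =
      frickePair p (n ^ (r + k)) (x : JZero p) (y : JZero p) ^ n ^ k
    have hx : (n ^ r * n ^ k) • (x : JZero p) = 0 := by rw [← pow_add]; exact x.2.1
    have hy : (n ^ r * n ^ k) • (y : JZero p) = 0 := by rw [← pow_add]; exact y.2.1
    rw [Fermat.JAC.X0.frickePair_step p hx hy, ← pow_add])

variable (r) in
/-- The descent context of `e J₀(p)[n ^ r]`. -/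
def ctxV (k : ℕ) (hR : R.ℓ = n) {Ap : ValuationSubring ℚbar} (hAp : IsPlace Ap p)
    (he : e * e - e ∈ lvl p n (r + k))
    (hiso : ∀ a ∈ kerV n (r + k) e R, ∀ b ∈ kerV n (r + k) e R,
      pairV n (r + k) e (n ^ k • a) b = 0) : Ctx (eisV p n r e) where
  n := n
  r := r
  p := p
  An := R.A
  Ap := Ap
  hn := isPlace_red R hR
  hp := hAp
  hpn h := R.hℓp (hR.trans h.symm)
  e := pairV n r e
  killed := killed_eisV
  smooth := smooth_eisV
  e_gal := pairV_gal
  nondeg x hx := pairV_nondeg (p := p) (n := n) (r := r) (e := e)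
    ((Ideal.span_singleton_le_span_singleton (x := (n : FullHecke p) ^ (r + k))
      (y := (n : FullHecke p) ^ r)).mpr (pow_dvd_pow _ (Nat.le_add_right r k)) he) x hx
  unram l hl hln hlp A hA σ hσ v := unram_eisV hl hln hlp hA hσ v
  V0 := (kerV n (r + k) e R).map (shrinkV n r k e)
  V0_stable σ hσ v hv := by
    obtain ⟨x, hx, rfl⟩ := hv
    exact ⟨σ • x, (mem_kerV R).mpr (redJ_galois R hσ ((mem_kerV R).mp hx)), shrinkV_smul σ x⟩
  inertia_sub σ hσ v := by
    obtain ⟨x, rfl⟩ := shrinkV_surjective he v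
    exact ⟨σ • x - x, (mem_kerV R).mpr (redJ_inertia R hσ x.1),
      (map_sub (shrinkV n r k e) _ _).trans (congrArg (· - _) (shrinkV_smul σ x))⟩
  iso a ha b hb := by
    obtain ⟨x, hx, rfl⟩ := ha
    obtain ⟨y, hy, rfl⟩ := hb
    exact (pairV_shrink x y).trans (hiso x hx y hy)

/-- A Hecke operator in the context. -/
theorem isOp_opV (k : ℕ) (hR : R.ℓ = n) {Ap : ValuationSubring ℚbar} (hAp : IsPlace Ap p)
    (he : e * e - e ∈ lvl p n (r + k))
    (hiso : ∀ a ∈ kerV n (r + k) e R, ∀ b ∈ kerV n (r + k) e R,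
      pairV n (r + k) e (n ^ k • a) b = 0) (t : FullHecke p)
    (ht : ∀ x : JZero p, R.redJ x = 0 → R.redJ (jAct p t x) = 0) :
    (ctxV r R k hR hAp he hiso).IsOp (opV n r e t) where
  comm σ v := Subtype.ext (smul_jAct p σ t v.1).symm
  adj := pairV_adj t
  stable v hv := by
    obtain ⟨x, hx, rfl⟩ := hv
    exact ⟨opV n (r + k) e t x, (mem_kerV R).mpr (ht _ ((mem_kerV R).mp hx)),
      Subtype.ext (map_nsmul (jAct p t) _ _).symm⟩

end Fermat.HT.Descent

end
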