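import Fermat.Agent.HT.Descent.AtN
import Fermat.Agent.HT.Cusp.UpFricke

/-!
# Frobenius data at `p`

If inertia at `p` satisfies `(σ - 1) ^ 2 = 0` and a Frobenius `φ ^ 2 - (p + 1) U φ + p = 0` with
`U ^ 2 = 1`, then `(p ^ 2 - 1) (φ - U)` has inertia invariant image on which `φ = p U`, and this
image is large: the kernel of `φ - U` is isotropic up to `p - 1`.
-/

set_option autoImplicit false
set_option linter.unusedSectionVars false

noncomputable section

open ModularCurve Fermat.EC.Val Fermat.FLAT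

namespace Fermat.HT.Descent

local notation "ℚbar" => AlgebraicClosure ℚ
local notation "Γℚ" => (AlgebraicClosure ℚ ≃ₐ[ℚ] AlgebraicClosure ℚ)

variable {V : Type*} [AddCommGroup V] [DistribMulAction Γℚ V]

namespace Ctx

variable (C : Ctx V) [Finite V]

/-- Frobenius turns `σ - 1` into `p` times itself when inertia at `p` satisfies `(σ - 1)² = 0`. -/
theorem conj_frob_smul (hI : ∀ σ ∈ C.Ap.inertiaSubgroupIn ℚ, ∀ v : V, σ • (σ • v - v) = σ • v - v)
    {φ σ : Γℚ} (hφ : C.Ap.IsFrobeniusAt φ C.p) (hσ : σ ∈ C.Ap.inertiaSubgroupIn ℚ) (v : V) :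
    φ • (σ • v - v) = C.p • (σ • (φ • v) - φ • v) := by
  obtain ⟨L₀, hL₀, hfix⟩ := C.smooth
  obtain ⟨L, hL, hLn, hLle⟩ :=
    Fermat.CFT.exists_normal_fixingSubgroup_le (U := L₀.fixingSubgroup) L₀.fixingSubgroup_isOpen
  have hiter : ∀ τ ∈ C.Ap.inertiaSubgroupIn ℚ, ∀ (i : ℕ) (u : V),
      τ ^ i • u = u + i • (τ • u - u) := by
    intro τ hτ i u
    induction i with
    | zero => simp
    | succ i ih =>
      rw [pow_succ', mul_smul, ih, smul_add, smul_comm τ i, hI τ hτ, succ_nsmul]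
      abel
  have hwild : ∀ w ∈ wildOn C.Ap L, ∀ u : V, w • u = u := by
    intro w hw u
    set π : Γℚ →* Equiv.Perm V := MulAction.toPermHom Γℚ V
    obtain ⟨a, ha⟩ := exists_pow_eq_one_of_wild (ρ := π) C.hp
      (fun τ hτ => Equiv.ext fun x => hfix τ (hLle hτ) x) hw
    have h2 : π w ^ C.n ^ C.r = 1 := Equiv.ext fun x => by
      rw [← map_pow]
      change w ^ C.n ^ C.r • x = x
      rw [hiter w hw.1, C.killed, add_zero]
    have h3 := pow_gcd_eq_one.mpr ⟨ha, h2⟩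
    rw [(Nat.Coprime.pow a C.r ((Nat.coprime_primes C.hp.1 C.hn.1).mpr C.hpn) :
      Nat.gcd (C.p ^ a) (C.n ^ C.r) = 1), pow_one] at h3
    exact Equiv.Perm.congr_fun h3 u
  have hw := hwild _ (frob_conj_mem_wildOn (L := L) C.hp hφ hσ) (σ ^ C.p • (φ • v))
  rw [← mul_smul, inv_mul_cancel_right, ← mul_smul, inv_mul_cancel_right] at hw
  rw [smul_sub, ← mul_smul, hw, hiter σ hσ, add_sub_cancel_left]

/-- Inertia fixes `(p ^ 2 - 1) (φ - U)`. -/
private theorem inertia_smul_nsmul_sub (U : V →+ V)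
    (hUc : ∀ (σ : Γℚ) (v : V), U (σ • v) = σ • U v) (hU2 : ∀ v, U (U v) = v)
    (hI : ∀ σ ∈ C.Ap.inertiaSubgroupIn ℚ, ∀ v : V, σ • (σ • v - v) = σ • v - v)
    {φ : Γℚ} (hφ : C.Ap.IsFrobeniusAt φ C.p)
    (hrel : ∀ v : V, φ • φ • v + C.p • v = (C.p + 1) • U (φ • v))
    {σ : Γℚ} (hσ : σ ∈ C.Ap.inertiaSubgroupIn ℚ) (v : V) :
    σ • ((C.p ^ 2 - 1) • (φ • v - U v)) = (C.p ^ 2 - 1) • (φ • v - U v) := by
  set P := C.p with hP
  have hp2 : 1 ≤ P ^ 2 := Nat.one_le_pow _ _ C.hp.1.pos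
  have hcop : ∀ x : V, P • x = 0 → x = 0 := fun x hx => by
    refine AddMonoid.addOrderOf_eq_one_iff.mp (Nat.eq_one_of_dvd_coprimes
      (Nat.Coprime.pow_right C.r ((Nat.coprime_primes C.hp.1 C.hn.1).mpr C.hpn))
      (addOrderOf_dvd_of_nsmul_eq_zero hx) (addOrderOf_dvd_of_nsmul_eq_zero (C.killed x)))
  set Nm : V →+ V := DistribSMul.toAddMonoidHom V σ - AddMonoidHom.id V
  have hN : ∀ u, Nm u = σ • u - u := fun u => rfl
  have hFN : ∀ u, φ • Nm u = P • Nm (φ • u) := fun u => C.conj_frob_smul hI hφ hσ u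
  have hNU : ∀ u, Nm (U u) = U (Nm u) := fun u => by rw [hN, hN, map_sub, hUc]
  -- apply the relation before and after `Nm`
  have e1 : Nm (φ • φ • v) + P • Nm v = (P + 1) • U (Nm (φ • v)) := by
    rw [← map_nsmul, ← map_add, hrel, map_nsmul, hNU]
  have e2 : P • (P • Nm (φ • φ • v) + Nm v) = P • ((P + 1) • U (Nm (φ • v))) := by
    have h := hrel (Nm v)
    rw [hFN v, smul_comm φ P, hFN (φ • v), map_nsmul, smul_comm (P + 1) P] at h
    rw [nsmul_add]
    exact h
  have e3 : P • Nm (φ • φ • v) + Nm v = (P + 1) • U (Nm (φ • v)) := sub_eq_zero.mp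
    (hcop _ (by rw [nsmul_sub, e2, sub_self]))
  have e4 : (P - 1 : ℤ) • (Nm (φ • φ • v) - Nm v) = 0 := by
    have h := sub_eq_zero.mpr (e3.trans e1.symm)
    rw [← h]
    simp only [← natCast_zsmul]
    module
  have e5 : (P ^ 2 - 1 : ℕ) • Nm (φ • v - U v) = 0 := by
    have h5 : ((P : ℤ) - 1) • (((P : ℤ) + 1) • (U (Nm (φ • v)) - Nm v)) = 0 := by
      have h := e1
      simp only [← natCast_zsmul, Nat.cast_add, Nat.cast_one] at h
      rw [smul_sub ((P : ℤ) + 1), ← h, ← e4]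
      module
    have h6 : ((P : ℤ) ^ 2 - 1) • (U (Nm (φ • v)) - Nm v) = 0 := by
      rw [← h5, smul_smul]; congr 1; ring
    have h7 := congrArg U h6
    rw [map_zsmul, map_zero, map_sub, hU2, ← hNU, ← map_sub] at h7
    rw [← natCast_zsmul, Nat.cast_sub hp2, Nat.cast_pow, Nat.cast_one]
    exact h7
  rw [← map_nsmul, hN, sub_eq_zero] at e5
  exact e5

/-- If `d • H ≤ S`, then `H` has at most `#V[d] * #S` elements. -/
private theorem card_le_card_tors_mul {H S : AddSubgroup V} {d : ℕ} (h : ∀ x ∈ H, d • x ∈ S) :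
    Nat.card H ≤ Nat.card (tors (G := V) d) * Nat.card S := by
  let g : H →+ V := (nsmulAddMonoidHom (α := V) d).comp H.subtype
  rw [AddSubgroup.card_eq_card_quotient_mul_card_addSubgroup g.ker,
    Nat.card_congr (QuotientAddGroup.quotientKerEquivRange g).toEquiv, mul_comm]
  refine Nat.mul_le_mul (Nat.card_le_card_of_injective
      (fun x : g.ker => (⟨x.1.1, x.2⟩ : tors (G := V) d)) fun a b h =>
        Subtype.ext (Subtype.ext (congrArg (fun z : tors (G := V) d => z.1) h)))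
    (AddSubgroup.card_le_of_le ?_)
  rintro _ ⟨⟨x, hx⟩, rfl⟩
  exact h x hx

/-- `(p - 1) ker (φ - U)` is orthogonal to `ker (φ - U)`. -/
private theorem pred_nsmul_mem_perp (U : V →+ V) (hU2 : ∀ v, U (U v) = v)
    (hUa : ∀ x y, C.e (U x) y = C.e x (U y)) {φ : Γℚ} (hφ : C.Ap.IsFrobeniusAt φ C.p)
    {K : AddSubgroup V} (hK : ∀ x ∈ K, φ • x = U x) {b : V} (hb : b ∈ K) :
    (C.p - 1) • b ∈ perp C.e K := by
  intro a ha
  have h1 : gal φ (C.e a b) = C.e a b := by
    rw [C.e_gal, hK a ha, hK b hb, hUa, hU2]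
  have h2 : gal φ (C.e a b) = C.p • C.e a b := num_injective (by
    rw [num_gal, num_nsmul]
    exact frob_apply_root C.hp hφ
      (fun h => C.hpn ((Nat.prime_dvd_prime_iff_eq C.hp.1 C.hn.1).mp (C.hp.1.dvd_of_dvd_pow h)))
      (C.num_pow a b))
  rw [map_nsmul]
  refine add_right_cancel (b := C.e a b) ?_
  rw [← succ_nsmul, Nat.sub_add_cancel C.hp.1.one_lt.le, ← h2, h1, zero_add]

/-- **Frobenius data at `p`.** With unipotent inertia and this relation of Frobenius there are data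
`FrobP` with `N = p² - 1` whose subgroup is large. -/
theorem exists_frobP (U : V →+ V) (hUc : ∀ (σ : Γℚ) (v : V), U (σ • v) = σ • U v)
    (hU2 : ∀ v, U (U v) = v) (hUa : ∀ x y, C.e (U x) y = C.e x (U y))
    (hI : ∀ σ ∈ C.Ap.inertiaSubgroupIn ℚ, ∀ v : V, σ • (σ • v - v) = σ • v - v)
    {φ : Γℚ} (hφ : C.Ap.IsFrobeniusAt φ C.p)
    (hrel : ∀ v : V, φ • φ • v + C.p • v = (C.p + 1) • U (φ • v)) :
    ∃ Fp : C.FrobP, Fp.N = C.p ^ 2 - 1 ∧
      Nat.card V ≤ Nat.card (tors (G := V) (C.p - 1)) * Nat.card (tors (G := V) (C.p ^ 2 - 1)) ^ 2 *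
        Nat.card Fp.X ^ 2 := by
  classical
  set P := C.p with hP
  have hp2 : 1 ≤ P ^ 2 := Nat.one_le_pow _ _ C.hp.1.pos
  set F : V →+ V := DistribSMul.toAddMonoidHom V φ
  set D : V →+ V := F - U
  have hD : ∀ v, D v = φ • v - U v := fun v => rfl
  have hfix : ∀ σ ∈ C.Ap.inertiaSubgroupIn ℚ, ∀ v, σ • ((P ^ 2 - 1) • D v) = (P ^ 2 - 1) • D v :=
    fun σ hσ v => C.inertia_smul_nsmul_sub U hUc hU2 hI hφ hrel hσ v
  have hDk : ∀ v, φ • D v = P • U (D v) := fun v => by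
    rw [hD, smul_sub, map_sub, hU2, nsmul_sub, ← hUc, eq_sub_iff_add_eq]
    have h := hrel v
    rw [succ_nsmul] at h
    calc φ • φ • v - U (φ • v) + P • v = (φ • φ • v + P • v) - U (φ • v) := by abel
      _ = P • U (φ • v) := by rw [h]; abel
  refine ⟨
    { φ := φ
      hφ := hφ
      X := ((nsmulAddMonoidHom (α := V) (P ^ 2 - 1)).comp D).range
      fixed := fun σ hσ w hw => by
        obtain ⟨v, rfl⟩ := hw
        exact hfix σ hσ v
      N := P ^ 2 - 1
      hX := fun w hw hφw => ?_ }, rfl, ?_⟩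
  · obtain ⟨v, hv⟩ := hw
    replace hv : (P ^ 2 - 1) • D v = w := hv
    have h1 : φ • w = P • U w := by
      rw [← hv, smul_comm φ (P ^ 2 - 1), hDk, map_nsmul, smul_comm]
    rw [hφw] at h1
    have h2 : P ^ 2 • w = w := by
      conv_rhs => rw [h1, congrArg U h1, map_nsmul, hU2, ← mul_nsmul', ← pow_two]
    refine add_right_cancel (b := w) ?_
    rw [← succ_nsmul, Nat.sub_add_cancel hp2, h2, zero_add]
  · change Nat.card V ≤ _ * Nat.card ((nsmulAddMonoidHom (α := V) (P ^ 2 - 1)).comp D).range ^ 2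
    set t1 := Nat.card (tors (G := V) (P - 1))
    set t2 := Nat.card (tors (G := V) (P ^ 2 - 1))
    -- the kernel is isotropic up to `p - 1`
    have hK : Nat.card D.ker * Nat.card D.ker ≤ t1 * Nat.card V := by
      have h4 : Nat.card D.ker ≤ t1 * Nat.card (perp C.e D.ker) :=
        card_le_card_tors_mul fun b hb => C.pred_nsmul_mem_perp U hU2 hUa hφ
          (fun x hx => sub_eq_zero.mp ((hD x).symm.trans hx)) hb
      rw [← card_perp_mul_card C.e (smallTorsion_units _) C.nondeg D.ker, ← mul_assoc]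
      exact Nat.mul_le_mul_right _ h4
    -- the image
    have hR : Nat.card D.range ≤
        t2 * Nat.card ((nsmulAddMonoidHom (α := V) (P ^ 2 - 1)).comp D).range :=
      card_le_card_tors_mul fun x ⟨v, hv⟩ => ⟨v, congrArg ((P ^ 2 - 1) • ·) hv⟩
    have hV : Nat.card V = Nat.card D.range * Nat.card D.ker := by
      rw [AddSubgroup.card_eq_card_quotient_mul_card_addSubgroup D.ker,
        Nat.card_congr (QuotientAddGroup.quotientKerEquivRange D).toEquiv]
    have hV0 : 0 < Nat.card V := Nat.card_pos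
    refine Nat.le_of_mul_le_mul_left ?_ hV0
    calc Nat.card V * Nat.card V
        = Nat.card D.range ^ 2 * (Nat.card D.ker * Nat.card D.ker) := by rw [hV]; ring
      _ ≤ (t2 * Nat.card ((nsmulAddMonoidHom (α := V) (P ^ 2 - 1)).comp D).range) ^ 2 *
            (t1 * Nat.card V) := Nat.mul_le_mul (Nat.pow_le_pow_left hR 2) hK
      _ = _ := by ring

end Ctx

/-! ### The modules -/

open Fermat.GR (FullHecke)
open Fermat.JAC.X0 (jAct)

variable {p : ℕ} [hp : Fact p.Prime] [NeZero p]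

variable (p) in
/-- The behaviour at `p` of torsion prime to `p` (toric reduction): inertia is unipotent of
exponent two and a Frobenius is killed by `X ^ 2 - (p + 1) U X + p`. -/
def AtPHyp : Prop :=
  ∀ A : ValuationSubring ℚbar, A.LiesOverPrime p → ∀ m : ℕ, ¬ p ∣ m → ∀ x : JZero p, m • x = 0 →
    (∀ σ ∈ A.inertiaSubgroupIn ℚ, σ • (σ • x - x) = σ • x - x) ∧
      ∀ φ : Γℚ, A.IsFrobeniusAt φ p →
        φ • φ • x + p • x = (p + 1) • heckeOperatorBar p ⟨p, hp.out⟩ (φ • x)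

/-- `U p` is an involution of `J₀(p)`. -/
theorem heckeOperatorBar_self_self (x : JZero p) :
    heckeOperatorBar p ⟨p, hp.out⟩ (heckeOperatorBar p ⟨p, hp.out⟩ x) = x := by
  rw [Fermat.HT.Cusp.heckeOperatorBar_self, Fermat.HT.Cusp.heckeOperatorBar_self]
  exact Eq.trans (congrArg Neg.neg ((map_neg (DistribSMul.toAddMonoidHom (JZero p)
    (Fermat.JAC.X0.frickeAut p ℚbar)) _))) (by
      rw [neg_neg]
      change Fermat.JAC.X0.frickeAut p ℚbar • (Fermat.JAC.X0.frickeAut p ℚbar • x) = x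
      rw [← mul_smul, Fermat.JAC.X0.frickeAut_mul_self, one_smul])

variable {n : ℕ} [hn : Fact n.Prime] {r : ℕ} {e : FullHecke p}

/-- The `m`-torsion of the module is no larger than that of `J₀(p)`. -/
theorem card_tors_eisV_le {m : ℕ} (hm : m ≠ 0) :
    Nat.card (tors (G := eisV p n r e) m) ≤ Nat.card {x : JZero p // m • x = 0} := by
  have := finite_torsion p hm
  exact Nat.card_le_card_of_injective
    (fun x => (⟨x.1.1, congrArg Subtype.val (mem_tors.mp x.2)⟩ : {x : JZero p // m • x = 0}))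
    fun a b h => Subtype.ext (Subtype.ext
      (congrArg (fun z : {x : JZero p // m • x = 0} => z.1) h))

/-- Frobenius data at `p` for the modules. -/
theorem exists_frobP_ctxV (hat : AtPHyp p) (R : Fermat.HT.Cusp.Red p) {k : ℕ} (hR : R.ℓ = n)
    {Ap : ValuationSubring ℚbar} (hAp : IsPlace Ap p) (he : e * e - e ∈ lvl p n (r + k))
    (hiso : ∀ a ∈ kerV n (r + k) e R, ∀ b ∈ kerV n (r + k) e R,
      pairV n (r + k) e (n ^ k • a) b = 0) :
    ∃ Fp : (ctxV r R k hR hAp he hiso).FrobP, Fp.N = p ^ 2 - 1 ∧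
      Nat.card (eisV p n r e) ≤ Nat.card {x : JZero p // (p - 1) • x = 0} *
        Nat.card {x : JZero p // (p ^ 2 - 1) • x = 0} ^ 2 * Nat.card Fp.X ^ 2 := by
  have := finite_eisV (p := p) (n := n) (r := r) (e := e) hn.out.ne_zero
  obtain ⟨φ, hφ⟩ := Fermat.CFT.exists_isFrobeniusAt hAp.1 hAp.2
  have hm : ¬ p ∣ n ^ r := fun h => R.hℓp (hR.trans
    ((Nat.prime_dvd_prime_iff_eq hp.out hn.out).mp (hp.out.dvd_of_dvd_pow h)).symm)
  set C := ctxV r R k hR hAp he hiso
  set U := CuspForm.heckeAlgebra.U hp.out dvd_rfl (Set.notMem_empty p)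
  have hU : ∀ x : JZero p, jAct p U x = heckeOperatorBar p ⟨p, hp.out⟩ x := fun x =>
    Fermat.JAC.X0.jAct_U p hp.out dvd_rfl x
  obtain ⟨Fp, hN, hle⟩ := C.exists_frobP (opV n r e U)
    (fun σ v => Subtype.ext (smul_jAct p σ U v.1).symm)
    (fun v => Subtype.ext (by
      rw [coe_opV, coe_opV, hU, hU]; exact heckeOperatorBar_self_self _))
    (pairV_adj U)
    (fun σ hσ v => Subtype.ext ((hat Ap hAp.2 _ hm v.1 v.2.1).1 σ hσ))
    hφ
    (fun v => Subtype.ext (by
      refine ((hat Ap hAp.2 _ hm v.1 v.2.1).2 φ hφ).trans ?_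
      rw [← hU]; rfl))
  refine ⟨Fp, hN, hle.trans (Nat.mul_le_mul_right _ ?_)⟩
  exact Nat.mul_le_mul
    (card_tors_eisV_le (Nat.sub_ne_zero_of_lt hp.out.one_lt))
    (Nat.pow_le_pow_left (card_tors_eisV_le
      (Nat.sub_ne_zero_of_lt (Nat.one_lt_pow two_ne_zero hp.out.one_lt))) 2)

end Fermat.HT.Descent

end
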