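import Fermat.Agent.HT.Descent.Count
import Fermat.Agent.FLAT.Tame
import Mathlib.LinearAlgebra.LinearIndependent.Basic

/-!
# Cocycles of a Galois module with local data at `n` and `p`, and their valuations at `n`

At the place over `n` a cocycle with values in the multiplicative part is, after pairing with any
element, a Kummer cocycle; `val` is the order of the Kummer generator modulo `ℤ`.
-/

set_option autoImplicit false

noncomputable section

open Fermat.EC.Val
open scoped Pointwise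

namespace Fermat.HT.Descent

local notation "ℚbar" => AlgebraicClosure ℚ
local notation "Γℚ" => (AlgebraicClosure ℚ ≃ₐ[ℚ] AlgebraicClosure ℚ)

/-- The multiplicative group of `ℚ̄`, written additively. -/
abbrev Mu : Type := Additive ℚbarˣ

/-- An element of `Mu` as a number. -/
def num (u : Mu) : ℚbar := ((Additive.toMul u : ℚbarˣ) : ℚbar)

/-- `num` takes sums to products. -/
lemma num_add (a b : Mu) : num (a + b) = num a * num b := by simp [num]

/-- `num` takes zero to one. -/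
lemma num_zero : num 0 = 1 := by simp [num]

/-- `num` takes multiples to powers. -/
lemma num_nsmul (k : ℕ) (a : Mu) : num (k • a) = num a ^ k := by simp [num]

/-- The number underlying an element of `Mu` is not zero. -/
lemma num_ne_zero (a : Mu) : num a ≠ 0 := Units.ne_zero _

/-- An element of `Mu` is determined by its number. -/
lemma num_injective : Function.Injective num := fun _ _ h =>
  Additive.toMul.injective (Units.ext h)

/-- Galois action on `Mu`. -/
def gal (σ : Γℚ) : Mu →+ Mu :=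
  MonoidHom.toAdditive (Units.map (σ.toAlgHom.toRingHom : ℚbar →* ℚbar))

/-- `gal` is the Galois action on the numbers. -/
lemma num_gal (σ : Γℚ) (a : Mu) : num (gal σ a) = σ (num a) := rfl

/-- A Galois module killed by `n ^ r`, with a pairing into `Mu` and local data at a place over `n`
and one over `p`. -/
structure Ctx (V : Type*) [AddCommGroup V] [DistribMulAction Γℚ V] where
  /-- The prime a power of which kills the module. -/
  n : ℕ
  /-- The exponent, `n ^ r` kills the module. -/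
  r : ℕ
  /-- The other prime at which the module may ramify. -/
  p : ℕ
  /-- The place over `n`. -/
  An : ValuationSubring ℚbar
  /-- The place over `p`. -/
  Ap : ValuationSubring ℚbar
  /-- `An` is a place over `n`. -/
  hn : IsPlace An n
  /-- `Ap` is a place over `p`. -/
  hp : IsPlace Ap p
  /-- The two primes differ. -/
  hpn : p ≠ n
  /-- The pairing into the multiplicative group of `ℚ̄`. -/
  e : V →+ V →+ Mu
  /-- `n ^ r` kills the module. -/
  killed : ∀ v : V, n ^ r • v = 0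
  /-- The action factors through a finite extension. -/
  smooth : ∃ L : IntermediateField ℚ ℚbar, FiniteDimensional ℚ L ∧
    ∀ σ ∈ L.fixingSubgroup, ∀ v : V, σ • v = v
  /-- The pairing is Galois equivariant. -/
  e_gal : ∀ (σ : Γℚ) (x y : V), gal σ (e x y) = e (σ • x) (σ • y)
  /-- The pairing is non-degenerate on the left. -/
  nondeg : ∀ x, (∀ y, e x y = 0) → x = 0
  /-- The module is unramified outside `n` and `p`. -/
  unram : ∀ ℓ : ℕ, ℓ.Prime → ℓ ≠ n → ℓ ≠ p → ∀ A : ValuationSubring ℚbar, A.LiesOverPrime ℓ →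
    ∀ σ ∈ A.inertiaSubgroupIn ℚ, ∀ v : V, σ • v = v
  /-- The multiplicative part at `n`. -/
  V0 : AddSubgroup V
  /-- Decomposition at `n` preserves the multiplicative part. -/
  V0_stable : ∀ σ ∈ An.decompositionSubgroup ℚ, ∀ v ∈ V0, σ • v ∈ V0
  /-- Inertia at `n` is trivial modulo the multiplicative part. -/
  inertia_sub : ∀ σ ∈ An.inertiaSubgroupIn ℚ, ∀ v : V, σ • v - v ∈ V0
  /-- The multiplicative part is isotropic. -/
  iso : ∀ a ∈ V0, ∀ b ∈ V0, e a b = 0

/-- Continuity of a cocycle. -/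
def IsLevel {V : Type*} (c : Γℚ → V) : Prop :=
  ∃ L : IntermediateField ℚ ℚbar, FiniteDimensional ℚ L ∧
    ∀ σ : Γℚ, ∀ τ ∈ L.fixingSubgroup, c (σ * τ) = c σ

variable {V : Type*} [AddCommGroup V] [DistribMulAction Γℚ V]

/-- A function of two continuous functions is continuous. -/
lemma IsLevel.map₂ {X Y Z : Type*} {c : Γℚ → X} {d : Γℚ → Y} (hc : IsLevel c) (hd : IsLevel d)
    (f : X → Y → Z) : IsLevel fun σ => f (c σ) (d σ) := by
  obtain ⟨L, hL, h⟩ := hc
  obtain ⟨L', hL', h'⟩ := hd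
  have := hL
  have := hL'
  exact ⟨L ⊔ L', inferInstance, fun σ τ hτ => by
    change f (c (σ * τ)) (d (σ * τ)) = f (c σ) (d σ)
    rw [h σ τ (IntermediateField.fixingSubgroup_antitone le_sup_left hτ),
      h' σ τ (IntermediateField.fixingSubgroup_antitone le_sup_right hτ)]⟩

/-- Constants are continuous. -/
lemma isLevel_const {X : Type*} (x : X) : IsLevel fun _ : Γℚ => x :=
  ⟨⊥, inferInstance, fun _ _ _ => rfl⟩

variable (V) in
/-- Continuous cocycles. -/
def cocyc : AddSubgroup (Γℚ → V) where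
  carrier := {c | (∀ σ τ, c (σ * τ) = c σ + σ • c τ) ∧ IsLevel c}
  zero_mem' := ⟨fun σ τ => by simp, isLevel_const 0⟩
  add_mem' := fun {a b} ha hb => ⟨fun σ τ => by
    simp only [Pi.add_apply, ha.1 σ τ, hb.1 σ τ, smul_add]; abel, ha.2.map₂ hb.2 (· + ·)⟩
  neg_mem' := fun {a} ha => ⟨fun σ τ => by
    simp only [Pi.neg_apply, ha.1 σ τ, smul_neg]; abel, ha.2.map₂ ha.2 fun x _ => -x⟩

/-- **Hilbert 90**: a continuous multiplicative cocycle on a subgroup is a Kummer cocycle. -/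
theorem exists_kummer (H₀ : Subgroup Γℚ) (f : Γℚ → ℚbar) (hf : IsLevel f) (hf0 : ∀ σ, f σ ≠ 0)
    (hmul : ∀ σ ∈ H₀, ∀ τ ∈ H₀, f (σ * τ) = f σ * σ (f τ)) :
    ∃ z : ℚbar, z ≠ 0 ∧ ∀ σ ∈ H₀, σ z = f σ * z := by
  classical
  obtain ⟨L₀, hL₀, hlev⟩ := hf
  have := hL₀
  set L₁ := IntermediateField.normalClosure ℚ L₀ ℚbar
  have : FiniteDimensional ℚ L₁ := normalClosure.is_finiteDimensional ℚ _ ℚbar
  have : Normal ℚ L₁ := normalClosure.normal ℚ _ ℚbar
  have : IsGalois ℚ L₁ := ⟨⟩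
  have hle₁ : L₀ ≤ L₁ := IntermediateField.le_normalClosure _
  set res₁ := AlgEquiv.restrictNormalHom (F := ℚ) (K₁ := ℚbar) L₁
  have hwd₁ : ∀ σ σ' : Γℚ, res₁ σ = res₁ σ' → f σ = f σ' := fun σ σ' h => by
    have : σ⁻¹ * σ' ∈ L₁.fixingSubgroup := by
      rw [← Fermat.CFT.restrict_eq_one_iff]
      change res₁ (σ⁻¹ * σ') = 1
      rw [map_mul, map_inv, h, inv_mul_cancel]
    have := hlev σ _ (IntermediateField.fixingSubgroup_antitone hle₁ this)
    rwa [mul_inv_cancel_left, eq_comm] at this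
  -- a level containing the finitely many values
  set rep : (L₁ ≃ₐ[ℚ] L₁) → Γℚ :=
    Function.surjInv (AlgEquiv.restrictNormalHom_surjective (F := ℚ) (K₁ := L₁) ℚbar)
  have : FiniteDimensional ℚ (IntermediateField.adjoin ℚ (Set.range fun g => f (rep g))) :=
    IntermediateField.finiteDimensional_adjoin fun x _ => Algebra.IsIntegral.isIntegral x
  set L := IntermediateField.normalClosure ℚ
    ↥(L₁ ⊔ IntermediateField.adjoin ℚ (Set.range fun g => f (rep g))) ℚbar
  have : FiniteDimensional ℚ L := normalClosure.is_finiteDimensional ℚ _ ℚbar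
  have : Normal ℚ L := normalClosure.normal ℚ _ ℚbar
  have : IsGalois ℚ L := ⟨⟩
  have hle : L₁ ⊔ IntermediateField.adjoin ℚ (Set.range fun g => f (rep g)) ≤ L :=
    IntermediateField.le_normalClosure _
  have hmem : ∀ σ, f σ ∈ L := fun σ => by
    refine hle (le_sup_right (a := L₁) (IntermediateField.subset_adjoin ℚ _ ⟨res₁ σ, ?_⟩))
    exact hwd₁ _ _ (Function.surjInv_eq
      (AlgEquiv.restrictNormalHom_surjective (F := ℚ) (K₁ := L₁) ℚbar) _)
  set res := AlgEquiv.restrictNormalHom (F := ℚ) (K₁ := ℚbar) L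
  set H : Subgroup (L ≃ₐ[ℚ] L) := H₀.map res
  have hlift : ∀ h : H, ∃ σ ∈ H₀, res σ = h.1 := fun h => h.2
  choose lift hliftI hliftres using hlift
  have hwd : ∀ σ σ' : Γℚ, res σ = res σ' → f σ = f σ' := fun σ σ' h => by
    have : σ⁻¹ * σ' ∈ L.fixingSubgroup := by
      rw [← Fermat.CFT.restrict_eq_one_iff]
      change res (σ⁻¹ * σ') = 1
      rw [map_mul, map_inv, h, inv_mul_cancel]
    have := hlev σ _ (IntermediateField.fixingSubgroup_antitone
      (le_trans hle₁ (le_trans le_sup_left hle)) this)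
    rwa [mul_inv_cancel_left, eq_comm] at this
  let F : H → L := fun h => ⟨f (lift h), hmem _⟩
  have hli : LinearIndependent L fun h : H => ((h.1 : L →ₐ[ℚ] L).toRingHom : L →* L).toFun := by
    refine (linearIndependent_monoidHom L L).comp
      (fun h : H => ((h.1 : L →ₐ[ℚ] L).toRingHom : L →* L)) fun a b hab => ?_
    refine Subtype.ext (AlgEquiv.ext fun x => ?_)
    exact DFunLike.congr_fun hab x
  obtain ⟨a, ha⟩ : ∃ a : L, ∑ h : H, F h * (h.1 a) ≠ 0 := by
    by_contra hcon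
    push Not at hcon
    have := Fintype.linearIndependent_iff.mp hli F (funext fun a => by
      simpa [Finset.sum_apply] using hcon a) 1
    exact hf0 _ (congrArg (fun x : L => (x : ℚbar)) this)
  set z : L := ∑ h : H, F h * (h.1 a) with hz
  refine ⟨(z : ℚbar)⁻¹, inv_ne_zero fun h => ha (Subtype.ext h), fun σ hσ => ?_⟩
  set g : H := ⟨res σ, σ, hσ, rfl⟩
  have hFg : ∀ h : H, f σ * σ ((F h : L) : ℚbar) = ((F (g * h) : L) : ℚbar) := by
    intro h
    change _ * σ (f (lift h)) = f (lift (g * h))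
    rw [← hmul σ hσ _ (hliftI h), hwd (σ * lift h) (lift (g * h)) (by
      rw [map_mul, hliftres, hliftres]; rfl)]
  have happly : ∀ x : L, ((g.1 x : L) : ℚbar) = σ (x : ℚbar) := fun x =>
    AlgEquiv.restrictNormal_commutes σ L x
  have key : f σ * σ (z : ℚbar) = (z : ℚbar) := by
    rw [hz]
    push_cast
    rw [map_sum, Finset.mul_sum]
    refine Fintype.sum_equiv (Equiv.mulLeft g) _ _ fun h => ?_
    rw [Equiv.coe_mulLeft, map_mul, ← mul_assoc, hFg]
    congr 1
    rw [← happly]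
    rfl
  rw [map_inv₀]
  conv_rhs => rw [← key]
  have := hf0 σ
  field_simp

namespace Ctx

variable (C : Ctx V)

/-- Cocycles unramified outside `n, p` with multiplicative values on inertia at `n`. -/
def sel : AddSubgroup (Γℚ → V) :=
  cocyc V ⊓
  { carrier := {c | (∀ ℓ : ℕ, ℓ.Prime → ℓ ≠ C.n → ℓ ≠ C.p → ∀ A : ValuationSubring ℚbar,
        A.LiesOverPrime ℓ → ∀ σ ∈ A.inertiaSubgroupIn ℚ, c σ = 0) ∧
      ∀ σ ∈ C.An.inertiaSubgroupIn ℚ, c σ ∈ C.V0}
    zero_mem' := ⟨fun _ _ _ _ _ _ _ _ => rfl, fun _ _ => zero_mem _⟩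
    add_mem' := fun {a b} ha hb => ⟨fun ℓ h1 h2 h3 A hA σ hσ => by
      rw [Pi.add_apply, ha.1 ℓ h1 h2 h3 A hA σ hσ, hb.1 ℓ h1 h2 h3 A hA σ hσ, add_zero],
      fun σ hσ => add_mem (ha.2 σ hσ) (hb.2 σ hσ)⟩
    neg_mem' := fun {a} ha => ⟨fun ℓ h1 h2 h3 A hA σ hσ => by
      rw [Pi.neg_apply, ha.1 ℓ h1 h2 h3 A hA σ hσ, neg_zero],
      fun σ hσ => neg_mem (ha.2 σ hσ)⟩ }

variable {C}

/-- The cocycle relation. -/
lemma sel_mul {c : Γℚ → V} (hc : c ∈ C.sel) (σ τ : Γℚ) : c (σ * τ) = c σ + σ • c τ := hc.1.1 σ τ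

/-- Selmer cocycles are continuous. -/
lemma sel_level {c : Γℚ → V} (hc : c ∈ C.sel) : IsLevel c := hc.1.2

/-- Selmer cocycles vanish on inertia away from `n` and `p`. -/
lemma sel_unram {c : Γℚ → V} (hc : c ∈ C.sel) {ℓ : ℕ} (h1 : ℓ.Prime) (h2 : ℓ ≠ C.n) (h3 : ℓ ≠ C.p)
    {A : ValuationSubring ℚbar} (hA : A.LiesOverPrime ℓ) {σ : Γℚ}
    (hσ : σ ∈ A.inertiaSubgroupIn ℚ) : c σ = 0 := hc.2.1 ℓ h1 h2 h3 A hA σ hσ

/-- Selmer cocycles take multiplicative values on inertia at `n`. -/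
lemma sel_mem {c : Γℚ → V} (hc : c ∈ C.sel) {σ : Γℚ} (hσ : σ ∈ C.An.inertiaSubgroupIn ℚ) :
    c σ ∈ C.V0 := hc.2.2 σ hσ

/-- A continuous cocycle with the two local properties is a Selmer cocycle. -/
lemma mem_sel {c : Γℚ → V} (h0 : c ∈ cocyc V)
    (h1 : ∀ ℓ : ℕ, ℓ.Prime → ℓ ≠ C.n → ℓ ≠ C.p → ∀ A : ValuationSubring ℚbar,
      A.LiesOverPrime ℓ → ∀ σ ∈ A.inertiaSubgroupIn ℚ, c σ = 0)
    (h2 : ∀ σ ∈ C.An.inertiaSubgroupIn ℚ, c σ ∈ C.V0) : c ∈ C.sel := ⟨h0, h1, h2⟩

/-- The coboundary of `b`. -/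
def cobd : V →+ (Γℚ → V) where
  toFun b := fun σ => σ • b - b
  map_zero' := by funext σ; simp
  map_add' a b := by funext σ; simp only [Pi.add_apply, smul_add]; abel

variable (C)

/-- Coboundaries are Selmer cocycles. -/
lemma cobd_mem (b : V) : cobd b ∈ C.sel := by
  obtain ⟨L, hL, hfix⟩ := C.smooth
  refine mem_sel ⟨fun σ τ => ?_, ⟨L, hL, fun σ τ hτ => ?_⟩⟩
    (fun ℓ h1 h2 h3 A hA σ hσ => ?_) fun σ hσ => C.inertia_sub σ hσ b
  · change (σ * τ) • b - b = σ • b - b + σ • (τ • b - b)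
    rw [mul_smul, smul_sub]; abel
  · change (σ * τ) • b - b = σ • b - b
    rw [mul_smul, hfix τ hτ]
  · change σ • b - b = 0
    rw [C.unram ℓ h1 h2 h3 A hA σ hσ, sub_self]

/-- `z` generates the Kummer cocycle `σ ↦ e (c σ) T` on inertia at `n`. -/
def IsGen (c : Γℚ → V) (T : V) (z : ℚbar) : Prop :=
  z ≠ 0 ∧ ∀ σ ∈ C.An.inertiaSubgroupIn ℚ, σ z = num (C.e (c σ) T) * z

/-- The values of the pairing are `n ^ r`-th roots of unity. -/
lemma num_pow (x y : V) : num (C.e x y) ^ C.n ^ C.r = 1 := by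
  rw [← num_nsmul, ← AddMonoidHom.nsmul_apply, ← map_nsmul, C.killed, map_zero,
    AddMonoidHom.zero_apply, num_zero]

/-- Paired with `T`, a Selmer cocycle is multiplicative on inertia at `n`. -/
lemma pair_mul {c : Γℚ → V} (hc : c ∈ C.sel) (T : V) {σ τ : Γℚ}
    (hσ : σ ∈ C.An.inertiaSubgroupIn ℚ) (hτ : τ ∈ C.An.inertiaSubgroupIn ℚ) :
    num (C.e (c (σ * τ)) T) = num (C.e (c σ) T) * σ (num (C.e (c τ) T)) := by
  rw [sel_mul hc, map_add, AddMonoidHom.add_apply, num_add, ← num_gal, C.e_gal]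
  congr 2
  rw [show σ • T = T + (σ • T - T) by abel, map_add,
    C.iso _ (C.V0_stable σ (FLAT.inertia_le_decomposition _ hσ) _ (sel_mem hc hτ)) _
      (C.inertia_sub σ hσ T),
    add_zero]

/-- Kummer generators exist. -/
theorem exists_isGen {c : Γℚ → V} (hc : c ∈ C.sel) (T : V) : ∃ z, C.IsGen c T z :=
  exists_kummer _ (fun σ => num (C.e (c σ) T)) ((sel_level hc).map₂ (sel_level hc)
    fun x _ => num (C.e x T)) (fun _ => num_ne_zero _) fun _ hσ _ hτ => C.pair_mul hc T hσ hτ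

/-- Two Kummer generators differ in order by an integer. -/
lemma IsGen.ord_sub {c : Γℚ → V} {T : V} {z z' : ℚbar} (h : C.IsGen c T z) (h' : C.IsGen c T z') :
    ∃ k : ℤ, ord C.An C.n z - ord C.An C.n z' = k := by
  obtain ⟨k, hk⟩ := Fermat.FLAT.exists_int_ord C.hn (y := z / z') (div_ne_zero h.1 h'.1)
    fun σ hσ => by
      rw [map_div₀, h.2 σ hσ, h'.2 σ hσ, mul_div_mul_left _ _ (num_ne_zero _)]
  refine ⟨k, ?_⟩
  rw [← hk, div_eq_mul_inv, ord_mul C.hn h.1 (inv_ne_zero h'.1), ord_inv C.hn]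
  ring

open Classical in
/-- The order of a Kummer generator modulo `ℤ`. -/
def val (c : Γℚ → V) (T : V) : AddCircle (1 : ℚ) :=
  if h : ∃ z, C.IsGen c T z then (ord C.An C.n h.choose : AddCircle (1 : ℚ)) else 0

/-- `val` is the order of any Kummer generator. -/
lemma val_eq {c : Γℚ → V} {T : V} {z : ℚbar} (hz : C.IsGen c T z) :
    C.val c T = (ord C.An C.n z : AddCircle (1 : ℚ)) := by
  classical
  rw [val, dif_pos ⟨z, hz⟩]
  obtain ⟨k, hk⟩ := IsGen.ord_sub C (⟨z, hz⟩ : ∃ z, C.IsGen c T z).choose_spec hz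
  rw [← sub_eq_zero, ← QuotientAddGroup.mk_sub, hk, AddCircle.coe_eq_zero_iff]
  exact ⟨k, by simp⟩

/-- `val` is additive in the cocycle. -/
lemma val_add_left {c d : Γℚ → V} (hc : c ∈ C.sel) (hd : d ∈ C.sel) (T : V) :
    C.val (c + d) T = C.val c T + C.val d T := by
  obtain ⟨z, hz⟩ := C.exists_isGen hc T
  obtain ⟨w, hw⟩ := C.exists_isGen hd T
  have h : C.IsGen (c + d) T (z * w) := ⟨mul_ne_zero hz.1 hw.1, fun σ hσ => by
    rw [map_mul, hz.2 σ hσ, hw.2 σ hσ, Pi.add_apply, map_add, AddMonoidHom.add_apply, num_add]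
    ring⟩
  rw [C.val_eq h, C.val_eq hz, C.val_eq hw, ← QuotientAddGroup.mk_add, ord_mul C.hn hz.1 hw.1]

/-- `val` is additive in the element. -/
lemma val_add_right {c : Γℚ → V} (hc : c ∈ C.sel) (S T : V) :
    C.val c (S + T) = C.val c S + C.val c T := by
  obtain ⟨z, hz⟩ := C.exists_isGen hc S
  obtain ⟨w, hw⟩ := C.exists_isGen hc T
  have h : C.IsGen c (S + T) (z * w) := ⟨mul_ne_zero hz.1 hw.1, fun σ hσ => by
    rw [map_mul, hz.2 σ hσ, hw.2 σ hσ, map_add, num_add]; ring⟩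
  rw [C.val_eq h, C.val_eq hz, C.val_eq hw, ← QuotientAddGroup.mk_add, ord_mul C.hn hz.1 hw.1]

/-- A cocycle orthogonal to `T` on inertia has valuation zero at `T`. -/
lemma val_eq_zero_of_forall {c : Γℚ → V} {T : V}
    (h : ∀ σ ∈ C.An.inertiaSubgroupIn ℚ, C.e (c σ) T = 0) : C.val c T = 0 := by
  rw [C.val_eq (z := 1) ⟨one_ne_zero, fun σ hσ => by rw [h σ hσ, num_zero, map_one, one_mul]⟩,
    ord_one C.hn]
  rfl

/-- `val`, as a bi-additive map. -/
def valHom : C.sel →+ V →+ AddCircle (1 : ℚ) :=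
  AddMonoidHom.mk'
    (fun c => AddMonoidHom.mk' (C.val c.1) (C.val_add_right c.2))
    fun c d => AddMonoidHom.ext fun T => C.val_add_left c.2 d.2 T

/-- `valHom` is `val`. -/
lemma valHom_apply (c : C.sel) (T : V) : C.valHom c T = C.val c.1 T := rfl

end Ctx

end Fermat.HT.Descent

end
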