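import Mathlib.GroupTheory.QuotientGroup.Finite
import Mathlib.GroupTheory.Index
import Mathlib.Topology.Instances.AddCircle.Defs
import Mathlib.FieldTheory.IsAlgClosed.Basic
import Mathlib.RingTheory.RootsOfUnity.Basic
import Mathlib.Tactic.FieldSimp
import Mathlib.Tactic.Linarith

/-!
# Counting in finite abelian groups with a pairing

Homomorphisms into a group with small torsion, orthogonals, torsion of quotients.
-/

set_option autoImplicit false

noncomputable section

namespace Fermat.HT.Descent

/-- A group with at most `N` elements killed by `N`, for every `N > 0`. -/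
def SmallTorsion (W : Type*) [AddCommGroup W] : Prop :=
  ∀ N : ℕ, 0 < N → {w : W | N • w = 0}.Finite ∧ {w : W | N • w = 0}.ncard ≤ N

variable {W : Type*} [AddCommGroup W]

/-- The units of a field have small torsion. -/
lemma smallTorsion_units (K : Type*) [Field K] : SmallTorsion (Additive Kˣ) := by
  classical
  intro N hN
  let f : Additive Kˣ → K := fun w => ((Additive.toMul w : Kˣ) : K)
  have hsub : f '' {w | N • w = 0} ⊆ ↑(Polynomial.nthRoots N (1 : K)).toFinset := by
    rintro _ ⟨w, hw, rfl⟩
    simp only [Finset.mem_coe, Multiset.mem_toFinset, Polynomial.mem_nthRoots hN]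
    have h := congrArg (fun z : Additive Kˣ => ((Additive.toMul z : Kˣ) : K)) hw
    simpa [f] using h
  have hinj : Function.Injective f := fun a b h =>
    Additive.toMul.injective (Units.ext h)
  have hfin : {w : Additive Kˣ | N • w = 0}.Finite :=
    Set.Finite.of_finite_image ((Finset.finite_toSet _).subset hsub) hinj.injOn
  refine ⟨hfin, ?_⟩
  rw [← Set.ncard_image_of_injective _ hinj]
  refine (Set.ncard_le_ncard hsub (Finset.finite_toSet _)).trans ?_
  rw [Set.ncard_coe_finset]
  exact (Multiset.toFinset_card_le _).trans (Polynomial.card_nthRoots N 1)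

/-- The circle `ℚ / ℤ` has small torsion. -/
lemma smallTorsion_circle : SmallTorsion (AddCircle (1 : ℚ)) := by
  intro N hN
  let f : Fin N → AddCircle (1 : ℚ) := fun i => (((i : ℕ) : ℚ) / N : ℚ)
  have hsub : {w : AddCircle (1 : ℚ) | N • w = 0} ⊆ Set.range f := by
    intro w hw
    induction w using QuotientAddGroup.induction_on with
    | H r =>
      have h : ((N • r : ℚ) : AddCircle (1 : ℚ)) = 0 := hw
      rw [AddCircle.coe_eq_zero_iff] at h
      obtain ⟨k, hk⟩ := h
      rw [zsmul_one, nsmul_eq_mul] at hk
      have hN' : (N : ℤ) ≠ 0 := by exact_mod_cast hN.ne'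
      refine ⟨⟨(k % N).toNat, ?_⟩, ?_⟩
      · have := Int.emod_lt_of_pos k (b := (N : ℤ)) (by exact_mod_cast hN)
        have := Int.emod_nonneg k hN'
        omega
      · change (((((k % N).toNat : ℕ) : ℚ) / N : ℚ) : AddCircle (1 : ℚ)) = (r : AddCircle (1 : ℚ))
        rw [← sub_eq_zero, ← QuotientAddGroup.mk_sub, AddCircle.coe_eq_zero_iff]
        refine ⟨-(k / N), ?_⟩
        have e : ((((k % N).toNat : ℕ) : ℤ) : ℚ) = ((k % N : ℤ) : ℚ) := by
          rw [Int.toNat_of_nonneg (Int.emod_nonneg _ hN')]
        rw [Int.cast_natCast] at e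
        rw [e, Int.emod_def]
        push_cast
        rw [zsmul_one]
        push_cast
        have : (N : ℚ) ≠ 0 := by exact_mod_cast hN.ne'
        field_simp
        linarith
  refine ⟨(Set.finite_range f).subset hsub, ?_⟩
  refine (Set.ncard_le_ncard hsub (Set.finite_range f)).trans ?_
  rw [← Set.image_univ]
  exact (Set.ncard_image_le Set.finite_univ).trans (by simp)

variable {G : Type*} [AddCommGroup G]

/-- There are finitely many homomorphisms from a finite group into one with small torsion. -/
theorem finite_hom [Finite G] (hW : SmallTorsion W) : Finite (G →+ W) := by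
  have : Finite {w : W // Nat.card G • w = 0} := (hW _ Nat.card_pos).1
  exact Finite.of_injective
    (fun f (g : G) => (⟨f g, by rw [← map_nsmul, card_nsmul_eq_zero', map_zero]⟩ :
      {w : W // Nat.card G • w = 0}))
    fun f f' h => AddMonoidHom.ext fun g => congrArg Subtype.val (congrFun h g)

/-- A finite group has at most as many homomorphisms into a group with small torsion as elements. -/
theorem card_hom_le (hW : SmallTorsion W) :
    ∀ (G : Type _) [AddCommGroup G] [Finite G], Nat.card (G →+ W) ≤ Nat.card G := by
  intro G _ _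
  induction hc : Nat.card G using Nat.strong_induction_on generalizing G with
  | h c ih =>
    by_cases ht : ∀ g : G, g = 0
    · have : Subsingleton G := ⟨fun a b => (ht a).trans (ht b).symm⟩
      have : Subsingleton (G →+ W) :=
        ⟨fun f f' => AddMonoidHom.ext fun g => by rw [ht g, map_zero, map_zero]⟩
      rw [← hc, Nat.card_unique, Nat.card_unique]
    push Not at ht
    obtain ⟨g, hg⟩ := ht
    -- restrict to a nontrivial cyclic subgroup `H`
    set H := AddSubgroup.zmultiples g with hH
    have := finite_hom (G := G) hW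
    let r : (G →+ W) →+ (H →+ W) :=
      { toFun := fun f => f.comp H.subtype, map_zero' := rfl, map_add' := fun _ _ => rfl }
    -- the kernel consists of homomorphisms on `G ⧸ H`
    have hker : Nat.card r.ker ≤ Nat.card (G ⧸ H →+ W) := by
      have := finite_hom (G := G ⧸ H) hW
      refine Nat.card_le_card_of_injective (fun f => QuotientAddGroup.lift H f.1 fun x hx => ?_) ?_
      · exact DFunLike.congr_fun (AddMonoidHom.mem_ker.mp f.2) ⟨x, hx⟩
      · intro f f' h
        refine Subtype.ext (AddMonoidHom.ext fun x => ?_)
        exact DFunLike.congr_fun h (x : G ⧸ H)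
    -- a homomorphism on `H` is given by a torsion value
    have hrange : Nat.card r.range ≤ Nat.card H := by
      have := finite_hom (G := H) hW
      refine (Nat.card_le_card_of_injective (Subtype.val : r.range → (H →+ W))
        Subtype.val_injective).trans ?_
      have ho : 0 < addOrderOf g := addOrderOf_pos g
      rw [Nat.card_zmultiples g]
      obtain ⟨hfin, hcard⟩ := hW _ ho
      have := hfin.to_subtype
      refine le_trans (Nat.card_le_card_of_injective
        (fun f : H →+ W => (⟨f ⟨g, AddSubgroup.mem_zmultiples g⟩, ?_⟩ :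
          {w : W | addOrderOf g • w = 0})) ?_) ((Nat.card_coe_set_eq _).trans_le hcard)
      · change _ • _ = 0
        rw [← map_nsmul]
        exact (congrArg f (Subtype.ext (addOrderOf_nsmul_eq_zero g))).trans f.map_zero
      · intro f f' h
        refine AddMonoidHom.ext fun x => ?_
        obtain ⟨k, hk⟩ := AddSubgroup.mem_zmultiples_iff.mp x.2
        have : x = k • (⟨g, AddSubgroup.mem_zmultiples g⟩ : H) := Subtype.ext hk.symm
        have h' : f ⟨g, AddSubgroup.mem_zmultiples g⟩ = f' ⟨g, AddSubgroup.mem_zmultiples g⟩ :=
          congrArg Subtype.val h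
        rw [this, map_zsmul, map_zsmul, h']
    have hlt : Nat.card (G ⧸ H) < c := by
      rw [← hc, AddSubgroup.card_eq_card_quotient_mul_card_addSubgroup H]
      refine lt_mul_of_one_lt_right Nat.card_pos ?_
      rw [Finite.one_lt_card_iff_nontrivial]
      exact ⟨⟨0, ⟨g, AddSubgroup.mem_zmultiples g⟩, fun h => hg (congrArg Subtype.val h).symm⟩⟩
    have h1 := ih _ hlt (G ⧸ H) rfl
    rw [← hc, AddSubgroup.card_eq_card_quotient_mul_card_addSubgroup H,
      AddSubgroup.card_eq_card_quotient_mul_card_addSubgroup r.ker,
      Nat.card_congr (QuotientAddGroup.quotientKerEquivRange r).toEquiv, mul_comm]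
    exact Nat.mul_le_mul (hker.trans h1) hrange

/-! ### Orthogonals -/

variable {U : Type*} [AddCommGroup U] (e : G →+ G →+ U)

/-- Right orthogonal. -/
def perp (H : AddSubgroup G) : AddSubgroup G where
  carrier := {T | ∀ h ∈ H, e h T = 0}
  zero_mem' := fun h _ => map_zero _
  add_mem' := fun ha hb h hh => by rw [map_add, ha h hh, hb h hh, add_zero]
  neg_mem' := fun ha h hh => by rw [map_neg, ha h hh, neg_zero]

/-- Orthogonals of a nondegenerate pairing with small-torsion values have complementary order. -/
theorem card_perp_mul_card [Finite G] (hU : SmallTorsion U)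
    (hl : ∀ x, (∀ y, e x y = 0) → x = 0) (H : AddSubgroup G) :
    Nat.card (perp e H) * Nat.card H = Nat.card G := by
  rw [AddSubgroup.card_eq_card_quotient_mul_card_addSubgroup (perp e H), mul_comm]
  congr 1
  refine le_antisymm ?_ ?_
  · have := finite_hom (G := G ⧸ perp e H) hU
    refine le_trans ?_ (card_hom_le hU (G ⧸ perp e H))
    refine Nat.card_le_card_of_injective
      (fun h => QuotientAddGroup.lift (perp e H) (e h.1) fun T hT => hT h.1 h.2) ?_
    intro a b hab
    refine Subtype.ext (sub_eq_zero.mp (hl _ fun y => ?_))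
    have := DFunLike.congr_fun hab (y : G ⧸ perp e H)
    simp only [QuotientAddGroup.lift_mk] at this
    rw [map_sub, AddMonoidHom.sub_apply, this, sub_self]
  · have := finite_hom (G := H) hU
    refine le_trans ?_ (card_hom_le hU H)
    let ψ : G →+ (H →+ U) :=
      { toFun := fun T => (e.flip T).comp H.subtype
        map_zero' := by ext h; simp
        map_add' := fun a b => by ext h; simp }
    have hker : ψ.ker = perp e H := by
      ext T
      exact ⟨fun h x hx => DFunLike.congr_fun (AddMonoidHom.mem_ker.mp h) ⟨x, hx⟩,
        fun h => AddMonoidHom.mem_ker.mpr (AddMonoidHom.ext fun x => h x.1 x.2)⟩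
    rw [← hker, Nat.card_congr (QuotientAddGroup.quotientKerEquivRange ψ).toEquiv]
    exact Nat.card_le_card_of_injective Subtype.val Subtype.val_injective

/-! ### Torsion of quotients -/

variable (G) in
/-- The `N`-torsion. -/
def tors (N : ℕ) : AddSubgroup G := (nsmulAddMonoidHom (α := G) N).ker

/-- Membership in the `N`-torsion. -/
lemma mem_tors {N : ℕ} {x : G} : x ∈ tors G N ↔ N • x = 0 := Iff.rfl

/-- For a finite group `G / N G` has the order of the `N`-torsion. -/
theorem card_quotient_nsmul [Finite G] (N : ℕ) :
    Nat.card (G ⧸ (nsmulAddMonoidHom (α := G) N).range) = Nat.card (tors G N) := by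
  have h1 := AddSubgroup.card_eq_card_quotient_mul_card_addSubgroup
    (nsmulAddMonoidHom (α := G) N).range
  have h2 := AddSubgroup.card_eq_card_quotient_mul_card_addSubgroup
    (nsmulAddMonoidHom (α := G) N).ker
  rw [Nat.card_congr (QuotientAddGroup.quotientKerEquivRange _).toEquiv] at h2
  rw [h1, mul_comm] at h2
  exact Nat.eq_of_mul_eq_mul_left Nat.card_pos h2

/-- Quotients of a finite group have no more `N`-torsion than it. -/
theorem card_tors_quotient_le [Finite G] (H : AddSubgroup G) (N : ℕ) :
    Nat.card (tors (G ⧸ H) N) ≤ Nat.card (tors G N) := by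
  rw [← card_quotient_nsmul, ← card_quotient_nsmul]
  let f : G →+ (G ⧸ H) ⧸ (nsmulAddMonoidHom (α := G ⧸ H) N).range :=
    (QuotientAddGroup.mk' _).comp (QuotientAddGroup.mk' H)
  have hf : Function.Surjective f :=
    (QuotientAddGroup.mk'_surjective _).comp (QuotientAddGroup.mk'_surjective H)
  refine Nat.card_le_card_of_surjective (QuotientAddGroup.lift _ f ?_) fun y => ?_
  · rintro _ ⟨x, rfl⟩
    refine (QuotientAddGroup.eq_zero_iff _).mpr ⟨(x : G ⧸ H), ?_⟩
    simp [nsmulAddMonoidHom]
  · obtain ⟨x, rfl⟩ := hf y
    exact ⟨(x : G ⧸ _), rfl⟩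

end Fermat.HT.Descent

end
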