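import Fermat.Agent.HT.Descent.Cocycle
import Fermat.Agent.CFT.Density.CycloChar
import Fermat.Agent.EC.Cyclo
import Fermat.Agent.EC.Unramified
import Mathlib.Data.Nat.Factorization.Basic

/-!
# Dévissage: pairs of a cocycle and a trivialisation at `p`

For a Galois module all whose pieces are `ℤ/n` or `μ_n` the pairs `(c, b)` with `c` of valuation
zero at `n` and `c σ = σ b - b` on inertia at `p` number at most `|V| · |V₀|`.
-/

set_option autoImplicit false

noncomputable section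

open Fermat.CFT Fermat.EC.Val
open scoped Pointwise

namespace Fermat.HT.Descent

local notation "ℚbar" => AlgebraicClosure ℚ
local notation "Γℚ" => (AlgebraicClosure ℚ ≃ₐ[ℚ] AlgebraicClosure ℚ)

/-- The exponent of the cyclotomic character. -/
def cexp (n : ℕ) [Fact n.Prime] (σ : Γℚ) : ℕ := ((cycChar n σ : (ZMod n)ˣ) : ZMod n).val

/-! ### Rationals whose valuations are all divisible by `n` -/

/-- A natural number with all valuations divisible by `n` is an `n`-th power. -/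
lemma nat_eq_pow {n a : ℕ} (ha : a ≠ 0) (h : ∀ ℓ : ℕ, ℓ.Prime → n ∣ padicValNat ℓ a) :
    ∃ b : ℕ, a = b ^ n := by
  refine ⟨a.factorization.prod fun ℓ k => ℓ ^ (k / n), ?_⟩
  conv_lhs => rw [← Nat.prod_factorization_pow_eq_self ha]
  rw [Finsupp.prod, Finsupp.prod, ← Finset.prod_pow]
  refine Finset.prod_congr rfl fun ℓ hℓ => ?_
  have hp : ℓ.Prime := Nat.prime_of_mem_primeFactors (by simpa using hℓ)
  rw [← pow_mul, Nat.factorization_def a hp, Nat.div_mul_cancel (h ℓ hp)]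

/-- A rational with all valuations divisible by `n` is up to sign an `n`-th power. -/
lemma rat_eq_pow {n : ℕ} (hn : n ≠ 0) {a : ℚ} (ha : a ≠ 0)
    (h : ∀ ℓ : ℕ, ℓ.Prime → (n : ℤ) ∣ padicValRat ℓ a) :
    ∃ b : ℚ, b ≠ 0 ∧ (a = b ^ n ∨ a = -b ^ n) := by
  have hnum : a.num.natAbs ≠ 0 := Int.natAbs_ne_zero.mpr (Rat.num_ne_zero.mpr ha)
  have key : ∀ ℓ : ℕ, ℓ.Prime → n ∣ padicValNat ℓ a.num.natAbs ∧ n ∣ padicValNat ℓ a.den := by
    intro ℓ hℓ
    have := Fact.mk hℓ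
    have h1 := h ℓ hℓ
    rw [padicValRat, padicValInt] at h1
    by_cases hd : ℓ ∣ a.num.natAbs
    · have : padicValNat ℓ a.den = 0 := padicValNat.eq_zero_of_not_dvd fun hd' =>
        hℓ.ne_one (Nat.eq_one_of_dvd_coprimes a.reduced hd hd')
      rw [this, Nat.cast_zero, sub_zero] at h1
      exact ⟨by exact_mod_cast h1, this ▸ dvd_zero n⟩
    · have : padicValNat ℓ a.num.natAbs = 0 := padicValNat.eq_zero_of_not_dvd hd
      rw [this, Nat.cast_zero, zero_sub, dvd_neg] at h1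
      exact ⟨this ▸ dvd_zero n, by exact_mod_cast h1⟩
  obtain ⟨u, hu⟩ := nat_eq_pow hnum fun ℓ hℓ => (key ℓ hℓ).1
  obtain ⟨w, hw⟩ := nat_eq_pow a.den_nz fun ℓ hℓ => (key ℓ hℓ).2
  have habs : |a| = ((u : ℚ) / w) ^ n := by
    rw [div_pow, ← Nat.cast_pow, ← Nat.cast_pow, ← hu, ← hw]
    conv_lhs => rw [← Rat.num_div_den a]
    rw [abs_div, Nat.abs_cast, Nat.cast_natAbs, Int.cast_abs]
  refine ⟨(u : ℚ) / w, fun h0 => ?_, ?_⟩
  · rw [h0, zero_pow hn] at habs
    exact ha (abs_eq_zero.mp habs)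
  · rcases abs_choice a with hp | hp
    · exact Or.inl (by rw [← habs, hp])
    · exact Or.inr (by rw [← habs, hp, neg_neg])

/-! ### Counting in abelian groups -/

/-- `A ⊔ ℤ b` consists of the classes `k • b`, `k < n`, modulo `A` if `n • b ∈ A`. -/
lemma exists_nsmul_sub_mem {G : Type*} [AddCommGroup G] {A : AddSubgroup G} {b : G} {n : ℕ}
    (hn : n ≠ 0) (hnb : n • b ∈ A) {x : G} (hx : x ∈ A ⊔ AddSubgroup.zmultiples b) :
    ∃ k : ℕ, k < n ∧ x - k • b ∈ A := by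
  obtain ⟨a, ha, y, hy, rfl⟩ := AddSubgroup.mem_sup.mp hx
  obtain ⟨k, rfl⟩ := AddSubgroup.mem_zmultiples_iff.mp hy
  have hn' : (n : ℤ) ≠ 0 := by exact_mod_cast hn
  refine ⟨(k % n).toNat, ?_, ?_⟩
  · have := Int.emod_lt_of_pos k (b := (n : ℤ)) (by exact_mod_cast Nat.pos_of_ne_zero hn)
    have := Int.emod_nonneg k hn'
    omega
  rw [← natCast_zsmul, Int.toNat_of_nonneg (Int.emod_nonneg _ hn'), add_sub_assoc, ← sub_smul,
    show k - k % (n : ℤ) = (k / n) * (n : ℤ) by rw [Int.emod_def]; ring, mul_zsmul, natCast_zsmul]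
  exact add_mem ha (zsmul_mem hnb _)

/-- Adjoining `b ∉ A` with `n • b ∈ A`, `n` prime, multiplies the order by `n`. -/
lemma card_sup_zmultiples {G : Type*} [AddCommGroup G] {A : AddSubgroup G} {b : G} {n : ℕ}
    [Fact n.Prime] (hb : b ∉ A) (hnb : n • b ∈ A) :
    Nat.card (A ⊔ AddSubgroup.zmultiples b : AddSubgroup G) = n * Nat.card A := by
  set A' := A ⊔ AddSubgroup.zmultiples b
  have hbA' : b ∈ A' := le_sup_right (a := A) (AddSubgroup.mem_zmultiples b)
  rw [AddSubgroup.card_eq_card_quotient_mul_card_addSubgroup (A.addSubgroupOf A'),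
    Nat.card_congr (AddSubgroup.addSubgroupOfEquivOfLe (le_sup_left : A ≤ A')).toEquiv]
  congr 1
  have hgen : ∀ q : A' ⧸ A.addSubgroupOf A',
      q ∈ AddSubgroup.zmultiples ((⟨b, hbA'⟩ : A') : A' ⧸ A.addSubgroupOf A') := by
    intro q
    induction q using QuotientAddGroup.induction_on with
    | H x =>
      obtain ⟨k, -, hk⟩ := exists_nsmul_sub_mem (Fact.out : n.Prime).ne_zero hnb x.2
      refine ⟨k, ?_⟩
      change (k : ℤ) • _ = _
      rw [natCast_zsmul, ← QuotientAddGroup.mk_nsmul, QuotientAddGroup.eq,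
        AddSubgroup.mem_addSubgroupOf]
      simpa [sub_eq_neg_add] using hk
  have htop : AddSubgroup.zmultiples ((⟨b, hbA'⟩ : A') : A' ⧸ A.addSubgroupOf A') = ⊤ :=
    eq_top_iff.mpr fun q _ => hgen q
  rw [← AddSubgroup.card_top (G := A' ⧸ A.addSubgroupOf A'), ← htop, Nat.card_zmultiples,
    addOrderOf_eq_prime_iff]
  refine ⟨?_, fun h => hb ?_⟩
  · rw [← QuotientAddGroup.mk_nsmul, QuotientAddGroup.eq_zero_iff, AddSubgroup.mem_addSubgroupOf]
    exact hnb
  · rwa [QuotientAddGroup.eq_zero_iff, AddSubgroup.mem_addSubgroupOf] at h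

/-- `Q` is bounded by `P` times the values of a map with fibres in cosets of `P`. -/
lemma finite_card_le_mul_of_sub_mem {G : Type*} [AddCommGroup G] {P Q : AddSubgroup G} [Finite P]
    {Y : Type*} [Fintype Y] (f : Q → Y) (hf : ∀ x y, f x = f y → x.1 - y.1 ∈ P) :
    Finite Q ∧ Nat.card Q ≤ Nat.card P * Fintype.card Y := by
  set g : Q → P × Set.range f := fun x =>
    (⟨x.1 - (Set.rangeSplitting f ⟨f x, x, rfl⟩).1,
      hf _ _ (Set.apply_rangeSplitting f ⟨f x, x, rfl⟩).symm⟩, ⟨f x, x, rfl⟩)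
  have hg : Function.Injective g := fun x y h => by
    have h1 := congrArg (fun z => (z.1.1 : G)) h
    have h2 := congrArg Prod.snd h
    simp only [g] at h1 h2
    rw [h2] at h1
    exact Subtype.ext (sub_left_inj.mp h1)
  refine ⟨Finite.of_injective g hg, ?_⟩
  refine (Nat.card_le_card_of_injective g hg).trans ?_
  rw [Nat.card_prod, ← Nat.card_eq_fintype_card]
  exact Nat.mul_le_mul_left _ (Nat.card_le_card_of_injective Subtype.val Subtype.val_injective)

/-- A subgroup with an element of order `n` modulo a smaller one is at least `n` times as large. -/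
lemma mul_card_inf_le {G : Type*} [AddCommGroup G] [Finite G] {A A' W : AddSubgroup G}
    (hle : A ≤ A') {n : ℕ} [Fact n.Prime] {a : G} (ha : a ∈ A' ⊓ W) (hna : n • a ∈ A)
    (haA : a ∉ A) :
    n * Nat.card (A ⊓ W : AddSubgroup G) ≤ Nat.card (A' ⊓ W : AddSubgroup G) := by
  set B := (A ⊓ W).addSubgroupOf (A' ⊓ W) with hB
  rw [AddSubgroup.card_eq_card_quotient_mul_card_addSubgroup B,
    Nat.card_congr (AddSubgroup.addSubgroupOfEquivOfLe (inf_le_inf_right _ hle)).toEquiv]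
  refine Nat.mul_le_mul_right _ ?_
  set q : (A' ⊓ W : AddSubgroup G) ⧸ B := QuotientAddGroup.mk (⟨a, ha⟩ : (A' ⊓ W : AddSubgroup G))
  have hq : addOrderOf q = n := by
    rw [addOrderOf_eq_prime_iff]
    refine ⟨?_, fun h => haA ?_⟩
    · rw [← QuotientAddGroup.mk_nsmul, QuotientAddGroup.eq_zero_iff, hB,
        AddSubgroup.mem_addSubgroupOf]
      exact ⟨hna, nsmul_mem ha.2 _⟩
    · rw [QuotientAddGroup.eq_zero_iff, hB, AddSubgroup.mem_addSubgroupOf] at h
      exact h.1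
  rw [← hq]
  exact Nat.le_of_dvd Nat.card_pos (addOrderOf_dvd_natCard q)

/-! ### Kummer characters of roots of `± 1` -/

/-- At most `n` Kummer characters `σ u / u` belong to the `u` with `u ^ n = ± 1`. -/
lemma exists_kummer_chars {n : ℕ} (hn : n ≠ 0) :
    ∃ S : Finset (Γℚ → ℚbar), S.card ≤ n ∧
      ∀ u : ℚbar, u ^ n = 1 ∨ u ^ n = -1 → (fun σ => σ u / u) ∈ S := by
  classical
  set R : Finset ℚbar := (Polynomial.nthRoots n (1 : ℚbar)).toFinset ∪
    (Polynomial.nthRoots n (-1 : ℚbar)).toFinset with hR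
  let F : ℚbar → Γℚ → ℚbar := fun u σ => σ u / u
  have hmem : ∀ u, u ∈ R ↔ u ^ n = 1 ∨ u ^ n = -1 := fun u => by
    simp only [hR, Finset.mem_union, Multiset.mem_toFinset,
      Polynomial.mem_nthRoots (Nat.pos_of_ne_zero hn)]
  refine ⟨R.image F, ?_, fun u hu => Finset.mem_image_of_mem F ((hmem u).mpr hu)⟩
  -- There are at most `2 n` such `u`, and `u`, `-u` give the same character.
  have hRcard : R.card ≤ 2 * n := by
    refine (Finset.card_union_le _ _).trans ?_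
    rw [two_mul]
    exact add_le_add ((Multiset.toFinset_card_le _).trans (Polynomial.card_nthRoots _ _))
      ((Multiset.toFinset_card_le _).trans (Polynomial.card_nthRoots _ _))
  have := Finset.mul_card_image_le_card (f := F) R 2 ?_
  · omega
  intro y hy
  obtain ⟨v, hv, rfl⟩ := Finset.mem_image.mp hy
  have hv' := (hmem v).mp hv
  have hv0 : v ≠ 0 := by
    rintro rfl
    rw [zero_pow hn] at hv'
    rcases hv' with h | h <;> simp at h
  have hvn : -v ∈ R := by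
    rw [hmem]
    rcases Nat.even_or_odd n with he | ho
    · rw [he.neg_pow]; exact hv'
    · rw [ho.neg_pow]
      rcases hv' with h | h
      · exact Or.inr (by rw [h])
      · exact Or.inl (by rw [h, neg_neg])
  -- Each fibre has at least the two elements `v` and `-v`.
  have hsub : ({v, -v} : Finset ℚbar) ⊆ {x ∈ R | F x = F v} := by
    intro w hw
    rw [Finset.mem_insert, Finset.mem_singleton] at hw
    rw [Finset.mem_filter]
    rcases hw with rfl | rfl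
    · exact ⟨hv, rfl⟩
    · exact ⟨hvn, funext fun σ => by
        change σ (-v) / -v = σ v / v
        rw [map_neg, neg_div_neg_eq]⟩
  refine le_trans ?_ (Finset.card_le_card hsub)
  rw [Finset.card_pair fun h => hv0 (CharZero.eq_neg_self_iff.mp h)]

/-! ### Pairs -/

variable {V : Type*} [AddCommGroup V] [DistribMulAction Γℚ V]

namespace Ctx

/-- Cocycles vanish at `1`. -/
lemma sel_one {C : Ctx V} {c : Γℚ → V} (hc : c ∈ C.sel) : c 1 = 0 := by
  have h1 := sel_mul hc 1 1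
  rwa [one_mul, one_smul, right_eq_add] at h1

variable (C : Ctx V)

/-- Pairs `(c, b)` inside the subgroup `A`. -/
def pairs (A : AddSubgroup V) : AddSubgroup ((Γℚ → V) × V) where
  carrier := {x | ∃ hc : x.1 ∈ C.sel, C.valHom ⟨x.1, hc⟩ = 0 ∧
    (∀ σ ∈ C.Ap.inertiaSubgroupIn ℚ, x.1 σ = σ • x.2 - x.2) ∧ (∀ σ, x.1 σ ∈ A) ∧ x.2 ∈ A}
  zero_mem' := ⟨zero_mem _, map_zero C.valHom, fun σ _ => by simp, fun _ => zero_mem _, zero_mem _⟩
  add_mem' := by
    rintro x y ⟨hx, hx0, hxp, hxA, hxb⟩ ⟨hy, hy0, hyp, hyA, hyb⟩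
    refine ⟨add_mem hx hy, ?_, fun σ hσ => ?_, fun σ => add_mem (hxA σ) (hyA σ), add_mem hxb hyb⟩
    · change C.valHom ((⟨x.1, hx⟩ : C.sel) + ⟨y.1, hy⟩) = 0
      rw [map_add, hx0, hy0, add_zero]
    · simp only [Prod.fst_add, Prod.snd_add, Pi.add_apply, hxp σ hσ, hyp σ hσ, smul_add]; abel
  neg_mem' := by
    rintro x ⟨hx, hx0, hxp, hxA, hxb⟩
    refine ⟨neg_mem hx, ?_, fun σ hσ => ?_, fun σ => neg_mem (hxA σ), neg_mem hxb⟩
    · change C.valHom (-(⟨x.1, hx⟩ : C.sel)) = 0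
      rw [map_neg, hx0, neg_zero]
    · simp only [Prod.fst_neg, Prod.snd_neg, Pi.neg_apply, hxp σ hσ, smul_neg]; abel

/-- There is only the zero pair in the zero subgroup. -/
lemma pairs_bot : C.pairs ⊥ = ⊥ := by
  rw [eq_bot_iff]
  rintro x ⟨-, -, -, hA, hb⟩
  rw [AddSubgroup.mem_bot] at hb ⊢
  exact Prod.ext (funext fun σ => by simpa using hA σ) hb

/-- Pieces are `ℤ/n` or `μ_n`. -/
def Residual [Fact C.n.Prime] : Prop :=
  ∀ A : AddSubgroup V, (∀ σ : Γℚ, ∀ a ∈ A, σ • a ∈ A) → A ≠ ⊤ →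
    ∃ b ∉ A, C.n • b ∈ A ∧
      ((∀ σ : Γℚ, σ • b - b ∈ A) ∨ ∀ σ : Γℚ, σ • b - cexp C.n σ • b ∈ A)

section Piece

variable [Fact C.n.Prime] {A : AddSubgroup V} {b T : V}

/-- The cyclotomic exponent is not zero. -/
lemma cexp_ne_zero (σ : Γℚ) : cexp C.n σ ≠ 0 := fun he => by
  rw [cexp, ZMod.val_eq_zero] at he; exact Units.ne_zero _ he

/-- For `n = 2` the cyclotomic exponent is one. -/
lemma cexp_eq_one_of_two (h2 : C.n = 2) (σ : Γℚ) : cexp C.n σ = 1 := by
  have := ZMod.val_lt ((cycChar C.n σ : (ZMod C.n)ˣ) : ZMod C.n)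
  have hne := C.cexp_ne_zero σ
  rw [cexp] at hne ⊢
  omega

/-- A Galois stable `A` stays stable after adjoining a piece. -/
lemma smul_mem_sup (hA : ∀ σ : Γℚ, ∀ a ∈ A, σ • a ∈ A)
    (hact : (∀ σ : Γℚ, σ • b - b ∈ A) ∨ ∀ σ : Γℚ, σ • b - cexp C.n σ • b ∈ A) :
    ∀ σ : Γℚ, ∀ a ∈ A ⊔ AddSubgroup.zmultiples b, σ • a ∈ A ⊔ AddSubgroup.zmultiples b := by
  intro τ v hv
  obtain ⟨a, ha, y, hy, rfl⟩ := AddSubgroup.mem_sup.mp hv
  obtain ⟨k, rfl⟩ := AddSubgroup.mem_zmultiples_iff.mp hy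
  rw [smul_add, smul_comm τ k b]
  refine add_mem (le_sup_left (b := AddSubgroup.zmultiples b) (hA τ a ha)) (zsmul_mem ?_ k)
  rcases hact with h | h
  · have := add_mem (le_sup_left (b := AddSubgroup.zmultiples b) (h τ))
      (le_sup_right (a := A) (AddSubgroup.mem_zmultiples b))
    rwa [sub_add_cancel] at this
  · have := add_mem (le_sup_left (b := AddSubgroup.zmultiples b) (h τ))
      (le_sup_right (a := A) (nsmul_mem (AddSubgroup.mem_zmultiples b) (cexp C.n τ)))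
    rwa [sub_add_cancel] at this

omit [Fact C.n.Prime] in
/-- If `σ` multiplies `b` by `m` modulo `A`, so it does the multiples of `b`. -/
lemma smul_sub_nsmul_mem (hA : ∀ σ : Γℚ, ∀ a ∈ A, σ • a ∈ A) {σ : Γℚ} {m k : ℕ} {z : V}
    (hσ : σ • b - m • b ∈ A) (hk : z - k • b ∈ A) : σ • z - k • (m • b) ∈ A := by
  have e : σ • z - k • (m • b) = σ • (z - k • b) + k • (σ • b - m • b) := by
    rw [smul_sub σ z, smul_comm σ k b, smul_sub k]; abel
  rw [e]
  exact add_mem (hA σ _ hk) (nsmul_mem hσ _)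

omit [Fact C.n.Prime] in
/-- If `σ` fixes `b` modulo `A`, it fixes the multiples of `b` modulo `A`. -/
lemma smul_sub_self_mem (hA : ∀ σ : Γℚ, ∀ a ∈ A, σ • a ∈ A) {σ : Γℚ} {k : ℕ} {z : V}
    (hσ : σ • b - b ∈ A) (hk : z - k • b ∈ A) : σ • z - z ∈ A := by
  have h1 : σ • b - (1 : ℕ) • b ∈ A := by rwa [one_smul]
  have h2 := sub_mem (smul_sub_nsmul_mem hA h1 hk) hk
  rwa [one_smul, sub_sub_sub_cancel_right] at h2

/-- An element acting on `b ∉ A` both trivially and cyclotomically has trivial cyclotomic value. -/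
lemma cycChar_eq_one_of_smul_sub_mem (hb : b ∉ A) (hnb : C.n • b ∈ A) {σ : Γℚ}
    (h1 : σ • b - b ∈ A) (h : σ • b - cexp C.n σ • b ∈ A) : cycChar C.n σ = 1 := by
  have h2 := sub_mem h1 h
  rw [sub_sub_sub_cancel_left] at h2
  by_contra hne
  have hne1 : cexp C.n σ ≠ 1 := fun he => hne (Units.ext (ZMod.val_injective _ (by
    rw [Units.val_one, ZMod.val_one]; exact he)))
  have hlt : cexp C.n σ < C.n := ZMod.val_lt _
  have hpos := C.cexp_ne_zero σ
  have hk : (cexp C.n σ - 1) • b ∈ A := by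
    rwa [sub_nsmul b (by omega : 1 ≤ cexp C.n σ), one_smul, ← sub_eq_add_neg]
  refine hb ?_
  have hcop : (cexp C.n σ - 1).Coprime C.n :=
    ((C.hn.1.coprime_iff_not_dvd).mpr fun hd =>
      absurd (Nat.le_of_dvd (by omega) hd) (by omega)).symm
  obtain ⟨u, w, huw⟩ := (Int.isCoprime_iff_gcd_eq_one.mpr
    (by simpa [Int.gcd_natCast_natCast] using hcop) :
      IsCoprime ((cexp C.n σ - 1 : ℕ) : ℤ) (C.n : ℤ))
  rw [← one_zsmul b, ← huw, add_zsmul, mul_zsmul, mul_zsmul, natCast_zsmul, natCast_zsmul]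
  exact add_mem (zsmul_mem hk _) (zsmul_mem hnb _)

omit [Fact C.n.Prime] in
/-- If `A ⊔ ℤ b` is fixed modulo `A` and meets `V₀` in `A`, cocycles of pairs with trivialisation
in `A` take values in `A`: modulo `A` they are unramified everywhere. -/
lemma mem_of_everywhere_unramified (hA : ∀ σ : Γℚ, ∀ a ∈ A, σ • a ∈ A)
    (htriv : ∀ σ : Γℚ, ∀ z ∈ A ⊔ AddSubgroup.zmultiples b, σ • z - z ∈ A)
    (htype : (A ⊔ AddSubgroup.zmultiples b) ⊓ C.V0 ≤ A) {x : (Γℚ → V) × V}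
    (hx : x ∈ C.pairs (A ⊔ AddSubgroup.zmultiples b)) (hx2 : x.2 ∈ A) (σ : Γℚ) : x.1 σ ∈ A := by
  obtain ⟨hc, -, hp, hcA, -⟩ := hx
  set c := x.1
  -- Modulo `A` the cocycle is a continuous homomorphism.
  let ρ : Γℚ →* Multiplicative (V ⧸ A) :=
    { toFun := fun σ => Multiplicative.ofAdd ((c σ : V) : V ⧸ A)
      map_one' := by
        change Multiplicative.ofAdd ((c 1 : V) : V ⧸ A) = 1
        rw [show c 1 = 0 from sel_one hc]
        rfl
      map_mul' := fun σ τ => by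
        show Multiplicative.ofAdd _ = _
        rw [sel_mul hc, ← ofAdd_add, ← QuotientAddGroup.mk_add]
        congr 1
        rw [QuotientAddGroup.eq]
        have := htriv σ _ (hcA τ)
        convert neg_mem this using 1
        abel }
  have hopen : IsOpen (ρ.ker : Set Γℚ) := by
    obtain ⟨L, hL, hlev⟩ := sel_level hc
    have := hL
    refine Subgroup.isOpen_mono ?_ (IntermediateField.fixingSubgroup_isOpen L)
    intro τ hτ
    have h1 := hlev 1 τ hτ
    rw [one_mul] at h1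
    rw [MonoidHom.mem_ker, ← map_one ρ]
    change Multiplicative.ofAdd _ = Multiplicative.ofAdd _
    rw [h1]
  -- It kills an inertia group at every prime, hence is trivial.
  have hone := Fermat.EC.Galois.eq_one_of_forall_inertia ρ hopen (fun ℓ hℓ => ?_) σ
  · exact (QuotientAddGroup.eq_zero_iff (c σ)).mp (Multiplicative.ofAdd.injective hone)
  -- At `n` this is the condition on `V₀`, at `p` it follows from the trivialisation.
  · by_cases hℓn : ℓ = C.n
    · refine ⟨C.An, hℓn ▸ C.hn.2, fun τ hτ => congrArg Multiplicative.ofAdd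
        ((QuotientAddGroup.eq_zero_iff _).mpr (htype ⟨hcA τ, sel_mem hc hτ⟩))⟩
    by_cases hℓp : ℓ = C.p
    · refine ⟨C.Ap, hℓp ▸ C.hp.2, fun τ hτ => congrArg Multiplicative.ofAdd
        ((QuotientAddGroup.eq_zero_iff _).mpr ?_)⟩
      show c τ ∈ A
      rw [hp τ hτ]
      exact sub_mem (hA τ _ hx2) hx2
    · obtain ⟨B, hB⟩ := Fermat.CFT.exists_place hℓ
      exact ⟨B, hB, fun τ hτ => congrArg Multiplicative.ofAdd
        ((QuotientAddGroup.eq_zero_iff _).mpr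
          (by rw [sel_unram hc hℓ hℓn hℓp hB hτ]; exact zero_mem _))⟩

omit [Fact C.n.Prime] in
/-- Pairing with `T ⊥ A` only sees the class modulo `A`. -/
lemma e_eq_nsmul (hT : ∀ a ∈ A, C.e a T = 0) {x : V} {k : ℕ} (hk : x - k • b ∈ A) :
    C.e x T = k • C.e b T := by
  have := hT _ hk
  rwa [map_sub, AddMonoidHom.sub_apply, sub_eq_zero, map_nsmul, AddMonoidHom.nsmul_apply] at this

omit [Fact C.n.Prime] in
/-- The pairing of `b` with `T ⊥ A` is killed by `n`. -/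
lemma nsmul_e_eq_zero (hnb : C.n • b ∈ A) (hT : ∀ a ∈ A, C.e a T = 0) : C.n • C.e b T = 0 := by
  rw [← AddMonoidHom.nsmul_apply, ← map_nsmul, hT _ hnb]

/-- The pairing of `b` with `T ⊥ A` is a primitive root of unity, unless zero. -/
lemma isPrimitiveRoot_num (hnb : C.n • b ∈ A) (hT : ∀ a ∈ A, C.e a T = 0) (h0 : C.e b T ≠ 0) :
    IsPrimitiveRoot (num (C.e b T)) C.n := by
  rw [IsPrimitiveRoot.iff_orderOf, orderOf_eq_prime_iff]
  refine ⟨by rw [← num_nsmul, C.nsmul_e_eq_zero hnb hT, num_zero], fun h => h0 (num_injective ?_)⟩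
  rw [num_zero]
  exact h

omit [Fact C.n.Prime] in
/-- Pairing with `T` separates `A ⊔ ℤ b` modulo `A`. -/
lemma mem_of_e_eq_zero (hnb : C.n • b ∈ A) (hT : ∀ a ∈ A, C.e a T = 0)
    (hprim : IsPrimitiveRoot (num (C.e b T)) C.n) {z : V}
    (hz : z ∈ A ⊔ AddSubgroup.zmultiples b) (h0 : C.e z T = 0) : z ∈ A := by
  obtain ⟨k, hk', hk⟩ := exists_nsmul_sub_mem C.hn.1.ne_zero hnb hz
  have : k = 0 := by
    by_contra hk0
    refine hprim.pow_ne_one_of_pos_of_lt hk0 hk' ?_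
    rw [← num_nsmul, ← C.e_eq_nsmul hT hk, h0, num_zero]
  rwa [this, zero_smul, sub_zero] at hk

/-- On a multiplicative piece pairing with `T` commutes with Galois. -/
lemma num_e_smul (hA : ∀ σ : Γℚ, ∀ a ∈ A, σ • a ∈ A) (hnb : C.n • b ∈ A)
    (hω : ∀ σ : Γℚ, σ • b - cexp C.n σ • b ∈ A) (hT : ∀ a ∈ A, C.e a T = 0)
    (σ : Γℚ) {z : V} (hz : z ∈ A ⊔ AddSubgroup.zmultiples b) :
    num (C.e (σ • z) T) = σ (num (C.e z T)) := by
  have : NeZero C.n := ⟨C.hn.1.ne_zero⟩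
  obtain ⟨k, -, hk⟩ := exists_nsmul_sub_mem C.hn.1.ne_zero hnb hz
  have h2 := smul_sub_nsmul_mem hA (hω σ) hk
  rw [← mul_nsmul'] at h2
  rw [C.e_eq_nsmul hT hk, C.e_eq_nsmul hT h2, num_nsmul, num_nsmul, map_pow,
    apply_eq_pow_cycChar σ
      (show num (C.e b T) ^ C.n = 1 by rw [← num_nsmul, C.nsmul_e_eq_zero hnb hT, num_zero]),
    ← pow_mul, mul_comm]
  rfl

/-- A Kummer radical of a pair of a multiplicative piece has all valuations divisible by `n`. -/
lemma dvd_padicValRat_radical (hA : ∀ σ : Γℚ, ∀ a ∈ A, σ • a ∈ A) (hnb : C.n • b ∈ A)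
    (hω : ∀ σ : Γℚ, σ • b - cexp C.n σ • b ∈ A) (hT : ∀ a ∈ A, C.e a T = 0) {x : (Γℚ → V) × V}
    (hx : x ∈ C.pairs (A ⊔ AddSubgroup.zmultiples b)) {z : ℚbar} (hz0 : z ≠ 0)
    (hz : ∀ σ : Γℚ, σ z = num (C.e (x.1 σ) T) * z) {q : ℚ} (hq : z ^ C.n = q) (hq0 : q ≠ 0)
    {ℓ : ℕ} (hℓ : ℓ.Prime) : (C.n : ℤ) ∣ padicValRat ℓ q := by
  obtain ⟨hc, h0, hp, -, hb'⟩ := hx
  obtain ⟨B, hB, hBz⟩ : ∃ B : ValuationSubring ℚbar, B.LiesOverPrime ℓ ∧
      ∃ k : ℤ, ord B ℓ z = k := by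
    by_cases hℓn : ℓ = C.n
    · refine ⟨C.An, hℓn ▸ C.hn.2, ?_⟩
      have h2 := DFunLike.congr_fun h0 T
      rw [valHom_apply, C.val_eq (z := z) ⟨hz0, fun σ _ => hz σ⟩,
        AddMonoidHom.zero_apply, AddCircle.coe_eq_zero_iff] at h2
      obtain ⟨k, hk⟩ := h2
      rw [zsmul_one] at hk
      exact ⟨k, by rw [hℓn]; exact hk.symm⟩
    by_cases hℓp : ℓ = C.p
    · refine ⟨C.Ap, hℓp ▸ C.hp.2, ?_⟩
      subst hℓp
      refine Fermat.FLAT.exists_int_ord C.hp hz0 fun σ hσ => ?_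
      rw [hz σ, hp σ hσ, map_sub, AddMonoidHom.sub_apply]
      obtain ⟨k, -, hk⟩ := exists_nsmul_sub_mem C.hn.1.ne_zero hnb hb'
      have h3 := hω σ
      rw [cexp, cycChar_eq_one_of_mem_inertia C.hp.1 C.hpn C.hp.2 hσ, Units.val_one, ZMod.val_one,
        one_smul] at h3
      have h4 := hT _ (smul_sub_self_mem hA h3 hk)
      rw [map_sub, AddMonoidHom.sub_apply] at h4
      rw [h4, num_zero, one_mul]
    · obtain ⟨B, hB⟩ := Fermat.CFT.exists_place hℓ
      refine ⟨B, hB, Fermat.FLAT.exists_int_ord ⟨hℓ, hB⟩ hz0 fun σ hσ => ?_⟩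
      rw [hz σ, sel_unram hc hℓ hℓn hℓp hB hσ, map_zero, AddMonoidHom.zero_apply,
        num_zero, one_mul]
  obtain ⟨k, hk⟩ := hBz
  refine ⟨k, ?_⟩
  have h1 := ord_pow (q := ℓ) ⟨hℓ, hB⟩ z C.n
  rw [hk, hq, ord_ratCast ⟨hℓ, hB⟩ hq0] at h1
  exact_mod_cast h1

/-- The cocycle of a pair of a multiplicative piece is, paired with `T`, the Kummer character of
an `n`-th root of `± 1`. -/
lemma exists_root_kummer (hA : ∀ σ : Γℚ, ∀ a ∈ A, σ • a ∈ A) (hnb : C.n • b ∈ A)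
    (hω : ∀ σ : Γℚ, σ • b - cexp C.n σ • b ∈ A) (hT : ∀ a ∈ A, C.e a T = 0) {x : (Γℚ → V) × V}
    (hx : x ∈ C.pairs (A ⊔ AddSubgroup.zmultiples b)) :
    ∃ u : ℚbar, (u ^ C.n = 1 ∨ u ^ C.n = -1) ∧ ∀ σ : Γℚ, σ u / u = num (C.e (x.1 σ) T) := by
  obtain ⟨hc, -, -, hcA, -⟩ := id hx
  set c := x.1
  obtain ⟨z, hz0, hz⟩ := exists_kummer ⊤ (fun σ => num (C.e (c σ) T))
    ((sel_level hc).map₂ (sel_level hc) fun y _ => num (C.e y T)) (fun σ => num_ne_zero _)
    fun σ _ τ _ => by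
      rw [sel_mul hc, map_add, AddMonoidHom.add_apply, num_add,
        C.num_e_smul hA hnb hω hT σ (hcA τ)]
  have hzn : ∀ σ : Γℚ, σ (z ^ C.n) = z ^ C.n := fun σ => by
    obtain ⟨k, -, hk⟩ := exists_nsmul_sub_mem C.hn.1.ne_zero hnb (hcA σ)
    rw [map_pow, hz σ trivial, mul_pow, ← num_nsmul, C.e_eq_nsmul hT hk, smul_comm,
      C.nsmul_e_eq_zero hnb hT, smul_zero, num_zero, one_mul]
  obtain ⟨q, hq⟩ := Fermat.EC.exists_rat_of_fixed hzn
  have hq0 : q ≠ 0 := fun h => pow_ne_zero C.n hz0 (by rw [← hq, h, Rat.cast_zero])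
  obtain ⟨w, hw0, hw⟩ := rat_eq_pow C.hn.1.ne_zero hq0 fun ℓ hℓ =>
    C.dvd_padicValRat_radical hA hnb hω hT hx hz0 (fun σ => hz σ trivial) hq.symm hq0 hℓ
  have hw' : (w : ℚbar) ≠ 0 := by exact_mod_cast hw0
  refine ⟨z / (w : ℚbar), ?_, fun σ => ?_⟩
  · rw [div_pow, ← hq]
    rcases hw with hw | hw
    · exact Or.inl (by rw [hw]; push_cast; exact div_self (pow_ne_zero _ hw'))
    · refine Or.inr (by rw [hw]; push_cast; rw [neg_div, div_self (pow_ne_zero _ hw')])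
  · rw [map_div₀, map_ratCast, hz σ trivial]
    field_simp

omit [Fact C.n.Prime] in
/-- Pairs of `A ⊔ ℤ b` are counted by those of `A`, the class of the trivialisation and a map
controlling the cocycle. -/
lemma finite_pairs_of_map [Finite (C.pairs A)] (hnb : C.n • b ∈ A) {Y : Type*} [Fintype Y]
    (f : C.pairs (A ⊔ AddSubgroup.zmultiples b) → Y)
    (hf : ∀ x y, f x = f y → x.1.2 - y.1.2 ∈ A → ∀ σ, x.1.1 σ - y.1.1 σ ∈ A) :
    Finite (C.pairs (A ⊔ AddSubgroup.zmultiples b)) ∧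
      Nat.card (C.pairs (A ⊔ AddSubgroup.zmultiples b))
        ≤ Nat.card (C.pairs A) * (C.n * Fintype.card Y) := by
  have hkk : ∀ x : C.pairs (A ⊔ AddSubgroup.zmultiples b),
      ∃ k : Fin C.n, x.1.2 - (k : ℕ) • b ∈ A := fun x => by
    obtain ⟨-, -, -, -, hb'⟩ := x.2
    obtain ⟨k, hk, h⟩ := exists_nsmul_sub_mem C.hn.1.ne_zero hnb hb'
    exact ⟨⟨k, hk⟩, h⟩
  choose kk hkk using hkk
  have h := finite_card_le_mul_of_sub_mem (P := C.pairs A) (fun x => (kk x, f x)) fun x y hxy => by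
    obtain ⟨h1, h2⟩ : kk x = kk y ∧ f x = f y := Prod.ext_iff.mp hxy
    have hb2 : x.1.2 - y.1.2 ∈ A := by
      have := sub_mem (hkk x) (hkk y)
      rwa [h1, sub_sub_sub_cancel_right] at this
    obtain ⟨hc, h0, hp, -, -⟩ := sub_mem x.2 y.2
    exact ⟨hc, h0, hp, hf x y h2 hb2, hb2⟩
  rwa [Fintype.card_prod, Fintype.card_fin] at h

/-- A multiplicative piece multiplies the number of pairs by at most `n²`. -/
lemma finite_pairs_mul [Finite (C.pairs A)] (hA : ∀ σ : Γℚ, ∀ a ∈ A, σ • a ∈ A)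
    (hnb : C.n • b ∈ A) (hω : ∀ σ : Γℚ, σ • b - cexp C.n σ • b ∈ A)
    (hT : ∀ a ∈ A, C.e a T = 0) (hprim : IsPrimitiveRoot (num (C.e b T)) C.n) :
    Finite (C.pairs (A ⊔ AddSubgroup.zmultiples b)) ∧
      Nat.card (C.pairs (A ⊔ AddSubgroup.zmultiples b))
        ≤ Nat.card (C.pairs A) * (C.n * C.n) := by
  obtain ⟨S, hS, hmem⟩ := exists_kummer_chars C.hn.1.ne_zero
  choose u hu1 hu using fun x : C.pairs (A ⊔ AddSubgroup.zmultiples b) =>
    C.exists_root_kummer hA hnb hω hT x.2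
  obtain ⟨hfin, h⟩ := C.finite_pairs_of_map hnb (Y := S)
    (fun x => ⟨_, hmem (u x) (hu1 x)⟩) fun x y hxy _ σ => by
      have h1 : σ (u x) / u x = σ (u y) / u y := congrFun (congrArg Subtype.val hxy) σ
      rw [hu x σ, hu y σ] at h1
      obtain ⟨-, -, -, hxA, -⟩ := x.2
      obtain ⟨-, -, -, hyA, -⟩ := y.2
      refine C.mem_of_e_eq_zero hnb hT hprim (sub_mem (hxA σ) (hyA σ)) ?_
      rw [map_sub, AddMonoidHom.sub_apply, num_injective h1, sub_self]
  refine ⟨hfin, h.trans (Nat.mul_le_mul_left _ (Nat.mul_le_mul_left _ ?_))⟩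
  rwa [Fintype.card_coe]

end Piece

variable [Finite V] [Fact C.n.Prime]

omit [Finite V] in
/-- The cyclotomic exponent is one where the character is trivial. -/
lemma cexp_eq_one {σ : Γℚ} (h : cycChar C.n σ = 1) : cexp C.n σ = 1 := by
  rw [cexp, h, Units.val_one, ZMod.val_one]

omit [Finite V] in
/-- Inertia at an odd prime `n` has nontrivial cyclotomic character. -/
lemma exists_inertia_moves (hn2 : C.n ≠ 2) :
    ∃ σ ∈ C.An.inertiaSubgroupIn ℚ, cycChar C.n σ ≠ 1 := by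
  by_contra hcon
  push Not at hcon
  obtain ⟨ζ, hζ⟩ := Fermat.EC.Cyclo.exists_zeta C.hn.1
  have hord := Fermat.EC.Cyclo.is_zeta_sub_one C.hn hζ
  obtain ⟨k, hk⟩ := Fermat.FLAT.exists_int_ord C.hn hord.1 fun σ hσ => by
    rw [map_sub, map_one, (cycChar_eq_one_iff hζ).mp (hcon σ hσ)]
  rw [hord.2] at hk
  have h3 : 3 ≤ C.n := by
    have := C.hn.1.two_le
    omega
  have h3' : (3 : ℚ) ≤ C.n := by exact_mod_cast h3
  rcases le_or_gt k 0 with h | h
  · have h' : (k : ℚ) ≤ 0 := by exact_mod_cast h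
    have hpos : 0 < 1 / ((C.n : ℚ) - 1) := by
      apply div_pos one_pos; linarith
    linarith
  · have h' : (1 : ℚ) ≤ k := by exact_mod_cast h
    rw [← hk, le_div_iff₀ (by linarith), one_mul] at h'
    linarith

omit [Finite V] in
/-- An étale piece is fixed by Galois modulo `A`. -/
lemma smul_sub_mem_of_inf_le {A : AddSubgroup V} {b : V} (hA : ∀ σ : Γℚ, ∀ a ∈ A, σ • a ∈ A)
    (hb : b ∉ A) (hnb : C.n • b ∈ A)
    (hact : (∀ σ : Γℚ, σ • b - b ∈ A) ∨ ∀ σ : Γℚ, σ • b - cexp C.n σ • b ∈ A)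
    (htype : (A ⊔ AddSubgroup.zmultiples b) ⊓ C.V0 ≤ A) :
    ∀ σ : Γℚ, ∀ z ∈ A ⊔ AddSubgroup.zmultiples b, σ • z - z ∈ A := by
  have h1 : ∀ σ : Γℚ, σ • b - b ∈ A := by
    rcases hact with h | h
    · exact h
    have hn2 : C.n = 2 := by
      by_contra hne
      obtain ⟨σ, hσ, hσ'⟩ := C.exists_inertia_moves hne
      have hbA' : b ∈ A ⊔ AddSubgroup.zmultiples b :=
        le_sup_right (a := A) (AddSubgroup.mem_zmultiples b)
      exact hσ' (C.cycChar_eq_one_of_smul_sub_mem hb hnb (htype (AddSubgroup.mem_inf.mpr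
        ⟨sub_mem (C.smul_mem_sup hA (Or.inr h) σ b hbA') hbA', C.inertia_sub σ hσ b⟩)) (h σ))
    intro σ
    have := h σ
    rwa [C.cexp_eq_one_of_two hn2, one_smul] at this
  intro σ z hz
  obtain ⟨k, -, hk⟩ := exists_nsmul_sub_mem C.hn.1.ne_zero hnb hz
  exact smul_sub_self_mem hA (h1 σ) hk

omit [Fact C.n.Prime] in
/-- An element outside `A` pairs nontrivially with some `T ⊥ A`. -/
lemma exists_perp_e_ne_zero {A : AddSubgroup V} {a : V} (haA : a ∉ A) :
    ∃ T ∈ perp C.e A, C.e a T ≠ 0 := by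
  by_contra hcon
  push Not at hcon
  have hle : perp C.e A ≤ perp C.e (A ⊔ AddSubgroup.zmultiples a) := by
    intro T hT h hh
    obtain ⟨x, hx, y, hy, rfl⟩ := AddSubgroup.mem_sup.mp hh
    obtain ⟨k, rfl⟩ := AddSubgroup.mem_zmultiples_iff.mp hy
    rw [map_add, AddMonoidHom.add_apply, hT x hx, map_zsmul, AddMonoidHom.zsmul_apply,
      hcon T hT, smul_zero, add_zero]
  have h1 := AddSubgroup.card_le_of_le hle
  have h2 := card_perp_mul_card C.e (smallTorsion_units _) C.nondeg A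
  have h3 := card_perp_mul_card C.e (smallTorsion_units _) C.nondeg
    (A ⊔ AddSubgroup.zmultiples a)
  have hlt : A < A ⊔ AddSubgroup.zmultiples a :=
    lt_of_le_of_ne le_sup_left fun h => haA (h ▸ le_sup_right (a := A)
      (AddSubgroup.mem_zmultiples a))
  have h4 : Nat.card A < Nat.card (A ⊔ AddSubgroup.zmultiples a : AddSubgroup V) :=
    Set.Finite.card_lt_card (Set.toFinite _) (SetLike.coe_ssubset_coe.mpr hlt)
  have h5 : 0 < Nat.card (perp C.e A) := Nat.card_pos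
  nlinarith

omit [Finite V] in
/-- A piece with a point of `V₀` paired nontrivially with `T ⊥ A` is multiplicative. -/
lemma smul_sub_cexp_mem {A : AddSubgroup V} {a b T : V} (hA : ∀ σ : Γℚ, ∀ a ∈ A, σ • a ∈ A)
    (hnb : C.n • b ∈ A)
    (hact : (∀ σ : Γℚ, σ • b - b ∈ A) ∨ ∀ σ : Γℚ, σ • b - cexp C.n σ • b ∈ A)
    (ha : a ∈ A ⊔ AddSubgroup.zmultiples b) (ha0 : a ∈ C.V0) (hT : ∀ x ∈ A, C.e x T = 0)
    (hTa : C.e a T ≠ 0) : ∀ σ : Γℚ, σ • b - cexp C.n σ • b ∈ A := by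
  rcases hact with h | h
  swap
  · exact h
  by_cases hn2 : C.n = 2
  · intro σ
    rw [C.cexp_eq_one_of_two hn2, one_smul]; exact h σ
  exfalso
  obtain ⟨σ, hσ, hσ'⟩ := C.exists_inertia_moves hn2
  apply hσ'
  obtain ⟨ka, -, hka⟩ := exists_nsmul_sub_mem C.hn.1.ne_zero hnb ha
  have : NeZero C.n := ⟨C.hn.1.ne_zero⟩
  have haT := C.e_eq_nsmul hT hka
  have hζa : IsPrimitiveRoot (num (C.e a T)) C.n := by
    rw [haT, num_nsmul]
    refine (C.isPrimitiveRoot_num hnb hT fun h0 => hTa (by rw [haT, h0, smul_zero])).pow_of_coprime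
      _ ((C.hn.1.coprime_iff_not_dvd).mpr fun hd => hTa ?_).symm
    obtain ⟨j, rfl⟩ := hd
    rw [haT, mul_comm, mul_nsmul', C.nsmul_e_eq_zero hnb hT, smul_zero]
  refine (cycChar_eq_one_iff hζa).mpr ?_
  rw [← num_gal, C.e_gal]
  congr 1
  rw [show σ • T = T + (σ • T - T) by abel, map_add,
    C.iso _ (C.V0_stable σ (FLAT.inertia_le_decomposition _ hσ) a ha0) _ (C.inertia_sub σ hσ T),
    add_zero]
  have := hT _ (smul_sub_self_mem hA (h σ) hka)
  rwa [map_sub, AddMonoidHom.sub_apply, sub_eq_zero] at this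

/-- The bound on the pairs passes to a one-step extension with character trivial or cyclotomic. -/
theorem pairs_step {A : AddSubgroup V} (hA : ∀ σ : Γℚ, ∀ a ∈ A, σ • a ∈ A) {b : V} (hb : b ∉ A)
    (hnb : C.n • b ∈ A)
    (hact : (∀ σ : Γℚ, σ • b - b ∈ A) ∨ ∀ σ : Γℚ, σ • b - cexp C.n σ • b ∈ A)
    (hfin : Finite (C.pairs A)) (hA0 : Nat.card (C.pairs A) ≤ Nat.card A * Nat.card (A ⊓ C.V0 :
      AddSubgroup V)) :
    let A' := A ⊔ AddSubgroup.zmultiples b
    (∀ σ : Γℚ, ∀ a ∈ A', σ • a ∈ A') ∧ Finite (C.pairs A') ∧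
      Nat.card (C.pairs A') ≤ Nat.card A' * Nat.card (A' ⊓ C.V0 : AddSubgroup V) := by
  intro A'
  refine ⟨C.smul_mem_sup hA hact, ?_⟩
  -- it is enough to bound the new pairs by the growth of `A ⊓ V₀`
  suffices H : ∃ m, (Finite (C.pairs A') ∧ Nat.card (C.pairs A') ≤ Nat.card (C.pairs A) * m) ∧
      m * Nat.card (A ⊓ C.V0 : AddSubgroup V)
        ≤ C.n * Nat.card (A' ⊓ C.V0 : AddSubgroup V) by
    obtain ⟨m, ⟨hf, hle⟩, hm⟩ := H
    refine ⟨hf, hle.trans ((Nat.mul_le_mul_right m hA0).trans ?_)⟩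
    rw [card_sup_zmultiples hb hnb, mul_assoc (Nat.card A), mul_comm _ m,
      mul_comm C.n (Nat.card A), mul_assoc (Nat.card A)]
    exact Nat.mul_le_mul_left _ hm
  by_cases htype : A' ⊓ C.V0 ≤ A
  · -- étale piece: the cocycle is everywhere unramified
    refine ⟨C.n * 1, C.finite_pairs_of_map hnb (Y := Unit) (fun _ => ()) fun x y _ h σ => ?_, ?_⟩
    · exact C.mem_of_everywhere_unramified hA (C.smul_sub_mem_of_inf_le hA hb hnb hact htype) htype
        (sub_mem x.2 y.2) h σ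
    · rw [mul_one]
      exact Nat.mul_le_mul_left _ (AddSubgroup.card_le_of_le (inf_le_inf_right _ le_sup_left))
  -- multiplicative piece: the cocycle is a Kummer character
  obtain ⟨a, ⟨haA', ha0⟩, haA⟩ := SetLike.not_le_iff_exists.mp htype
  obtain ⟨T, hT, hTa⟩ := C.exists_perp_e_ne_zero haA
  obtain ⟨ka, -, hka⟩ := exists_nsmul_sub_mem C.hn.1.ne_zero hnb haA'
  have hbT : C.e b T ≠ 0 := fun h => hTa (by rw [C.e_eq_nsmul hT hka, h, smul_zero])
  refine ⟨C.n * C.n, C.finite_pairs_mul hA hnb (C.smul_sub_cexp_mem hA hnb hact haA' ha0 hT hTa)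
    hT (C.isPrimitiveRoot_num hnb hT hbT), ?_⟩
  have hna : C.n • a ∈ A := by
    have e : C.n • a = C.n • (a - ka • b) + ka • (C.n • b) := by
      rw [smul_sub, smul_comm ka C.n b]; abel
    rw [e]
    exact add_mem (nsmul_mem hka _) (nsmul_mem hnb _)
  rw [mul_assoc]
  exact Nat.mul_le_mul_left _ (mul_card_inf_le le_sup_left ⟨haA', ha0⟩ hna haA)

/-- The pairs of a residual module number at most `|V| · |V₀|`. -/
theorem pairs_le (hres : C.Residual) :
    Finite (C.pairs ⊤) ∧ Nat.card (C.pairs ⊤) ≤ Nat.card V * Nat.card C.V0 := by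
  have key : ∀ (d : ℕ) (A : AddSubgroup V), Nat.card V - Nat.card A ≤ d →
      (∀ σ : Γℚ, ∀ a ∈ A, σ • a ∈ A) → Finite (C.pairs A) →
      Nat.card (C.pairs A) ≤ Nat.card A * Nat.card (A ⊓ C.V0 : AddSubgroup V) →
      Finite (C.pairs ⊤) ∧ Nat.card (C.pairs ⊤) ≤ Nat.card V * Nat.card C.V0 := by
    intro d
    induction d with
    | zero =>
      intro A hd _ hf hle
      have : A = ⊤ := AddSubgroup.eq_top_of_card_eq A
        (le_antisymm (AddSubgroup.card_le_card_addGroup A) (by omega))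
      subst this
      exact ⟨hf, by rwa [top_inf_eq, AddSubgroup.card_top] at hle⟩
    | succ d ih =>
      intro A hd hA hf hle
      by_cases htop : A = ⊤
      · subst htop
        exact ⟨hf, by rwa [top_inf_eq, AddSubgroup.card_top] at hle⟩
      obtain ⟨b, hb, hnb, hact⟩ := hres A hA htop
      obtain ⟨h1, h2, h3⟩ := C.pairs_step hA hb hnb hact hf hle
      refine ih _ ?_ h1 h2 h3
      have : Nat.card A < Nat.card (A ⊔ AddSubgroup.zmultiples b : AddSubgroup V) := by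
        refine Set.Finite.card_lt_card (Set.toFinite _) (SetLike.coe_ssubset_coe.mpr
          (lt_of_le_of_ne le_sup_left fun h => hb (h ▸ ?_)))
        exact le_sup_right (a := A) (AddSubgroup.mem_zmultiples b)
      omega
  refine key (Nat.card V) ⊥ (by omega) (fun σ a ha => ?_) ?_ ?_
  · rw [AddSubgroup.mem_bot] at ha ⊢; rw [ha, smul_zero]
  · rw [C.pairs_bot]; infer_instance
  · rw [C.pairs_bot, bot_inf_eq]; simp

end Ctx

end Fermat.HT.Descent

end
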