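import Fermat.Agent.MF.Eisen.Lower
import Fermat.Agent.MC.X0.DimS2
import Fermat.Agent.GR.ES.Gamma0

/-!
# The Eisenstein point of the Hecke algebra and its idempotents modulo prime powers

For a prime `n` dividing the numerator of `(p - 1) / 12` the ideal generated by the
`T ℓ - (1 + ℓ)`, `U p - 1` and `n` is the kernel of a character `θ`; modulo `n ^ r` the local
factor at `θ` is cut out by a unique idempotent.
-/

set_option autoImplicit false
set_option linter.unusedSectionVars false

noncomputable section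

namespace Fermat.HT.Descent

-- these fail only after seconds on subgroups of quotient rings
attribute [-instance] SubfieldClass.toSubringClass RingConeClass.toSubsemiringClass
  Ideal.Quotient.normedCommRing
  Submodule.Quotient.seminormedAddCommGroup SemilinearIsometryClass.toSemilinearMapClass
  AlgHom.instContinuousLinearMapClassOfAlgHomClass

/-- Shortcut: ring homomorphisms are additive. The generic search first tries normed and linear
structures, and takes seconds. -/
private local instance addMonoidHomClassRingHom' {A B : Type*} [NonAssocSemiring A]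
    [NonAssocSemiring B] : AddMonoidHomClass (A →+* B) A B :=
  RingHomClass.toAddMonoidHomClass

/-- Shortcut: ring homomorphisms respect addition. -/
private local instance addHomClassRingHom' {A B : Type*} [NonAssocSemiring A]
    [NonAssocSemiring B] : AddHomClass (A →+* B) A B :=
  AddMonoidHomClass.toAddHomClass

open CongruenceSubgroup CuspForm ModularCurve
open Fermat.GR (FullHecke)
open Fermat.MF.Eisen (eta piT)

variable {p : ℕ} [hp : Fact p.Prime] [NeZero p]

/-- The Eisenstein numerator is `1` for `p ≤ 3`, so a prime divides it only for `p ≥ 5`. -/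
theorem five_le_of_dvd {n : ℕ} (hn : n.Prime) (h : n ∣ eisensteinNumerator p) : 5 ≤ p := by
  by_contra hc
  have h2 := hp.out.two_le
  have h4 : p ≠ 4 := fun h => by
    have := hp.out; rw [h] at this; norm_num at this
  have h1 : eisensteinNumerator p = 1 := by
    rcases (show p = 2 ∨ p = 3 by omega) with rfl | rfl <;> simp [eisensteinNumerator]
  rw [h1, Nat.dvd_one] at h
  exact hn.one_lt.ne' h

/-- The Eisenstein character: `T ℓ ↦ ℓ + 1`, `U p ↦ 1` modulo a prime dividing the numerator. -/
theorem exists_theta {n : ℕ} (hn : n.Prime) (h : n ∣ eisensteinNumerator p) :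
    ∃ θ : FullHecke p →+* ZMod n,
      (∀ ℓ (hℓ : ℓ.Prime) (hℓp : ¬ ℓ ∣ p),
        θ (CuspForm.heckeAlgebra.T hℓ hℓp (Set.notMem_empty ℓ)) = (ℓ + 1 : ℕ)) ∧
      θ (CuspForm.heckeAlgebra.U hp.out dvd_rfl (Set.notMem_empty p)) = 1 := by
  have hdim : genusFormula p ≤ (Module.finrank ℂ (CuspForm (Gamma0 p) 2) : ℚ) := by
    have := Fermat.MC.isFunctionField_FN p (RingHom.id ℂ)
    rw [Fermat.MC.finrank_cuspForm_two p]
    exact (Fermat.MC.genusFF_FN p (RingHom.id ℂ)).symm.le
  have hker : RingHom.ker (heckeEvalForms p 2) ≤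
      RingHom.ker ((Int.castRingHom (ZMod n)).comp (eta p)) := fun w hw => by
    rw [RingHom.mem_ker] at hw ⊢
    have hw' : piT p w = 0 := by
      change (latticeRestrictHom p ∅).toRingHom (heckeEvalForms p 2 w) = 0
      rw [hw, map_zero]
    have h1 := Fermat.MF.Eisen.eisensteinNumerator_dvd_eta (five_le_of_dvd hn h) hdim hw'
    exact (ZMod.intCast_zmod_eq_zero_iff_dvd _ _).mpr ((Int.natCast_dvd_natCast.mpr h).trans h1)
  refine ⟨RingHom.liftOfSurjective _ (MF.Eisen.heckeEvalForms_surjective p) ⟨_, hker⟩,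
    fun ℓ hℓ hℓp => ?_, ?_⟩
  · rw [← heckeEvalForms_heckeGen_of_not_dvd (ℓ := ⟨ℓ, hℓ⟩) hℓp,
      RingHom.liftOfRightInverse_comp_apply]
    change ((eta p (heckeGen ⟨ℓ, hℓ⟩) : ℤ) : ZMod n) = _
    erw [(aeval_heckeGen _ _ : eta p (heckeGen ⟨ℓ, hℓ⟩) = eisensteinSystem p ⟨ℓ, hℓ⟩),
      eisensteinSystem_of_not_dvd (ℓ := ⟨ℓ, hℓ⟩) hℓp]
    push_cast
    ring
  · rw [← heckeEvalForms_heckeGen_of_dvd (q := ⟨p, hp.out⟩) dvd_rfl,
      RingHom.liftOfRightInverse_comp_apply]
    change ((eta p (heckeGen ⟨p, hp.out⟩) : ℤ) : ZMod n) = _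
    erw [(aeval_heckeGen _ _ : eta p (heckeGen ⟨p, hp.out⟩) = eisensteinSystem p ⟨p, hp.out⟩),
      eisensteinSystem_of_dvd (ℓ := ⟨p, hp.out⟩) dvd_rfl, Int.cast_one]

/-- In a finite monoid a positive power of every element is idempotent. -/
theorem exists_pow_idem {M : Type*} [Monoid M] [Finite M] (x : M) :
    ∃ k : ℕ, 0 < k ∧ x ^ k * x ^ k = x ^ k := by
  obtain ⟨i, j, hij, he⟩ := Finite.exists_ne_map_eq_of_infinite fun k : ℕ => x ^ k
  wlog hlt : i < j generalizing i j
  · exact this j i hij.symm he.symm (by omega)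
  have hper : ∀ a, x ^ (i + a * (j - i)) = x ^ i := by
    intro a
    induction a with
    | zero => simp
    | succ a ih =>
      rw [show i + (a + 1) * (j - i) = (i + a * (j - i)) + (j - i) by ring, pow_add, ih, ← pow_add,
        show i + (j - i) = j by omega, he]
  refine ⟨(i + 1) * (j - i), Nat.mul_pos (by omega) (by omega), ?_⟩
  have hle : i ≤ (i + 1) * (j - i) :=
    le_trans (Nat.le_succ i) (Nat.le_mul_of_pos_right _ (by omega))
  obtain ⟨d, hd⟩ := Nat.exists_eq_add_of_le hle
  calc x ^ ((i + 1) * (j - i)) * x ^ ((i + 1) * (j - i))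
      = x ^ ((i + (i + 1) * (j - i)) + d) := by rw [← pow_add]; congr 1; omega
    _ = x ^ ((i + 1) * (j - i)) := by rw [pow_add, hper, ← pow_add, ← hd]

variable {n : ℕ} [hn : Fact n.Prime] (θ : FullHecke p →+* ZMod n)

/-- The ideal `n ^ r T`. -/
abbrev lvl (p n : ℕ) [NeZero p] (r : ℕ) : Ideal (FullHecke p) :=
  Ideal.span {((n : FullHecke p) ^ r)}

/-- `T / n ^ r T` is killed by `n ^ r`. -/
theorem nsmul_quot_lvl (r : ℕ) (y : FullHecke p ⧸ lvl p n r) : n ^ r • y = 0 := by
  rw [nsmul_eq_mul, show ((n ^ r : ℕ) : FullHecke p ⧸ lvl p n r) =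
      Ideal.Quotient.mk _ ((n : FullHecke p) ^ r) by
        rw [← Nat.cast_pow]; exact (map_natCast _ _).symm,
    Ideal.Quotient.eq_zero_iff_mem.mpr (Ideal.mem_span_singleton_self _), zero_mul]

/-- `T / n ^ r T` is finite. -/
theorem finite_quot_lvl (r : ℕ) : Finite (FullHecke p ⧸ lvl p n r) := by
  have : Module.Finite ℤ (FullHecke p ⧸ lvl p n r) :=
    Module.Finite.of_surjective ((Ideal.Quotient.mk (lvl p n r)).toAddMonoidHom.toIntLinearMap)
      Ideal.Quotient.mk_surjective
  refine Module.finite_of_fg_torsion _ fun x => ?_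
  refine ⟨⟨((n ^ r : ℕ) : ℤ), mem_nonZeroDivisors_of_ne_zero
    (Int.natCast_ne_zero.mpr (pow_ne_zero _ hn.out.ne_zero))⟩, ?_⟩
  change ((n ^ r : ℕ) : ℤ) • x = 0
  rw [natCast_zsmul, nsmul_quot_lvl]

/-- `e` cuts out the factor at `θ` modulo `n ^ r`. -/
structure IsEisIdem (r : ℕ) (e : FullHecke p) : Prop where
  /-- `θ` sends `e` to one. -/
  one : θ e = 1
  /-- `e` is idempotent modulo `n ^ r`. -/
  idem : e * e - e ∈ lvl p n r
  /-- Modulo `n ^ r` the kernel of `θ` is nilpotent on the factor of `e`. -/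
  nil : ∀ x, θ x = 0 → ∃ k, x ^ k * e ∈ lvl p n r

/-- The Eisenstein idempotent modulo `n ^ r` exists. -/
theorem exists_isEisIdem {r : ℕ} (hr : r ≠ 0) : ∃ e, IsEisIdem θ r e := by
  classical
  have := finite_quot_lvl (p := p) (n := n) r
  set Q := FullHecke p ⧸ lvl p n r
  set mk := Ideal.Quotient.mk (lvl p n r)
  have hθ : ∀ a ∈ lvl p n r, θ a = 0 := fun a ha => by
    obtain ⟨b, rfl⟩ := Ideal.mem_span_singleton.mp ha
    rw [map_mul, map_pow, map_natCast, ZMod.natCast_self, zero_pow hr, zero_mul]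
  set θ' : Q →+* ZMod n := Ideal.Quotient.lift (lvl p n r) θ hθ
  have hθ's : Function.Surjective θ' :=
    fun a => ⟨(a.val : Q), by rw [map_natCast, ZMod.natCast_zmod_val]⟩
  have hm : (RingHom.ker θ').IsMaximal := RingHom.ker_isMaximal_of_surjective θ' hθ's
  have : Finite (Ideal Q) := Finite.of_injective _ SetLike.coe_injective
  have : Fintype (Ideal Q) := Fintype.ofFinite _
  have hch : ∀ M : Ideal Q, ∃ a, θ' a ≠ 0 ∧ (M.IsMaximal → M ≠ RingHom.ker θ' →
      a ∈ M) := fun M => by
    by_cases hM : M.IsMaximal ∧ M ≠ RingHom.ker θ'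
    · obtain ⟨a, ha, ha'⟩ := SetLike.not_le_iff_exists.mp
        fun hle => hM.2 (hM.1.eq_of_le hm.ne_top hle)
      exact ⟨a, fun h => ha' (RingHom.mem_ker.mpr h), fun _ _ => ha⟩
    · exact ⟨1, by rw [map_one]; exact one_ne_zero, fun h1 h2 => absurd ⟨h1, h2⟩ hM⟩
  -- a product lying in every other maximal ideal, raised to an idempotent power
  choose a ha ha' using hch
  obtain ⟨k, hk, hidem⟩ := exists_pow_idem (∏ M : Ideal Q, a M)
  set e' := (∏ M : Ideal Q, a M) ^ k with he'
  have he1 : θ' e' = 1 := by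
    have h1 : θ' e' * θ' e' = θ' e' := by rw [← map_mul, hidem]
    refine (mul_eq_left₀ ?_).mp h1
    rw [he', map_pow, map_prod]
    exact pow_ne_zero _ (Finset.prod_ne_zero_iff.mpr fun M _ => ha M)
  obtain ⟨e, he⟩ := Ideal.Quotient.mk_surjective e'
  refine ⟨e, ?_, ?_, fun x hx => ?_⟩
  · rw [← he1, ← he]; rfl
  · rw [← Ideal.Quotient.eq, map_mul, he, hidem]
  -- a power of `x e` is an idempotent in the radical, hence zero
  obtain ⟨j, hj, hj'⟩ := exists_pow_idem (mk x * e')
  set f := (mk x * e') ^ j with hf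
  have hfM : ∀ M : Ideal Q, M.IsMaximal → f ∈ M := fun M hM => by
    refine M.pow_mem_of_mem ?_ _ hj
    by_cases hMm : M = RingHom.ker θ'
    · exact hMm ▸ Ideal.mul_mem_right _ _ (RingHom.mem_ker.mpr hx)
    · exact Ideal.mul_mem_left _ _ (Ideal.pow_mem_of_mem _
        (Ideal.mem_of_dvd _ (Finset.dvd_prod_of_mem a (Finset.mem_univ M)) (ha' M hM hMm)) _ hk)
  have hunit : IsUnit (1 - f) := by
    by_contra hu
    obtain ⟨M, hM, hfm⟩ := exists_max_ideal_of_mem_nonunits hu
    refine hM.ne_top ((Ideal.eq_top_iff_one M).mpr ?_)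
    have := M.add_mem hfm (hfM M hM)
    rwa [sub_add_cancel] at this
  have hf0 : f = 0 := by
    refine hunit.mul_left_eq_zero.mp ?_
    rw [mul_sub, mul_one, hj', sub_self]
  refine ⟨j, Ideal.Quotient.eq_zero_iff_mem.mp ?_⟩
  have he'j : e' ^ j = e' := by
    obtain ⟨j, rfl⟩ := Nat.exists_eq_succ_of_ne_zero (Nat.pos_iff_ne_zero.mp hj)
    clear hj hj' hf0 hf hfM hunit f
    induction j with
    | zero => exact pow_one _
    | succ j ih => rw [pow_succ, ih, hidem]
  rw [map_mul, map_pow, he, ← he'j, ← mul_pow]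
  exact hf0

variable {θ}

/-- An Eisenstein idempotent modulo `n ^ s` is one modulo `n ^ r` for `r ≤ s`. -/
theorem IsEisIdem.mono {r s : ℕ} (hrs : r ≤ s) {e : FullHecke p} (h : IsEisIdem θ s e) :
    IsEisIdem θ r e := by
  have hle : lvl p n s ≤ lvl p n r :=
    Ideal.span_singleton_le_span_singleton.mpr (pow_dvd_pow _ hrs)
  exact ⟨h.one, hle h.idem, fun x hx => (h.nil x hx).imp fun _ hk => hle hk⟩

/-- Operators outside the Eisenstein ideal are invertible on the factor. -/
theorem IsEisIdem.exists_inv {r : ℕ} {e : FullHecke p} (h : IsEisIdem θ r e) {x : FullHecke p}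
    (hx : θ x ≠ 0) : ∃ y, x * y * e - e ∈ lvl p n r := by
  obtain ⟨k, hk⟩ := h.nil (1 - x ^ (n - 1)) (by
    rw [map_sub, map_one, map_pow, ZMod.pow_card_sub_one_eq_one hx, sub_self])
  obtain ⟨d, hd⟩ : ∃ d, n - 1 = d + 1 := ⟨n - 2, by have := hn.out.two_le; omega⟩
  refine ⟨x ^ d * ∑ i ∈ Finset.range k, (1 - x ^ (n - 1)) ^ i, ?_⟩
  have e1 : x * (x ^ d * ∑ i ∈ Finset.range k, (1 - x ^ (n - 1)) ^ i) * e - e =
      -((1 - x ^ (n - 1)) ^ k * e) := by
    rw [← mul_assoc x, ← pow_succ', ← hd]
    linear_combination (-e) * (geom_sum_mul (1 - x ^ (n - 1)) k)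
  rw [e1]
  exact (lvl p n r).neg_mem hk

/-! ### Orders of the factors -/

/-- The subgroup `f (T / n ^ r)`. -/
def factor (f : FullHecke p) (r : ℕ) : AddSubgroup (FullHecke p ⧸ lvl p n r) :=
  (AddMonoidHom.mulLeft (Ideal.Quotient.mk (lvl p n r) f)).range

/-- The factor contains zero; a shortcut, as the search is slow on this subgroup. -/
private local instance factorNonempty (f : FullHecke p) (r : ℕ) : Nonempty (factor (n := n) f r) :=
  ⟨⟨0, zero_mem _⟩⟩

/-- The factor of an idempotent at level `r` is at most the `r`-th power of the first. -/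
theorem card_factor_le {f : FullHecke p} {s : ℕ} (hf : f * f - f ∈ lvl p n s) :
    ∀ r ≤ s, Nat.card (factor (n := n) f r) ≤ Nat.card (factor (n := n) f 1) ^ r := by
  intro r
  induction r with
  | zero =>
    intro _
    have : Subsingleton (FullHecke p ⧸ lvl p n 0) :=
      Ideal.Quotient.subsingleton_iff.mpr (by simp)
    simp
  | succ r ih =>
    intro hr
    have := finite_quot_lvl (p := p) (n := n) (r + 1)
    have := finite_quot_lvl (p := p) (n := n) r
    have := finite_quot_lvl (p := p) (n := n) 1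
    have hle : lvl p n (r + 1) ≤ lvl p n r :=
      Ideal.span_singleton_le_span_singleton.mpr (pow_dvd_pow _ (Nat.le_succ r))
    -- reduce from level `r + 1` to level `r`
    let π : factor (n := n) f (r + 1) →+ factor (n := n) f r :=
      AddMonoidHom.mk' (fun y => ⟨Ideal.Quotient.factor hle y.1, by
        obtain ⟨x, hx⟩ := y.2
        exact ⟨Ideal.Quotient.factor hle x, by
          rw [← hx]
          change _ = Ideal.Quotient.factor hle (Ideal.Quotient.mk _ f * x)
          rw [map_mul, Ideal.Quotient.factor_mk]; rfl⟩⟩) fun y z => Subtype.ext (map_add _ _ _)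
    -- the kernel is `n ^ r` times the first factor
    have hker : Nat.card π.ker ≤ Nat.card (factor (n := n) f 1) := by
      have hrep : ∀ y : π.ker, ∃ t : FullHecke p,
          Ideal.Quotient.mk (lvl p n (r + 1)) ((n : FullHecke p) ^ r * (f * t)) = y.1.1 :=
            fun y => by
        obtain ⟨x, hx⟩ := y.1.2
        obtain ⟨t, rfl⟩ := Ideal.Quotient.mk_surjective x
        have h0 : Ideal.Quotient.factor hle y.1.1 = 0 := congrArg Subtype.val y.2
        rw [← hx] at h0
        replace h0 : f * t ∈ lvl p n r := by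
          refine Ideal.Quotient.eq_zero_iff_mem.mp ?_
          rw [← h0, ← Ideal.Quotient.factor_mk hle (f * t)]; rfl
        obtain ⟨u, hu⟩ := Ideal.mem_span_singleton.mp h0
        refine ⟨u, ?_⟩
        rw [← hx]
        refine (Ideal.Quotient.eq.mpr ?_).trans (map_mul _ _ _)
        have e : (n : FullHecke p) ^ r * (f * u) - f * t = (f * f - f) * t := by
          linear_combination (-f) * hu
        rw [e]
        exact Ideal.mul_mem_right _ _
          ((Ideal.span_singleton_le_span_singleton.mpr (pow_dvd_pow _ hr)) hf)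
      choose t ht using hrep
      refine Nat.card_le_card_of_injective
        (fun y => (⟨Ideal.Quotient.mk _ (f * t y), Ideal.Quotient.mk _ (t y),
          (map_mul _ _ _).symm⟩ :
          factor (n := n) f 1)) fun y z hyz => ?_
      refine Subtype.ext (Subtype.ext ?_)
      rw [← ht y, ← ht z, Ideal.Quotient.eq, ← mul_sub, Ideal.mem_span_singleton, pow_succ]
      refine mul_dvd_mul_left _ ?_
      have := Ideal.Quotient.eq.mp (congrArg Subtype.val hyz)
      simpa [lvl, Ideal.mem_span_singleton] using this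
    rw [← AddSubgroup.card_mul_index π.ker, AddSubgroup.index_ker, pow_succ, mul_comm (_ ^ r)]
    exact Nat.mul_le_mul hker
      ((Nat.card_le_card_of_injective _ π.range.subtype_injective).trans
        (ih (Nat.le_of_succ_le hr)))

/-- An idempotent modulo `n ^ r` splits the quotient. -/
theorem card_factor_mul {f : FullHecke p} {r : ℕ} (hf : f * f - f ∈ lvl p n r) :
    Nat.card (factor (n := n) f r) * Nat.card (factor (p := p) (n := n) (1 - f) r) =
      Nat.card (FullHecke p ⧸ lvl p n r) := by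
  have := finite_quot_lvl (p := p) (n := n) r
  rw [← AddSubgroup.card_mul_index (AddMonoidHom.mulLeft (Ideal.Quotient.mk (lvl p n r) f)).ker,
    AddSubgroup.index_ker, mul_comm]
  congr 1
  refine congrArg (fun S : AddSubgroup (FullHecke p ⧸ lvl p n r) => Nat.card S) ?_
  have hid : Ideal.Quotient.mk (lvl p n r) f * Ideal.Quotient.mk (lvl p n r) f =
      Ideal.Quotient.mk (lvl p n r) f := by
    rw [← map_mul]; exact Ideal.Quotient.eq.mpr hf
  ext y
  rw [AddMonoidHom.mem_ker]
  constructor
  · rintro ⟨x, rfl⟩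
    change _ * (Ideal.Quotient.mk (lvl p n r) (1 - f) * x) = 0
    rw [map_sub, map_one, sub_mul, one_mul, mul_sub, ← mul_assoc, hid, sub_self]
  · intro hy
    refine ⟨y, ?_⟩
    change Ideal.Quotient.mk (lvl p n r) (1 - f) * y = y
    rw [map_sub, map_one, sub_mul, one_mul, show _ * y = (0 : FullHecke p ⧸ lvl p n r) from hy,
      sub_zero]

/-- The quotient by `n ^ r` has `n ^ (r · rank)` elements. -/
theorem card_quot_lvl (r : ℕ) :
    Nat.card (FullHecke p ⧸ lvl p n r) = n ^ (r * Module.finrank ℤ (FullHecke p)) := by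
  classical
  have : NeZero (n ^ r) := ⟨pow_ne_zero _ hn.out.ne_zero⟩
  set b := Module.Free.chooseBasis ℤ (FullHecke p)
  let ψ : FullHecke p →+ (Module.Free.ChooseBasisIndex ℤ (FullHecke p) → ZMod (n ^ r)) :=
    AddMonoidHom.mk' (fun t i => ((b.repr t i : ℤ) : ZMod (n ^ r))) fun t u => funext fun i => by
      simp
  have hsurj : Function.Surjective ψ := fun c => ⟨b.equivFun.symm fun i => ((c i).val : ℤ),
    funext fun i => by
      change ((b.repr (b.equivFun.symm _) i : ℤ) : ZMod (n ^ r)) = c i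
      rw [← b.equivFun_apply, LinearEquiv.apply_symm_apply, Int.cast_natCast,
        ZMod.natCast_zmod_val]⟩
  have hker : ψ.ker = (lvl p n r).toAddSubgroup := by
    ext t
    rw [AddMonoidHom.mem_ker, Submodule.mem_toAddSubgroup, Ideal.mem_span_singleton, funext_iff]
    constructor
    · intro h
      have h' : ∀ i, ((n ^ r : ℕ) : ℤ) ∣ b.repr t i := fun i =>
        (ZMod.intCast_zmod_eq_zero_iff_dvd _ _).mp (h i)
      choose c hc using h'
      refine ⟨b.equivFun.symm c, b.equivFun.injective (funext fun i => ?_)⟩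
      rw [← Nat.cast_pow, ← nsmul_eq_mul, map_nsmul, LinearEquiv.apply_symm_apply, b.equivFun_apply,
        hc i, Pi.smul_apply, nsmul_eq_mul]
    · rintro ⟨u, rfl⟩ i
      change ((b.repr ((n : FullHecke p) ^ r * u) i : ℤ) : ZMod (n ^ r)) = 0
      rw [← Nat.cast_pow, ← nsmul_eq_mul, map_nsmul, Finsupp.smul_apply, nsmul_eq_mul, Int.cast_mul,
        Int.cast_natCast, ZMod.natCast_self, zero_mul]
  have e := Nat.card_congr (QuotientAddGroup.quotientKerEquivOfSurjective ψ hsurj).toEquiv
  rw [hker, Nat.card_fun, Nat.card_zmod,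
    show Nat.card (Module.Free.ChooseBasisIndex ℤ (FullHecke p)) = Module.finrank ℤ (FullHecke p) by
      rw [Nat.card_eq_fintype_card, Module.finrank_eq_card_chooseBasisIndex], ← pow_mul] at e
  exact e

/-- The Eisenstein factor modulo `n ^ r` is as large as its reduction allows. -/
theorem IsEisIdem.card_factor_ge {r : ℕ} (hr : r ≠ 0) {e : FullHecke p} (h : IsEisIdem θ r e) :
    Nat.card (factor (n := n) e 1) ^ r ≤ Nat.card (factor (n := n) e r) := by
  have := finite_quot_lvl (p := p) (n := n) r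
  have := finite_quot_lvl (p := p) (n := n) 1
  have h1 := card_factor_mul h.idem
  have h' : (1 - e) * (1 - e) - (1 - e) ∈ lvl p n r := by
    rw [show (1 - e) * (1 - e) - (1 - e) = e * e - e by ring]; exact h.idem
  have h2 := card_factor_le h' r le_rfl
  have hidem1 : e * e - e ∈ lvl p n 1 :=
    (h.mono (Nat.one_le_iff_ne_zero.mpr hr)).idem
  have h3 := card_factor_mul hidem1
  rw [card_quot_lvl, ← one_mul r, mul_comm 1 r] at h1
  rw [card_quot_lvl, one_mul] at h3
  rw [mul_one, mul_comm r, pow_mul, ← h3, mul_pow] at h1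
  have hpos : 0 < Nat.card (factor (p := p) (n := n) (1 - e) r) := Nat.card_pos
  by_contra hlt
  push Not at hlt
  nlinarith [Nat.mul_lt_mul_of_pos_right hlt hpos,
    Nat.mul_le_mul_left (Nat.card (factor (n := n) e 1) ^ r) h2]

end Fermat.HT.Descent

end
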