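import Fermat.Agent.HT.Descent.AtN
import Fermat.Agent.CFT.Density.Places

/-!
# Frobenius at `n`

The congruence relation makes `φ ^ 2 - T_n φ + n` carry the module into its multiplicative part,
and `T_n ^ 2 - (n + 1) ^ 2` divides a positive integer.
-/

set_option autoImplicit false

noncomputable section

open ModularCurve Fermat.EC.Val

namespace Fermat.HT.Descent

open Fermat.GR (FullHecke)
open Fermat.JAC.X0 (jAct)
open Fermat.HT.Cusp (Red)

local notation "ℚbar" => AlgebraicClosure ℚ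
local notation "Γℚ" => (AlgebraicClosure ℚ ≃ₐ[ℚ] AlgebraicClosure ℚ)

variable {p : ℕ} [hp : Fact p.Prime] [NeZero p] (R : Red p)

/-- The kernel of reduction is stable under the Hecke algebra. -/
theorem redJ_jAct (t : FullHecke p) {x : JZero p} (hx : R.redJ x = 0) :
    R.redJ (jAct p t x) = 0 := by
  rcases eq_or_ne x 0 with rfl | hx0
  · rw [map_zero]; exact map_zero R.redJ
  obtain ⟨π, hπ, hm, -⟩ := R.exists_lam_ne_zero hx hx0
  obtain ⟨hm', -⟩ := (R.jAct_scale t).2 π hπ x hm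
  obtain ⟨s, hs⟩ := R.mem_scaleSub.mp hm'
  exact hs.cls_eq ▸ R.redJ_cls hs.near

omit hp [NeZero p] in
/-- An additive map sends `a - b + m • x` to the same combination of the images. -/
theorem map_sub_add_nsmul {G H : Type*} [AddCommGroup G] [AddCommGroup H] (f : G →+ H) (m : ℕ)
    {a b x : G} {a' b' : H} (ha : f a = a') (hb : f b = b') :
    f (a - b + m • x) = a' - b' + m • f x := by
  rw [map_add, map_sub, map_nsmul, ha, hb]

omit hp [NeZero p] in
/-- The congruence relation, for variable groups. -/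
theorem map_eq_zero_of_congruence {G H A : Type*} [AddCommGroup G] [AddCommGroup H] [Group A]
    [MulAction A H] (f : G →+ H) (g : A) (m : ℕ) {a b y x : G} (hy : f y = g • f x)
    (ha : f a = g • f y) (hb : f b = m • g⁻¹ • f y + g • f y) : f (a - b + m • x) = 0 := by
  rw [map_sub_add_nsmul f m ha hb, hy, inv_smul_smul]
  abel

/-- The congruence relation on `J₀(p)`. -/
theorem redJ_frobenius {φ : Γℚ} (hφ : R.A.IsFrobeniusAt φ R.ℓ) (x : JZero p) :
    R.redJ (φ • φ • x - jAct p R.Tell (φ • x) + R.ℓ • x) = 0 := by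
  have : Fact R.ℓ.Prime := ⟨R.hℓ⟩
  have := R.charP_k
  have : PerfectRing R.k R.ℓ := by
    have := Fermat.RED.Model.isAlgClosed_residue R.A
    infer_instance
  have hdiv := Fermat.RED.picDivisible_modularFunctionFieldBar p
  set g := Fermat.RED.coeffAutFull (frobeniusEquiv (IsLocalRing.ResidueField R.A) R.ℓ) p
  have hF : ∀ y : JZero p, Fermat.RED.redPic R.hr (φ • y) = g • Fermat.RED.redPic R.hr y := fun y =>
    Fermat.RED.redPic_galois R.hr hdiv hφ.mem_decompositionSubgroup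
      (Fermat.RED.residueAut_eq_frobenius hφ) y
  have hT : jAct p R.Tell (φ • x) = heckeOperatorBar p ⟨R.ℓ, R.hℓ⟩ (φ • x) :=
    Fermat.JAC.X0.jAct_T p R.hℓ R.not_dvd _
  have h1 := Fermat.RED.redPic_hecke R.hr hdiv R.not_dvd (φ • x)
  exact map_eq_zero_of_congruence (G := JZero p) (H := JZeroC (IsLocalRing.ResidueField R.A) p)
    (Fermat.RED.redPic R.hr) g R.ℓ (hF x) (hF (φ • x))
    ((congrArg (Fermat.RED.redPic R.hr) hT).trans h1)

variable {n : ℕ} [hn : Fact n.Prime] {r k : ℕ} {e : FullHecke p}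

/-- The Frobenius data at `n`. -/
theorem exists_frobN (hR : R.ℓ = n) :
    ∃ N : ℕ, N ≠ 0 ∧ ∀ (r k : ℕ) (e : FullHecke p) {Ap : ValuationSubring ℚbar}
      (hAp : IsPlace Ap p) (he : e * e - e ∈ lvl p n (r + k))
      (hiso : ∀ a ∈ kerV n (r + k) e R, ∀ b ∈ kerV n (r + k) e R,
        pairV n (r + k) e (n ^ k • a) b = 0),
      ∃ Fn : (ctxV r R k hR hAp he hiso).FrobN, Fn.N = N := by
  -- `T_ℓ ± (ℓ + 1)` divide nonzero integers in the Hecke ring, so their product does
  obtain ⟨y₁, N₁, hN₁, h₁⟩ := exists_nat_dvd_heckeT R.hℓ R.not_dvd ((R.ℓ + 1 : ℕ) : ℤ)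
    (Int.natAbs_natCast _)
  obtain ⟨y₂, N₂, hN₂, h₂⟩ := exists_nat_dvd_heckeT R.hℓ R.not_dvd (-((R.ℓ + 1 : ℕ) : ℤ))
    (by rw [Int.natAbs_neg, Int.natAbs_natCast])
  have hprod : (R.Tell * R.Tell - (((R.ℓ + 1) ^ 2 : ℕ) : FullHecke p)) * (y₁ * y₂) =
      ((N₁ * N₂ : ℕ) : FullHecke p) := by
    have h := congrArg₂ (· * ·) h₁ h₂
    simp only [Int.cast_neg, Int.cast_natCast, sub_neg_eq_add] at h
    push_cast at h ⊢
    rw [← h]
    change _ = (R.Tell - _) * y₁ * ((R.Tell + _) * y₂)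
    ring
  refine ⟨N₁ * N₂, mul_ne_zero hN₁ hN₂, fun r k e Ap hAp he hiso => ?_⟩
  -- Frobenius, `T_ℓ` and the cofactor `y₁ y₂` form the data
  obtain ⟨φ, hφ⟩ := Fermat.CFT.exists_isFrobeniusAt R.hℓ R.hA
  refine ⟨
    { φ := φ
      hφ := hφ.mem_decompositionSubgroup
      t := opV n r e R.Tell
      ht := isOp_opV R k hR hAp he hiso _ fun x hx => redJ_jAct R _ hx
      s := opV n r e (y₁ * y₂)
      hs := isOp_opV R k hR hAp he hiso _ fun x hx => redJ_jAct R _ hx
      comm := fun v => Subtype.ext ((jAct_mul _ _ v.1).symm.trans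
        ((congrArg (fun t => jAct p t v.1) (mul_comm _ _)).trans (jAct_mul _ _ v.1)))
      N := N₁ * N₂
      hN := fun v => Subtype.ext ?_
      rel := fun v => ?_ }, rfl⟩
  · change jAct p R.Tell (jAct p R.Tell (jAct p (y₁ * y₂) v.1)) -
      (n + 1) ^ 2 • jAct p (y₁ * y₂) v.1 = (N₁ * N₂) • (v : JZero p)
    have h1 : ((n + 1) ^ 2 : ℕ) = (R.ℓ + 1) ^ 2 := by rw [hR]
    rw [← jAct_natCast (N₁ * N₂), ← hprod, sub_mul, map_sub, ← jAct_mul, ← jAct_mul,
      ← jAct_natCast ((n + 1) ^ 2), ← jAct_mul, h1]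
    rfl
  -- on a lift the Frobenius relation holds modulo the reduction, so up to `kerV`
  · obtain ⟨x, rfl⟩ := shrinkV_surjective he v
    refine ⟨φ • φ • x - opV n (r + k) e R.Tell (φ • x) + n • x, (mem_kerV R).mpr ?_, ?_⟩
    · change R.redJ (φ • φ • (x : JZero p) - jAct p R.Tell (φ • (x : JZero p)) + n •
        (x : JZero p)) = 0
      have h := redJ_frobenius R hφ (x : JZero p)
      have e1 : R.ℓ • (x : JZero p) = n • (x : JZero p) := congrArg (· • (x : JZero p)) hR
      rwa [e1] at h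
    · exact map_sub_add_nsmul (shrinkV n r k e) n
        ((shrinkV_smul φ _).trans (congrArg (φ • ·) (shrinkV_smul φ x)))
        ((Subtype.ext (map_nsmul (jAct p R.Tell) _ _).symm :
            shrinkV n r k e (opV n (r + k) e R.Tell (φ • x)) =
              opV n r e R.Tell (shrinkV n r k e (φ • x))).trans
          (congrArg (opV n r e R.Tell) (shrinkV_smul φ x)))

end Fermat.HT.Descent

end
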