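import Fermat.Agent.HT.Descent.AtN
import Mathlib.GroupTheory.PGroup
import Mathlib.RingTheory.Nilpotent.Basic

/-!
# The pieces of `e J₀(p)[n ^ r]` are `ℤ / n` or `μ_n`

`residual_ctxV`, the hypothesis of the dévissage in `Bound`: by Chebotarev and the congruence
relation every `σ` satisfies `((σ - 1) (σ - χ σ)) ^ M = 0` on the module, so the kernel of `χ` acts
unipotently and has fixed vectors, among which a generator of `(ℤ / n)ˣ` has an eigenvalue `1` or
`χ`.
-/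

set_option autoImplicit false
set_option linter.unusedSectionVars false

noncomputable section

open Fermat.CFT
open Polynomial (X C aeval)

namespace Fermat.HT.Descent

section Linear

variable {n : ℕ} [hn : Fact n.Prime] {W : Type*} [AddCommGroup W] [Finite W] {G : Type*} [Group G]

/-- Multiples in a group killed by `n` depend only on the class modulo `n`. -/
theorem nsmul_eq_of_cast_eq (hW : ∀ w : W, n • w = 0) {a b : ℕ} (h : (a : ZMod n) = b) (w : W) :
    a • w = b • w := by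
  have h1 : ∀ a : ℕ, a • w = (a % n) • w := fun a => by
    conv_lhs => rw [← Nat.mod_add_div a n, add_nsmul, mul_comm, mul_nsmul', hW, smul_zero, add_zero]
  rw [h1 a, h1 b, (ZMod.natCast_eq_natCast_iff' _ _ _).mp h]

/-- The kernel of `χ` acts through an `n`-group, so it fixes a nonzero vector. -/
private theorem exists_ne_zero_fixed_by_ker [Nontrivial W] (hW : ∀ w : W, n • w = 0)
    (ρ : G →* AddMonoid.End W) (χ : G →* (ZMod n)ˣ)
    (hnil : ∀ g, IsNilpotent ((ρ g - 1) *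
      (ρ g - ((((χ g : (ZMod n)ˣ) : ZMod n).val : ℕ) : AddMonoid.End W)))) :
    ∃ y : W, y ≠ 0 ∧ ∀ h, χ h = 1 → ρ h y = y := by
  classical
  obtain ⟨w₁, hw₁⟩ := exists_ne (0 : W)
  have : Nontrivial (AddMonoid.End W) :=
    ⟨⟨1, 0, fun h => hw₁ (DFunLike.congr_fun h w₁)⟩⟩
  have : CharP (AddMonoid.End W) n :=
    (CharP.charP_iff_prime_eq_zero hn.out).mpr
      (AddMonoidHom.ext fun w => (AddMonoid.End.natCast_apply n w).trans (hW w))
  let : MulAction G W :=
    { smul := fun g w => ρ g w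
      one_smul := fun w => by change ρ 1 w = w; rw [map_one]; rfl
      mul_smul := fun g g' w => by change ρ (g * g') w = ρ g (ρ g' w); rw [map_mul]; rfl }
  -- the kernel of `χ` acts through an `n`-group
  set P := (MulAction.toPermHom χ.ker W).range
  have hP : IsPGroup n P := by
    rintro ⟨_, h, rfl⟩
    have hh : χ (h : G) = 1 := h.2
    have hu : IsNilpotent (ρ (h : G) - 1) := by
      have h1 := hnil (h : G)
      rw [hh, Units.val_one, ZMod.val_one, Nat.cast_one, ← pow_two] at h1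
      exact IsNilpotent.of_pow h1
    obtain ⟨M, hM⟩ := hu
    refine ⟨M, Subtype.ext (Equiv.ext fun w => ?_)⟩
    rw [SubmonoidClass.coe_pow, ← map_pow]
    change ρ ((h : G) ^ n ^ M) w = w
    have h2 : (ρ (h : G) - 1) ^ n ^ M = 0 :=
      pow_eq_zero_of_le (Nat.lt_pow_self hn.out.one_lt).le hM
    rw [sub_pow_char_pow_of_commute n M (Commute.one_right _), one_pow, sub_eq_zero] at h2
    rw [map_pow, h2]
    rfl
  have hcard : n ∣ Nat.card W := by
    have h1 : addOrderOf w₁ = n :=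
      addOrderOf_eq_prime (hW w₁) hw₁
    exact h1 ▸ addOrderOf_dvd_natCard w₁
  obtain ⟨y, hy, hy0⟩ := hP.exists_fixed_point_of_prime_dvd_card_of_fixed_point W hcard
    (a := (0 : W)) (by rintro ⟨_, h, rfl⟩; exact map_zero (ρ (h : G)))
  exact ⟨y, hy0.symm, fun h hh => hy ⟨_, ⟨⟨h, hh⟩, rfl⟩⟩⟩

omit [Finite W] in
/-- A nilpotent endomorphism kills a nonzero element of any invariant set having one. -/
private theorem exists_ne_zero_apply_eq_zero {T : AddMonoid.End W} (hT : IsNilpotent T)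
    {S : Set W} (hS : ∀ x ∈ S, T x ∈ S) {y : W} (hy : y ∈ S) (hy0 : y ≠ 0) :
    ∃ x ∈ S, x ≠ 0 ∧ T x = 0 := by
  obtain ⟨M, hM⟩ := hT
  replace hM : (T ^ M) y = 0 := by rw [hM]; rfl
  induction M generalizing y with
  | zero => exact absurd hM hy0
  | succ M ih =>
    by_cases hTy : T y = 0
    · exact ⟨y, hy, hy0, hTy⟩
    · exact ih (hS y hy) hTy (by rw [pow_succ] at hM; exact hM)

/-- A group acting with `((g - 1) (g - χ g))` nilpotent has an eigenvector for `1` or for `χ`. -/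
theorem exists_eigvec [Nontrivial W] (hW : ∀ w : W, n • w = 0) (ρ : G →* AddMonoid.End W)
    (χ : G →* (ZMod n)ˣ) (hχ : Function.Surjective χ)
    (hnil : ∀ g, IsNilpotent ((ρ g - 1) *
      (ρ g - ((((χ g : (ZMod n)ˣ) : ZMod n).val : ℕ) : AddMonoid.End W)))) :
    ∃ w : W, w ≠ 0 ∧
      ((∀ g, ρ g w = w) ∨ ∀ g, ρ g w = (((χ g : (ZMod n)ˣ) : ZMod n).val) • w) := by
  obtain ⟨y, hy0, hyF⟩ := exists_ne_zero_fixed_by_ker hW ρ χ hnil
  let Fix : W → Prop := fun x => ∀ h, χ h = 1 → ρ h x = x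
  -- a generator of `(ℤ / n)ˣ`
  obtain ⟨g₀, hg₀⟩ := IsCyclic.exists_generator (α := (ZMod n)ˣ)
  obtain ⟨s, hs⟩ := hχ g₀
  set c : ℕ := ((χ s : (ZMod n)ˣ) : ZMod n).val
  have hFs : ∀ x, Fix x → Fix (ρ s x) := fun x hx h hh => by
    change (ρ h * ρ s) x = ρ s x
    rw [← map_mul, show h * s = s * (s⁻¹ * h * s) by group, map_mul]
    change ρ s (ρ (s⁻¹ * h * s) x) = ρ s x
    rw [hx _ (by rw [map_mul, map_mul, hh, mul_one, map_inv, inv_mul_cancel])]
  have hFsub : ∀ x x', Fix x → Fix x' → Fix (x - x') := fun x x' hx hx' h hh => by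
    rw [map_sub, hx h hh, hx' h hh]
  have hFnsmul : ∀ (j : ℕ) x, Fix x → Fix (j • x) := fun j x hx h hh => by
    rw [map_nsmul, hx h hh]
  obtain ⟨y', hy'F, hy'0, hy'D⟩ := exists_ne_zero_apply_eq_zero (hnil s) (S := {x | Fix x})
    (fun x hx => hFsub _ _ (hFs _ (hFsub _ _ (hFs _ hx) (hFnsmul c _ hx)))
      (hFsub _ _ (hFs _ hx) (hFnsmul c _ hx))) hyF hy0
  have key : ∀ (x : W), Fix x → ∀ g, ∃ i : ℕ, χ g = χ s ^ i ∧ ρ g x = (ρ s ^ i) x :=
      fun x hx g => by
    obtain ⟨i, hi⟩ := mem_powers_iff_mem_zpowers.mpr (hg₀ (χ g))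
    have hi' : χ g = χ s ^ i := by rw [hs]; exact hi.symm
    refine ⟨i, hi', ?_⟩
    conv_lhs => rw [show g = s ^ i * ((s ^ i)⁻¹ * g) by group, map_mul, map_pow]
    change (ρ s ^ i) (ρ ((s ^ i)⁻¹ * g) x) = (ρ s ^ i) x
    rw [hx _ (by rw [map_mul, map_inv, map_pow, hi', inv_mul_cancel])]
  by_cases hz : ρ s y' - c • y' = 0
  · refine ⟨y', hy'0, Or.inr fun g => ?_⟩
    obtain ⟨i, hi, hρ⟩ := key y' hy'F g
    have h1 : ∀ i : ℕ, (ρ s ^ i) y' = c ^ i • y' := by
      intro i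
      induction i with
      | zero => rw [pow_zero, pow_zero, one_nsmul]; rfl
      | succ i ih =>
        rw [pow_succ', pow_succ]
        change ρ s ((ρ s ^ i) y') = _
        rw [ih, map_nsmul, sub_eq_zero.mp hz, ← mul_nsmul']
    rw [hρ, h1]
    refine nsmul_eq_of_cast_eq hW ?_ _
    rw [Nat.cast_pow, ZMod.natCast_zmod_val, ZMod.natCast_zmod_val, hi, Units.val_pow_eq_pow_val]
  · refine ⟨_, hz, Or.inl fun g => ?_⟩
    have hzF : Fix (ρ s y' - c • y') := hFsub _ _ (hFs _ hy'F) (hFnsmul c _ hy'F)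
    obtain ⟨i, -, hρ⟩ := key _ hzF g
    have h1 : ρ s (ρ s y' - c • y') = ρ s y' - c • y' := sub_eq_zero.mp hy'D
    have h2 : ∀ i : ℕ, (ρ s ^ i) (ρ s y' - c • y') = ρ s y' - c • y' := by
      intro i
      induction i with
      | zero => rfl
      | succ i ih =>
        rw [pow_succ]
        change (ρ s ^ i) (ρ s (ρ s y' - c • y')) = _
        rw [h1]; exact ih
    rw [hρ, h2]

end Linear

section Powers

variable {R : Type*} [Ring R]

/-- If `(u - 1) (u - l)` and `n` are nilpotent and `c ≡ l ^ k` modulo `n`, then so is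
`(u ^ k - 1) (u ^ k - c)`. -/
theorem isNilpotent_pow_sub (u : R) {n l c k : ℕ} (hu : IsNilpotent ((u - 1) * (u - (l : R))))
    (hn : IsNilpotent (n : R)) {d : ℤ} (hd : (l : ℤ) ^ k - (c : ℤ) = (n : ℤ) * d) :
    IsNilpotent ((u ^ k - 1) * (u ^ k - (c : R))) := by
  obtain ⟨P, hP⟩ := sub_dvd_pow_sub_pow (X : Polynomial ℤ) 1 k
  obtain ⟨Q, hQ⟩ := sub_dvd_pow_sub_pow (X : Polynomial ℤ) (C (l : ℤ)) k
  have hpoly : (X ^ k - 1 : Polynomial ℤ) * (X ^ k - C (c : ℤ)) =
      (X - 1) * (X - C (l : ℤ)) * (P * Q) + C (n : ℤ) * (C d * (X ^ k - 1)) := by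
    rw [one_pow] at hP
    have hd' : C ((l : ℤ) ^ k - (c : ℤ)) = C (n : ℤ) * C d := by rw [hd, map_mul]
    rw [map_sub, map_pow] at hd'
    linear_combination (X ^ k - 1 : Polynomial ℤ) * hd' + (X ^ k - 1 : Polynomial ℤ) * hQ +
      ((X - C (l : ℤ)) * Q) * hP
  have h := congrArg (aeval u) hpoly
  simp only [map_mul, map_add, map_sub, map_pow, Polynomial.aeval_X, map_one, map_natCast] at h
  rw [h]
  have hc : ∀ a b : Polynomial ℤ, Commute (aeval u a) (aeval u b) := fun a b => by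
    change aeval u a * aeval u b = aeval u b * aeval u a
    rw [← map_mul, ← map_mul, mul_comm]
  refine Commute.isNilpotent_add ?_ ?_ ?_
  · have h1 := hc ((X - 1) * (X - C (l : ℤ)) * (P * Q)) (C (n : ℤ) * (C d * (X ^ k - 1)))
    rw [map_mul, map_mul, map_mul, map_mul, map_mul, map_sub, map_sub, map_sub, map_pow,
      Polynomial.aeval_X, map_one, Polynomial.aeval_C, Polynomial.aeval_C, map_natCast,
      map_natCast] at h1
    simpa using h1
  · refine Commute.isNilpotent_mul_right ?_ hu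
    have h1 := hc ((X - 1) * (X - C (l : ℤ))) (P * Q)
    rw [map_mul, map_mul, map_sub, map_sub, Polynomial.aeval_X, map_one, Polynomial.aeval_C,
      map_natCast] at h1
    exact h1
  · exact Commute.isNilpotent_mul_right (Nat.cast_commute n _) hn

end Powers

section Galois

local notation "ℚbar" => AlgebraicClosure ℚ
local notation "Γℚ" => (AlgebraicClosure ℚ ≃ₐ[ℚ] AlgebraicClosure ℚ)

variable {n : ℕ} [hn : Fact n.Prime] {V : Type*} [AddCommGroup V] [Finite V]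
  [DistribMulAction Γℚ V]

/-- Galois as endomorphisms. -/
abbrev galEnd (V : Type*) [AddCommGroup V] [DistribMulAction Γℚ V] : Γℚ →* AddMonoid.End V :=
  DistribMulAction.toAddMonoidEnd Γℚ V

/-- Chebotarev: it is enough to check Frobenius elements. -/
theorem isNilpotent_of_frobenius {r p : ℕ} (hkill : ∀ v : V, n ^ r • v = 0)
    (hsmooth : ∃ L : IntermediateField ℚ ℚbar, FiniteDimensional ℚ L ∧
      ∀ σ ∈ L.fixingSubgroup, ∀ v : V, σ • v = v)
    (hfrob : ∀ ℓ : ℕ, ℓ.Prime → ℓ ≠ n → ℓ ≠ p → ∀ A : ValuationSubring ℚbar, A.LiesOverPrime ℓ →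
      ∀ φ : Γℚ, A.IsFrobeniusAt φ ℓ →
        IsNilpotent ((galEnd V φ - 1) * (galEnd V φ - (ℓ : AddMonoid.End V))))
    (σ : Γℚ) :
    IsNilpotent ((galEnd V σ - 1) * (galEnd V σ - (cexp n σ : AddMonoid.End V))) := by
  classical
  have : NeZero n := ⟨hn.out.ne_zero⟩
  set ρ := (MulAction.toPermHom Γℚ V).prod (cycChar n)
  have hρ : IsOpen (ρ.ker : Set Γℚ) := by
    rw [MonoidHom.ker_prod, Subgroup.coe_inf]
    obtain ⟨L, hL, h⟩ := hsmooth
    exact IsOpen.inter (Subgroup.isOpen_mono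
      (fun σ hσ => MonoidHom.mem_ker.mpr (Equiv.ext (h σ hσ))) L.fixingSubgroup_isOpen)
      (isOpen_cycChar_ker n)
  obtain ⟨ℓ, hℓ, hT, A, hA, -, φ, hφ, k, hk⟩ := exists_frobenius_map_eq_pow ρ hρ σ {n, p}
  simp only [Finset.mem_insert, Finset.mem_singleton, not_or] at hT
  have hu : galEnd V σ = galEnd V φ ^ k := by
    rw [← map_pow]
    refine AddMonoidHom.ext fun v => ?_
    rw [← map_pow ρ] at hk
    exact Equiv.congr_fun (congrArg Prod.fst hk) v
  have hc : (((ℓ : ℤ) ^ k - (cexp n σ : ℤ) : ℤ) : ZMod n) = 0 := by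
    have h1 : cycChar n σ = cycChar n φ ^ k := congrArg Prod.snd hk
    rw [Int.cast_sub, Int.cast_pow, Int.cast_natCast, Int.cast_natCast, cexp, ZMod.natCast_zmod_val,
      h1, Units.val_pow_eq_pow_val, cycChar_frobenius hℓ hT.1 hA hφ, sub_self]
  obtain ⟨d, hd⟩ := (ZMod.intCast_zmod_eq_zero_iff_dvd _ _).mp hc
  rw [hu]
  refine isNilpotent_pow_sub _ (hfrob ℓ hℓ hT.1 hT.2 A hA φ hφ) ⟨r, ?_⟩ hd
  rw [← Nat.cast_pow]
  exact AddMonoidHom.ext fun v => (AddMonoid.End.natCast_apply _ v).trans (hkill v)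

/-- Pieces are `ℤ / n` or `μ_n` when every `(σ - 1) (σ - χ σ)` is nilpotent. -/
theorem exists_piece {r : ℕ} (hkill : ∀ v : V, n ^ r • v = 0)
    (hnil : ∀ σ : Γℚ,
      IsNilpotent ((galEnd V σ - 1) * (galEnd V σ - (cexp n σ : AddMonoid.End V))))
    (A : AddSubgroup V) (hA : ∀ σ : Γℚ, ∀ a ∈ A, σ • a ∈ A) (hne : A ≠ ⊤) :
    ∃ b ∉ A, n • b ∈ A ∧
      ((∀ σ : Γℚ, σ • b - b ∈ A) ∨ ∀ σ : Γℚ, σ • b - cexp n σ • b ∈ A) := by
  classical
  let act : Γℚ → (V ⧸ A) →+ (V ⧸ A) := fun σ =>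
    QuotientAddGroup.map A A (DistribSMul.toAddMonoidHom V σ) fun a ha => hA σ a ha
  have hact : ∀ σ (v : V), act σ (v : V ⧸ A) = ((σ • v : V) : V ⧸ A) := fun σ v => rfl
  let ρ : Γℚ →* AddMonoid.End (tors (G := V ⧸ A) n) :=
    { toFun := fun σ => AddMonoidHom.mk'
        (fun w => ⟨act σ w.1, by rw [mem_tors, ← map_nsmul, mem_tors.mp w.2, map_zero]⟩)
        fun a b => Subtype.ext (map_add (act σ) _ _)
      map_one' := AddMonoidHom.ext fun w => Subtype.ext (by
        obtain ⟨w, hw⟩ := w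
        induction w using QuotientAddGroup.induction_on with
        | H v => exact (hact 1 v).trans (by rw [one_smul]; rfl))
      map_mul' := fun σ τ => AddMonoidHom.ext fun w => Subtype.ext (by
        obtain ⟨w, hw⟩ := w
        induction w using QuotientAddGroup.induction_on with
        | H v => exact (hact (σ * τ) v).trans (by rw [mul_smul]; rfl)) }
  -- the `n`-torsion of `V / A` is not zero
  have : Nontrivial (tors (G := V ⧸ A) n) := by
    obtain ⟨b, hb⟩ : ∃ b : V, b ∉ A := by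
      by_contra h
      push Not at h
      exact hne (eq_top_iff.mpr fun b _ => h b)
    have hex : ∃ j, n ^ j • b ∈ A := ⟨r, by rw [hkill]; exact zero_mem A⟩
    obtain ⟨j, hj⟩ : ∃ j, Nat.find hex = j + 1 := by
      refine Nat.exists_eq_succ_of_ne_zero fun h => hb ?_
      have := Nat.find_spec hex
      rwa [h, pow_zero, one_nsmul] at this
    have h1 := Nat.find_spec hex
    rw [hj, pow_succ', mul_nsmul'] at h1
    refine ⟨⟨⟨((n ^ j • b : V) : V ⧸ A), ?_⟩, 0, fun h => ?_⟩⟩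
    · rw [mem_tors, ← QuotientAddGroup.mk_nsmul]
      exact (QuotientAddGroup.eq_zero_iff _).mpr h1
    · exact Nat.find_min hex (m := j) (by omega)
        ((QuotientAddGroup.eq_zero_iff _).mp (congrArg Subtype.val h))
  have hnilW : ∀ σ, IsNilpotent ((ρ σ - 1) *
      (ρ σ - ((((cycChar n σ : (ZMod n)ˣ) : ZMod n).val : ℕ) :
        AddMonoid.End (tors (G := V ⧸ A) n)))) := fun σ => by
    obtain ⟨M, hM⟩ := hnil σ
    set DV := (galEnd V σ - 1) * (galEnd V σ - (cexp n σ : AddMonoid.End V))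
    set DW := (ρ σ - 1) * (ρ σ - (cexp n σ : AddMonoid.End (tors (G := V ⧸ A) n)))
    have h1 : ∀ (j : ℕ) (w : tors (G := V ⧸ A) n) (v : V), (w : V ⧸ A) = (v : V ⧸ A) →
        (((DW ^ j) w : tors (G := V ⧸ A) n) : V ⧸ A) = (((DV ^ j) v : V) : V ⧸ A) := by
      intro j
      induction j with
      | zero => intro w v h; exact h
      | succ j ih =>
        intro w v h
        rw [pow_succ, pow_succ]
        refine ih (DW w) (DV v) ?_
        change act σ (act σ w.1 - (cexp n σ : ℕ) • w.1) - (act σ w.1 - (cexp n σ : ℕ) • w.1) = _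
        rw [h, hact, ← QuotientAddGroup.mk_nsmul, ← QuotientAddGroup.mk_sub, hact,
          ← QuotientAddGroup.mk_sub]
        rfl
    refine ⟨M, AddMonoidHom.ext fun w => Subtype.ext ?_⟩
    obtain ⟨v, hv⟩ := QuotientAddGroup.mk_surjective w.1
    refine (h1 M w v hv.symm).trans ?_
    rw [hM]
    rfl
  -- an eigenvector there gives the piece
  obtain ⟨⟨w, hw⟩, hw0, h⟩ := exists_eigvec
    (fun w : tors (G := V ⧸ A) n => Subtype.ext (mem_tors.mp w.2))
    ρ (cycChar n) (cycChar_surjective n) hnilW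
  obtain ⟨b, rfl⟩ := QuotientAddGroup.mk_surjective w
  refine ⟨b, fun hb => hw0 (Subtype.ext ((QuotientAddGroup.eq_zero_iff _).mpr hb)),
    (QuotientAddGroup.eq_zero_iff _).mp hw, ?_⟩
  refine h.imp (fun h σ => ?_) (fun h σ => ?_) <;> rw [← QuotientAddGroup.eq_zero_iff,
    QuotientAddGroup.mk_sub, sub_eq_zero]
  · exact congrArg Subtype.val (h σ)
  · exact congrArg Subtype.val (h σ)

end Galois

section Module

open ModularCurve
open Fermat.EC.Val (IsPlace)
open Fermat.GR (FullHecke)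
open Fermat.JAC.X0 (jAct)
open Fermat.HT.Cusp (Red)

local notation "ℚbar" => AlgebraicClosure ℚ
local notation "Γℚ" => (AlgebraicClosure ℚ ≃ₐ[ℚ] AlgebraicClosure ℚ)

variable {p : ℕ} [hp : Fact p.Prime] [NeZero p] {n : ℕ} [hn : Fact n.Prime] {r : ℕ}
  {e : FullHecke p} {θ : FullHecke p →+* ZMod n}

/-- A Hecke operator as an endomorphism. -/
def opEnd (t : FullHecke p) : AddMonoid.End (eisV p n r e) := opV n r e t

/-- Powers of `opEnd` are the operators of the powers. -/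
theorem opEnd_pow (t : FullHecke p) (j : ℕ) (v : eisV p n r e) :
    (((opEnd (n := n) (r := r) (e := e) t ^ j) v : eisV p n r e) : JZero p) =
      jAct p (t ^ j) v.1 := by
  induction j with
  | zero => rw [pow_zero, pow_zero, jAct_one]; rfl
  | succ j ih =>
    rw [pow_succ', pow_succ', jAct_mul, ← ih]
    rfl

/-- The congruence relation, factored as `(φ - 1) (φ - ℓ) = (T ℓ - ℓ - 1) φ`. -/
theorem galEnd_quadratic {ℓ : ℕ} (hℓ : ℓ.Prime) (hℓn : ℓ ≠ n) (hℓp : ¬ ℓ ∣ p)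
    {A : ValuationSubring ℚbar} (hA : A.LiesOverPrime ℓ) {φ : Γℚ} (hφ : A.IsFrobeniusAt φ ℓ)
    (x : JZero p) (hx : n ^ r • x = 0) :
    φ • (φ • x - ℓ • x) - (φ • x - ℓ • x) =
      jAct p (CuspForm.heckeAlgebra.T hℓ hℓp (Set.notMem_empty ℓ) - ((ℓ + 1 : ℕ) : FullHecke p))
        (φ • x) := by
  have h := (esIn p n).frobenius_quadratic ℓ hℓ (fun h => (hℓ.dvd_mul.mp h).elim hℓp
      fun h => hℓn ((Nat.prime_dvd_prime_iff_eq hℓ hn.out).mp h)) A hA φ hφ x ⟨r, hx⟩
  rw [← Fermat.JAC.X0.jAct_T p hℓ hℓp] at h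
  rw [map_sub (jAct p)]
  refine Eq.trans ?_ (congrArg₂ (· - ·) rfl (jAct_natCast (ℓ + 1) (φ • x)).symm)
  rw [smul_sub, nsmul_galois, ← sub_eq_zero, ← h, succ_nsmul]
  abel

/-- Frobenius satisfies `(φ - 1) (φ - ℓ)` up to nilpotents. -/
theorem isNilpotent_frobenius
    (hθT : ∀ ℓ (hℓ : ℓ.Prime) (hℓp : ¬ ℓ ∣ p),
      θ (CuspForm.heckeAlgebra.T hℓ hℓp (Set.notMem_empty ℓ)) = (ℓ + 1 : ℕ))
    (he : IsEisIdem θ r e) {ℓ : ℕ} (hℓ : ℓ.Prime) (hℓn : ℓ ≠ n) (hℓp : ℓ ≠ p)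
    {A : ValuationSubring ℚbar} (hA : A.LiesOverPrime ℓ) {φ : Γℚ} (hφ : A.IsFrobeniusAt φ ℓ) :
    IsNilpotent ((galEnd (eisV p n r e) φ - 1) *
      (galEnd (eisV p n r e) φ - (ℓ : AddMonoid.End (eisV p n r e)))) := by
  have hℓp' : ¬ ℓ ∣ p := fun h => hℓp ((Nat.prime_dvd_prime_iff_eq hℓ hp.out).mp h)
  set t : FullHecke p := CuspForm.heckeAlgebra.T hℓ hℓp' (Set.notMem_empty ℓ) -
    ((ℓ + 1 : ℕ) : FullHecke p)
  have hcomm : Commute (opEnd (n := n) (r := r) (e := e) t) (galEnd (eisV p n r e) φ) :=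
    AddMonoidHom.ext fun v => Subtype.ext (smul_jAct p φ t v.1).symm
  have heq : (galEnd (eisV p n r e) φ - 1) *
      (galEnd (eisV p n r e) φ - (ℓ : AddMonoid.End (eisV p n r e))) =
      opEnd t * galEnd (eisV p n r e) φ := AddMonoidHom.ext fun v => Subtype.ext
    (galEnd_quadratic hℓ hℓn hℓp' hA hφ v.1 v.2.1)
  rw [heq]
  obtain ⟨j, hj⟩ := he.nil t (by rw [map_sub, hθT, map_natCast, sub_self])
  refine hcomm.isNilpotent_mul_right ⟨j, AddMonoidHom.ext fun v => Subtype.ext ?_⟩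
  refine (opEnd_pow t j v).trans ?_
  change jAct p (t ^ j) v.1 = 0
  conv_lhs => rw [← v.2.2, ← jAct_mul]
  rw [jAct_eq_of_sub_mem (b := 0) (by rwa [sub_zero]) v.2.1, map_zero]
  rfl

/-- The module of an Eisenstein idempotent has residual pieces `ℤ / n` and `μ_n` only. -/
theorem residual_ctxV (R : Red p) {k : ℕ} (hR : R.ℓ = n) {Ap : ValuationSubring ℚbar}
    (hAp : IsPlace Ap p) (he : e * e - e ∈ lvl p n (r + k))
    (hiso : ∀ a ∈ kerV n (r + k) e R, ∀ b ∈ kerV n (r + k) e R,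
      pairV n (r + k) e (n ^ k • a) b = 0)
    (hθT : ∀ ℓ (hℓ : ℓ.Prime) (hℓp : ¬ ℓ ∣ p),
      θ (CuspForm.heckeAlgebra.T hℓ hℓp (Set.notMem_empty ℓ)) = (ℓ + 1 : ℕ))
    (heis : IsEisIdem θ r e) :
    letI : Fact (ctxV r R k hR hAp he hiso).n.Prime := hn
    (ctxV r R k hR hAp he hiso).Residual := by
  have := finite_eisV (p := p) (n := n) (r := r) (e := e) hn.out.ne_zero
  exact exists_piece (n := n) (V := eisV p n r e) (r := r) killed_eisV
    (isNilpotent_of_frobenius (n := n) (p := p) killed_eisV smooth_eisV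
      fun ℓ hℓ hℓn hℓp A hA φ hφ => isNilpotent_frobenius hθT heis hℓ hℓn hℓp hA hφ)

end Module

end Fermat.HT.Descent

end
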