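import Fermat.Agent.HT.Descent.FrobN
import Fermat.Agent.HT.Descent.Residual
import Fermat.Agent.HT.Descent.AtP
import Fermat.Agent.HT.MW.Weak

/-!
# The Eisenstein part of `J₀(p)(ℚ)` is torsion

The output of the folder, used in `HT/Mazur/StepThree`. The descent bound (`Bound`) on the contexts
`ctxV` shows that a fixed nonzero multiple of `e x` lies in `n ^ r J₀(p)(ℚ)` for the Eisenstein
idempotents `e` modulo `n ^ (r + k)` (`exists_uniform_div`). If the Hecke algebra acted faithfully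
modulo torsion this would force `θ = 0`; hence some `t` not divisible by `ℓ` in the Hecke algebra
kills the rational points modulo torsion (`exists_annihilator`).
-/

set_option autoImplicit false
set_option linter.unusedSectionVars false

noncomputable section

open ModularCurve Fermat.EC.Val

namespace Fermat.HT.Descent

open Fermat.GR (FullHecke)
open Fermat.JAC.X0 (jAct)
open Fermat.HT.Cusp (Red)
open Fermat.HT.MW (RatPts)

local notation "ℚbar" => AlgebraicClosure ℚ
local notation "Γℚ" => (AlgebraicClosure ℚ ≃ₐ[ℚ] AlgebraicClosure ℚ)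

/-! ### Kummer classes of rational points -/

section Classes

variable {p : ℕ} [hp : Fact p.Prime] [NeZero p] {n : ℕ} [hn : Fact n.Prime] (R : Red p)
  {r k : ℕ} {e : FullHecke p} (hR : R.ℓ = n) {Ap : ValuationSubring ℚbar} (hAp : IsPlace Ap p)
  (he : e * e - e ∈ lvl p n (r + k))
  (hiso : ∀ a ∈ kerV n (r + k) e R, ∀ b ∈ kerV n (r + k) e R,
    pairV n (r + k) e (n ^ k • a) b = 0)

include hR hAp he hiso in
/-- A division point of a rational point gives a Selmer cocycle of some finite normal level. -/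
theorem exists_cocycle {x y : JZero p} (hx : ∀ σ : Γℚ, σ • x = x) (hy : n ^ (r + k) • y = x) :
    ∃ (L : IntermediateField ℚ ℚbar) (_ : FiniteDimensional ℚ L) (_ : Normal ℚ L),
      (∀ σ ∈ L.fixingSubgroup, ∀ v : eisV p n r e, σ • v = v) ∧
      ∃ c ∈ (ctxV r R k hR hAp he hiso).levelSel L,
        ∀ σ : Γℚ, ((c σ : eisV p n r e) : JZero p) = n ^ k • jAct p e (σ • y - y) := by
  obtain ⟨L₁, hL₁, h₁⟩ := Fermat.GR.exists_field_fix_point y
  obtain ⟨L₂, hL₂, h₂⟩ := smooth_eisV (p := p) (n := n) (r := r) (e := e)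
  have := hL₁
  have := hL₂
  obtain ⟨L, hL, hLn, hLle⟩ := Fermat.CFT.exists_normal_fixingSubgroup_le
    (U := (L₁ ⊔ L₂).fixingSubgroup) (L₁ ⊔ L₂).fixingSubgroup_isOpen
  refine ⟨L, hL, hLn, fun σ hσ => h₂ σ
    (IntermediateField.fixingSubgroup_antitone le_sup_right (hLle hσ)), ?_⟩
  have hd : ∀ σ : Γℚ, n ^ (r + k) • (σ • y - y) = 0 := fun σ => by
    rw [nsmul_sub, ← nsmul_galois, hy, hx, sub_self]
  let a : Γℚ → eisV p n (r + k) e := fun σ => ⟨jAct p e (σ • y - y), proj_mem_eisV he (hd σ)⟩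
  set C := ctxV r R k hR hAp he hiso
  have hfixy : ∀ τ ∈ L.fixingSubgroup, τ • y = y := fun τ hτ => h₁ τ fun z hz =>
    (IntermediateField.mem_fixingSubgroup_iff _ τ).mp
      (IntermediateField.fixingSubgroup_antitone le_sup_left (hLle hτ)) z hz
  have hlev : ∀ σ : Γℚ, ∀ τ ∈ L.fixingSubgroup, a (σ * τ) = a σ := fun σ τ hτ =>
    Subtype.ext (by
      change jAct p e ((σ * τ) • y - y) = jAct p e (σ • y - y)
      rw [mul_smul, hfixy τ hτ])
  -- the cocycle `σ ↦ n ^ k e (σ y - y)`: unramified away from `n p`, in `V0` on inertia at `n`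
  refine ⟨fun σ => shrinkV n r k e (a σ), ⟨C.mem_sel ⟨fun σ τ => ?_, L, hL, fun σ τ hτ =>
    congrArg (shrinkV n r k e) (hlev σ τ hτ)⟩ (fun l hl hln hlp A hA σ hσ => ?_)
    (fun σ hσ => ?_), fun σ τ hτ => congrArg (shrinkV n r k e) (hlev σ τ hτ)⟩, fun σ => rfl⟩
  · change shrinkV n r k e (a (σ * τ)) = shrinkV n r k e (a σ) + σ • shrinkV n r k e (a τ)
    rw [← shrinkV_smul, ← map_add]
    refine congrArg _ (Subtype.ext ?_)
    change jAct p e ((σ * τ) • y - y) = jAct p e (σ • y - y) + σ • jAct p e (τ • y - y)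
    rw [smul_jAct, ← map_add, mul_smul, smul_sub]
    congr 1
    abel
  · have h0 := inertia_fixes_divided hx hy hl hln hlp hA hσ
    rw [show a σ = 0 from Subtype.ext (by
      change jAct p e (σ • y - y) = 0
      rw [h0, sub_self, map_zero]), map_zero]
  · exact ⟨a σ, (mem_kerV R).mpr (redJ_jAct R e (redJ_inertia R hσ y)), rfl⟩

include hR hAp he hiso in
/-- Under the descent bound, `M0! • e x` is divisible by `n ^ r` among the rational points. -/
theorem exists_rational_div {M0 : ℕ}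
    (hM : ∀ (L : IntermediateField ℚ ℚbar) (_ : FiniteDimensional ℚ L) (_ : Normal ℚ L),
      (∀ σ ∈ L.fixingSubgroup, ∀ v : eisV p n r e, σ • v = v) →
      Finite ((ctxV r R k hR hAp he hiso).levelSel L) ∧
        Nat.card ((ctxV r R k hR hAp he hiso).levelSel L) ≤
          Nat.card (Ctx.cobd : eisV p n r e →+ _).range * M0)
    (x : RatPts p) :
    ∃ z : RatPts p, n ^ r • (z : JZero p) = M0.factorial • jAct p e (x : JZero p) := by
  obtain ⟨y, hy⟩ := Fermat.RED.picDivisible_modularFunctionFieldBar p (n ^ (r + k))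
    (pow_ne_zero _ hn.out.ne_zero) (x : JZero p)
  obtain ⟨L, hL, hLn, hfix, c, hc, hcσ⟩ := exists_cocycle R hR hAp he hiso x.2 hy
  obtain ⟨hfin, hcard⟩ := hM L hL hLn hfix
  set C := ctxV r R k hR hAp he hiso
  have := hfin
  set B : AddSubgroup (C.levelSel L) :=
    (Ctx.cobd : eisV p n r e →+ _).range.addSubgroupOf (C.levelSel L)
  have hle : (Ctx.cobd : eisV p n r e →+ _).range ≤ C.levelSel L := by
    rintro _ ⟨b, rfl⟩
    exact ⟨C.cobd_mem b, fun σ τ hτ => by
      change (σ * τ) • b - b = σ • b - b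
      rw [mul_smul, hfix τ hτ]⟩
  have hBc : Nat.card B = Nat.card (Ctx.cobd : eisV p n r e →+ _).range :=
    Nat.card_congr (AddSubgroup.addSubgroupOfEquivOfLe hle).toEquiv
  -- `M0!` kills the Selmer classes modulo coboundaries
  have hq : Nat.card (C.levelSel L ⧸ B) ≤ M0 := by
    refine Nat.le_of_mul_le_mul_left ?_ (Nat.card_pos (α := B))
    rw [mul_comm, ← AddSubgroup.card_eq_card_quotient_mul_card_addSubgroup, hBc]
    exact hcard
  have hdvd : Nat.card (C.levelSel L ⧸ B) ∣ M0.factorial := Nat.dvd_factorial Nat.card_pos hq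
  have hmem : M0.factorial • (⟨c, hc⟩ : C.levelSel L) ∈ B := by
    rw [← QuotientAddGroup.eq_zero_iff, QuotientAddGroup.mk_nsmul]
    exact addOrderOf_dvd_iff_nsmul_eq_zero.mp ((addOrderOf_dvd_natCard _).trans hdvd)
  -- correct `M0! n ^ k e y` by the coboundary to a rational point
  obtain ⟨b, hb⟩ := (AddSubgroup.mem_addSubgroupOf.mp hmem)
  refine ⟨⟨M0.factorial • n ^ k • jAct p e y - (b : JZero p), fun σ => ?_⟩, ?_⟩
  · have h1 : σ • (b : JZero p) - (b : JZero p) = M0.factorial • n ^ k • jAct p e (σ • y - y) := by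
      rw [← hcσ σ]
      exact congrArg (fun f : Γℚ → eisV p n r e => ((f σ : eisV p n r e) : JZero p)) hb
    rw [map_sub (jAct p e), ← smul_jAct, nsmul_sub, nsmul_sub] at h1
    rw [smul_sub, nsmul_galois, nsmul_galois, ← sub_eq_zero, ← sub_eq_zero.mpr h1.symm]
    abel
  · change n ^ r • (M0.factorial • n ^ k • jAct p e y - (b : JZero p)) = _
    have e1 : n ^ r • n ^ k • jAct p e y = jAct p e (x : JZero p) := by
      rw [← mul_nsmul', ← pow_add, ← map_nsmul, hy]
    rw [nsmul_sub, b.2.1, sub_zero, smul_comm (n ^ r) M0.factorial, e1]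

end Classes

/-! ### The uniform bound -/

variable (p : ℕ) [hp : Fact p.Prime] [NeZero p]

/-- The rational torsion of `J₀(p)` is finite, by the finite generation of the rational points. -/
theorem finite_ratTorsion : Finite {x : JZero p // (∀ σ : Γℚ, σ • x = x) ∧ IsOfFinAddOrder x} := by
  have : AddGroup.FG (RatPts p) := Fermat.HT.MW.fg_ratPts p
  have : Module.Finite ℤ (RatPts p) := Module.Finite.iff_addGroup_fg.mpr inferInstance
  have : Module.Finite ℤ (Submodule.torsion ℤ (RatPts p)) :=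
    Module.Finite.of_injective (Submodule.torsion ℤ (RatPts p)).subtype Subtype.val_injective
  have : Finite (Submodule.torsion ℤ (RatPts p)) :=
    Module.finite_of_fg_torsion _ (Submodule.torsion_isTorsion)
  refine Finite.of_injective (fun x => (⟨⟨x.1, x.2.1⟩, ?_⟩ : Submodule.torsion ℤ (RatPts p)))
    fun a b h => Subtype.ext (congrArg (fun z : Submodule.torsion ℤ (RatPts p) =>
      ((z.1 : RatPts p) : JZero p)) h)
  obtain ⟨m, hm, hmx⟩ := isOfFinAddOrder_iff_nsmul_eq_zero.mp x.2.2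
  refine ⟨⟨(m : ℤ), mem_nonZeroDivisors_of_ne_zero (Int.natCast_ne_zero.mpr hm.ne')⟩, ?_⟩
  change (m : ℤ) • (⟨x.1, x.2.1⟩ : RatPts p) = 0
  rw [natCast_zsmul]
  exact Subtype.ext hmx

variable {p} in
/-- The module has at most as many elements as its coboundaries times the rational torsion. -/
theorem card_le_cobd_mul {n r : ℕ} [hn : Fact n.Prime] {e : FullHecke p} :
    Nat.card (eisV p n r e) ≤ Nat.card (Ctx.cobd : eisV p n r e →+ _).range *
      Nat.card {x : JZero p // (∀ σ : Γℚ, σ • x = x) ∧ IsOfFinAddOrder x} := by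
  have := finite_ratTorsion p
  have := finite_eisV (p := p) (n := n) (r := r) (e := e) hn.out.ne_zero
  set f : eisV p n r e →+ (Γℚ → eisV p n r e) := Ctx.cobd
  rw [AddSubgroup.card_eq_card_quotient_mul_card_addSubgroup f.ker,
    Nat.card_congr (QuotientAddGroup.quotientKerEquivRange f).toEquiv]
  refine Nat.mul_le_mul_left _ (Nat.card_le_card_of_injective
    (fun v : f.ker => (⟨(v.1 : JZero p), fun σ => ?_, ?_⟩ :
      {x : JZero p // (∀ σ : Γℚ, σ • x = x) ∧ IsOfFinAddOrder x})) fun a b h => ?_)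
  · exact congrArg Subtype.val (sub_eq_zero.mp (congrFun (AddMonoidHom.mem_ker.mp v.2) σ))
  · exact isOfFinAddOrder_iff_nsmul_eq_zero.mpr ⟨n ^ r, pow_pos hn.out.pos r, v.1.2.1⟩
  · exact Subtype.ext (Subtype.ext (congrArg
      (fun z : {x : JZero p // (∀ σ : Γℚ, σ • x = x) ∧ IsOfFinAddOrder x} => z.1) h))

/-- A prime dividing the Eisenstein numerator is different from `p`. -/
theorem ne_of_dvd_numerator {n : ℕ} (hn : n.Prime) (h : n ∣ eisensteinNumerator p) : n ≠ p := by
  intro he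
  have h5 := five_le_of_dvd hn h
  have := Nat.le_of_dvd (by omega) (h.trans (eisensteinNumerator_dvd p))
  omega

variable {p}

/-- The arithmetic of the descent bound: the level dependent sizes `X`, `V0`, `F ^ r` cancel and
leave `cob` times a constant. -/
theorem bound_arith {M X V V0 cob T F Q r k C K1 K2 tN tn tp : ℕ} (hX : 0 < X)
    (hbound : M * X ≤ V * V0 * (tn * tn) * tp) (hV : V ≤ cob * T) (hV0 : V0 ≤ F ^ (r + k))
    (hF : F ≤ Q) (hVX : V ≤ K1 * K2 ^ 2 * X ^ 2) {G : ℕ} (hG : G ^ 2 ≤ C * V)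
    (hGF : F ^ r ≤ G) (hn : tn ≤ tN) (hp : tp ≤ K2) :
    M ≤ cob * (T * (Q ^ (2 * k) * C * (K1 * K2 ^ 2) * (tN * tN) * K2)) := by
  have hA : V0 ≤ Q ^ (2 * k) * C * (K1 * K2 ^ 2) * X := by
    refine le_of_pow_le_pow_left₀ two_ne_zero (Nat.zero_le _) ?_
    calc V0 ^ 2 ≤ (F ^ (r + k)) ^ 2 := Nat.pow_le_pow_left hV0 2
      _ = (F ^ r) ^ 2 * F ^ (2 * k) := by ring
      _ ≤ C * (K1 * K2 ^ 2 * X ^ 2) * Q ^ (2 * k) :=
          Nat.mul_le_mul ((Nat.pow_le_pow_left hGF 2).trans (hG.trans (Nat.mul_le_mul_left C hVX)))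
            (Nat.pow_le_pow_left hF _)
      _ = Q ^ (2 * k) * C * (K1 * K2 ^ 2) * X ^ 2 := by ring
      _ ≤ (Q ^ (2 * k) * C * (K1 * K2 ^ 2) * X) ^ 2 := by
          rw [mul_pow]; exact Nat.mul_le_mul_right _ (Nat.le_self_pow two_ne_zero _)
  refine Nat.le_of_mul_le_mul_right ?_ hX
  refine hbound.trans ((Nat.mul_le_mul (Nat.mul_le_mul (Nat.mul_le_mul hV hA)
    (Nat.mul_le_mul hn hn)) hp).trans_eq ?_)
  ring

/-- `V0` of the context, an image of the kernel of reduction, is no larger than that kernel. -/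
theorem card_V0_le {n r k : ℕ} [hn : Fact n.Prime] {e : FullHecke p} (R : Red p) (hR : R.ℓ = n)
    {Ap : ValuationSubring ℚbar} (hAp : IsPlace Ap p) (he : e * e - e ∈ lvl p n (r + k))
    (hiso : ∀ a ∈ kerV n (r + k) e R, ∀ b ∈ kerV n (r + k) e R,
      pairV n (r + k) e (n ^ k • a) b = 0) :
    Nat.card (ctxV r R k hR hAp he hiso).V0 ≤ Nat.card (kerV n (r + k) e R) := by
  have := finite_eisV (p := p) (n := n) (r := r + k) (e := e) hn.out.ne_zero
  exact Nat.card_le_card_of_surjective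
    (fun v : kerV n (r + k) e R =>
      (⟨shrinkV n r k e v.1, v.1, v.2, rfl⟩ : (ctxV r R k hR hAp he hiso).V0))
    fun ⟨_, v, hv, hvw⟩ => ⟨⟨v, hv⟩, Subtype.ext hvw⟩

/-- The Selmer classes are uniformly few. -/
theorem card_levelSel_le_cobd {n r k : ℕ} [hn : Fact n.Prime] (R : Red p) (hat : AtPHyp p)
    {θ : FullHecke p →+* ZMod n}
    (hθT : ∀ ℓ (hℓ : ℓ.Prime) (hℓp : ¬ ℓ ∣ p),
      θ (CuspForm.heckeAlgebra.T hℓ hℓp (Set.notMem_empty ℓ)) = (ℓ + 1 : ℕ))
    (hR : R.ℓ = n) {Ap : ValuationSubring ℚbar} (hAp : IsPlace Ap p) (hr : r ≠ 0) {e : FullHecke p}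
    (he : IsEisIdem θ (r + k) e)
    (hiso : ∀ a ∈ kerV n (r + k) e R, ∀ b ∈ kerV n (r + k) e R,
      pairV n (r + k) e (n ^ k • a) b = 0)
    {N : ℕ} (hN : N ≠ 0)
    (hFn : ∀ (r k : ℕ) (e : FullHecke p) {Ap : ValuationSubring ℚbar} (hAp : IsPlace Ap p)
      (he : e * e - e ∈ lvl p n (r + k))
      (hiso : ∀ a ∈ kerV n (r + k) e R, ∀ b ∈ kerV n (r + k) e R,
        pairV n (r + k) e (n ^ k • a) b = 0),
      ∃ Fn : (ctxV r R k hR hAp he hiso).FrobN, Fn.N = N)
    {C : ℕ} (hge : Nat.card (factor (n := n) e r) ^ 2 ≤ C * Nat.card (eisV p n r e))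
    (L : IntermediateField ℚ ℚbar) [FiniteDimensional ℚ L] [Normal ℚ L]
    (hfix : ∀ σ ∈ L.fixingSubgroup, ∀ v : eisV p n r e, σ • v = v) :
    Finite ((ctxV r R k hR hAp he.idem hiso).levelSel L) ∧
      Nat.card ((ctxV r R k hR hAp he.idem hiso).levelSel L) ≤
        Nat.card (Ctx.cobd : eisV p n r e →+ _).range *
          (Nat.card {x : JZero p // (∀ σ : Γℚ, σ • x = x) ∧ IsOfFinAddOrder x} *
            (Nat.card (FullHecke p ⧸ lvl p n 1) ^ (2 * k) * C *
              (Nat.card {x : JZero p // (p - 1) • x = 0} *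
                Nat.card {x : JZero p // (p ^ 2 - 1) • x = 0} ^ 2) *
              (Nat.card {x : JZero p // N • x = 0} * Nat.card {x : JZero p // N • x = 0}) *
              Nat.card {x : JZero p // (p ^ 2 - 1) • x = 0})) := by
  have her := he.mono (Nat.le_add_right r k)
  obtain ⟨Fn, hFnN⟩ := hFn r k e hAp he.idem hiso
  obtain ⟨Fp, hFpN, hX⟩ := exists_frobP_ctxV (r := r) (k := k) (e := e) hat R hR hAp he.idem hiso
  have := finite_eisV (p := p) (n := n) (r := r) (e := e) hn.out.ne_zero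
  have := finite_eisV (p := p) (n := n) (r := r + k) (e := e) hn.out.ne_zero
  have := finite_quot_lvl (p := p) (n := n) 1
  have : Fact (ctxV r R k hR hAp he.idem hiso).n.Prime := hn
  obtain ⟨hfin, hbound⟩ := (ctxV r R k hR hAp he.idem hiso).card_levelSel_le
    (residual_ctxV R hR hAp he.idem hiso hθT her) Fn Fp L hfix
  refine ⟨hfin, bound_arith (Nat.card_pos (α := Fp.X)) hbound card_le_cobd_mul ?_ ?_ hX hge
    (her.card_factor_ge hr) ?_ ?_⟩
  · exact (card_V0_le R hR hAp he.idem hiso).trans (card_kerV_le R hθT hR he)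
  · exact Nat.card_le_card_of_injective _ Subtype.val_injective
  · rw [hFnN]; exact card_tors_eisV_le hN
  · rw [hFpN]
    exact card_tors_eisV_le (Nat.sub_ne_zero_of_lt (Nat.one_lt_pow two_ne_zero hp.out.one_lt))

/-- **The descent**: a fixed nonzero multiple `M` of `e x` is divisible by `n ^ r` among rational
points, for every `r` and a suitable `e` outside the Eisenstein ideal. -/
theorem exists_uniform_div (hat : AtPHyp p) {n : ℕ} [hn : Fact n.Prime]
    {θ : FullHecke p →+* ZMod n}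
    (hθT : ∀ ℓ (hℓ : ℓ.Prime) (hℓp : ¬ ℓ ∣ p),
      θ (CuspForm.heckeAlgebra.T hℓ hℓp (Set.notMem_empty ℓ)) = (ℓ + 1 : ℕ))
    (hnp : n ≠ p) :
    ∃ M : ℕ, M ≠ 0 ∧ ∀ r : ℕ, r ≠ 0 → ∃ e : FullHecke p, θ e = 1 ∧
      ∀ x : RatPts p, ∃ z : RatPts p, n ^ r • (z : JZero p) = M • jAct p e (x : JZero p) := by
  obtain ⟨A, hA⟩ := Fermat.CFT.exists_place hn.out
  obtain ⟨R, hR, -⟩ := Fermat.HT.Cusp.exists_red (p := p) hn.out hnp A hA
  obtain ⟨Ap, hApo⟩ := Fermat.CFT.exists_place hp.out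
  have hAp : IsPlace Ap p := ⟨hp.out, hApo⟩
  obtain ⟨k, hk⟩ := exists_iso R hθT hR
  obtain ⟨N, hN, hFn⟩ := exists_frobN R hR
  obtain ⟨C, hC, hge⟩ := exists_card_eisV_ge p n
  set T := Nat.card {x : JZero p // (∀ σ : Γℚ, σ • x = x) ∧ IsOfFinAddOrder x}
  set K1 := Nat.card {x : JZero p // (p - 1) • x = 0}
  set K2 := Nat.card {x : JZero p // (p ^ 2 - 1) • x = 0}
  set tN := Nat.card {x : JZero p // N • x = 0}
  set Q := Nat.card (FullHecke p ⧸ lvl p n 1)
  set A := Q ^ (2 * k) * C * (K1 * K2 ^ 2)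
  refine ⟨(T * (A * (tN * tN) * K2)).factorial, Nat.factorial_ne_zero _, fun r hr => ?_⟩
  obtain ⟨e, he⟩ := exists_isEisIdem θ (r := r + k) (by omega)
  refine ⟨e, he.one, fun x => ?_⟩
  have hiso := hk (r + k) e (by omega) he
  have her := he.mono (Nat.le_add_right r k)
  refine exists_rational_div R hR hAp he.idem hiso (fun L hL hLn hfix => ?_) x
  exact card_levelSel_le_cobd R hat hθT hR hAp hr he hiso hN hFn (hge r e her.idem) L hfix

/-! ### The annihilator -/

/-- A nonzero Hecke element is a power of `ℓ` times one not divisible by `ℓ`. -/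
theorem exists_eq_pow_mul {ℓ : ℕ} (hℓ : ℓ.Prime) {t : FullHecke p} (ht : t ≠ 0) :
    ∃ (a : ℕ) (u : FullHecke p), t = (ℓ : FullHecke p) ^ a * u ∧ ¬ (ℓ : FullHecke p) ∣ u := by
  set b := Module.Free.chooseBasis ℤ (FullHecke p)
  obtain ⟨i, hi⟩ : ∃ i, b.repr t i ≠ 0 := by
    by_contra h
    push Not at h
    exact ht (b.repr.injective (Finsupp.ext fun i => by simp [h i]))
  induction hm : (b.repr t i).natAbs using Nat.strong_induction_on generalizing t with
  | h m ih =>
    by_cases hd : (ℓ : FullHecke p) ∣ t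
    · obtain ⟨u, rfl⟩ := hd
      have he : b.repr ((ℓ : FullHecke p) * u) i = (ℓ : ℤ) * b.repr u i := by
        rw [← nsmul_eq_mul, map_nsmul, Finsupp.smul_apply, nsmul_eq_mul]
      rw [he] at hi hm
      have hu : b.repr u i ≠ 0 := right_ne_zero_of_mul hi
      have hlt : (b.repr u i).natAbs < m := by
        rw [← hm, Int.natAbs_mul, Int.natAbs_natCast]
        exact lt_mul_left (Int.natAbs_pos.mpr hu) hℓ.one_lt
      obtain ⟨a, v, hv, hv'⟩ := ih _ hlt (fun h => hu (by simp [h])) hu rfl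
      exact ⟨a + 1, v, by rw [hv]; ring, hv'⟩
    · exact ⟨0, t, by rw [pow_zero, one_mul], hd⟩

/-- A torsion-free module embedded in a finitely generated group is saturated up to a constant. -/
theorem exists_saturation {T M : Type*} [AddCommGroup T] [AddCommGroup M] [Module.Finite ℤ M]
    (ψ : T →ₗ[ℤ] M) (hψ : Function.Injective ψ) :
    ∃ c : ℕ, c ≠ 0 ∧ ∀ (N : ℕ), N ≠ 0 → ∀ (t : T) (m : M), N • m = ψ t →
      ∃ u : T, c • t = N • u := by
  have : Module.Finite ℤ (Submodule.torsion ℤ (M ⧸ LinearMap.range ψ)) :=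
    Module.Finite.of_injective (Submodule.subtype _) Subtype.val_injective
  have : Finite (Submodule.torsion ℤ (M ⧸ LinearMap.range ψ)) :=
    Module.finite_of_fg_torsion _ Submodule.torsion_isTorsion
  refine ⟨Nat.card (Submodule.torsion ℤ (M ⧸ LinearMap.range ψ)), Nat.card_pos.ne',
    fun N hN t m hm => ?_⟩
  have hq : Submodule.Quotient.mk (p := LinearMap.range ψ) m ∈
      Submodule.torsion ℤ (M ⧸ LinearMap.range ψ) := by
    refine ⟨⟨(N : ℤ), mem_nonZeroDivisors_of_ne_zero (Int.natCast_ne_zero.mpr hN)⟩, ?_⟩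
    change (N : ℤ) • Submodule.Quotient.mk (p := LinearMap.range ψ) m = 0
    rw [natCast_zsmul, ← Submodule.Quotient.mk_smul, hm, Submodule.Quotient.mk_eq_zero]
    exact ⟨t, rfl⟩
  have h1 : Nat.card (Submodule.torsion ℤ (M ⧸ LinearMap.range ψ)) •
      (⟨_, hq⟩ : Submodule.torsion ℤ (M ⧸ LinearMap.range ψ)) = 0 := card_nsmul_eq_zero'
  have h2 : Submodule.Quotient.mk (p := LinearMap.range ψ)
      (Nat.card (Submodule.torsion ℤ (M ⧸ LinearMap.range ψ)) • m) = 0 := by
    rw [Submodule.Quotient.mk_smul]; exact congrArg Subtype.val h1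
  obtain ⟨u, hu⟩ := (Submodule.Quotient.mk_eq_zero _).mp h2
  refine ⟨u, hψ ?_⟩
  rw [map_nsmul, map_nsmul, hu, ← hm, smul_comm]

/-- **The Eisenstein quotient has rank zero**: an element not divisible by `ℓ` kills the rational
points modulo torsion. -/
theorem exists_annihilator (hat : AtPHyp p) {n : ℕ} (hn : n.Prime)
    (hnum : n ∣ eisensteinNumerator p) {ℓ : ℕ} (hℓ : ℓ.Prime) :
    ∃ t : FullHecke p, ¬ (ℓ : FullHecke p) ∣ t ∧
      ∀ x : RatPts p, ∃ N : ℕ, N ≠ 0 ∧ N • jAct p t (x : JZero p) = 0 := by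
  have := Fact.mk hn
  obtain ⟨θ, hθT, -⟩ := exists_theta (p := p) hn hnum
  obtain ⟨M, hM, hdiv⟩ := exists_uniform_div hat hθT (ne_of_dvd_numerator p hn hnum)
  by_contra hcon
  push Not at hcon
  have : AddGroup.FG (RatPts p) := Fermat.HT.MW.fg_ratPts p
  obtain ⟨S, hS⟩ := AddGroup.FG.out (H := RatPts p)
  -- otherwise the Hecke algebra embeds in finitely many copies of the rational points
  let ψ : FullHecke p →ₗ[ℤ] (S → RatPts p) := AddMonoidHom.toIntLinearMap
    (AddMonoidHom.mk' (fun t g => (⟨jAct p t ((g.1 : RatPts p) : JZero p), fun σ =>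
      (smul_jAct p σ t _).trans (congrArg _ ((g.1 : RatPts p).2 σ))⟩ : RatPts p))
      fun t u => funext fun g => Subtype.ext (by
        change jAct p (t + u) _ = jAct p t _ + jAct p u _
        rw [map_add]; rfl))
  have hψ : Function.Injective ψ := by
    rw [injective_iff_map_eq_zero]
    intro t ht
    by_contra ht0
    obtain ⟨a, u, rfl, hu⟩ := exists_eq_pow_mul hℓ ht0
    obtain ⟨x, hx⟩ := hcon u hu
    refine hx (ℓ ^ a) (pow_ne_zero a hℓ.ne_zero) ?_
    rw [← jAct_natCast (ℓ ^ a), ← jAct_mul, Nat.cast_pow]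
    clear hx
    have hx' : x ∈ AddSubgroup.closure (S : Set (RatPts p)) := hS ▸ AddSubgroup.mem_top x
    induction hx' using AddSubgroup.closure_induction with
    | mem g hg => exact congrArg Subtype.val (congrFun ht ⟨g, hg⟩)
    | zero => exact map_zero _
    | add a b _ _ ha hb => exact (map_add _ _ _).trans (by rw [ha, hb, add_zero])
    | neg a _ ha => exact (map_neg _ _).trans (by rw [ha, neg_zero])
  have : Module.Finite ℤ (RatPts p) := Module.Finite.iff_addGroup_fg.mpr inferInstance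
  obtain ⟨c, hc, hsat⟩ := exists_saturation ψ hψ
  -- with `c M = n ^ a v`, saturation makes `v e` divisible by `n`, but `θ (v e) = v ≠ 0`
  obtain ⟨a, v, hv, hav⟩ := Nat.exists_eq_pow_mul_and_not_dvd (mul_ne_zero hc hM) n hn.ne_one
  obtain ⟨e, he, hex⟩ := hdiv (a + 1) (Nat.succ_ne_zero a)
  choose z hz using hex
  obtain ⟨u, hu⟩ := hsat (n ^ (a + 1)) (pow_ne_zero _ hn.ne_zero) ((M : FullHecke p) * e)
    (fun g => z g.1) (funext fun g => Subtype.ext (by
      change n ^ (a + 1) • (z g.1 : JZero p) = jAct p ((M : FullHecke p) * e) _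
      rw [hz, jAct_mul, jAct_natCast]))
  rw [nsmul_eq_mul, nsmul_eq_mul] at hu
  have h3 : n ^ a • ((v : FullHecke p) * e) = n ^ a • ((n : FullHecke p) * u) := by
    rw [nsmul_eq_mul, nsmul_eq_mul, ← mul_assoc, ← Nat.cast_mul, ← hav, Nat.cast_mul, mul_assoc, hu]
    push_cast
    ring
  have h4 : (v : FullHecke p) * e = (n : FullHecke p) * u := by
    refine smul_right_injective (FullHecke p) (r := ((n ^ a : ℕ) : ℤ))
      (Int.natCast_ne_zero.mpr (pow_ne_zero a hn.ne_zero)) ?_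
    simp only [natCast_zsmul]
    exact h3
  have h5 := congrArg θ h4
  rw [map_mul, map_mul, map_natCast, map_natCast, ZMod.natCast_self, zero_mul, he, mul_one,
    ZMod.natCast_eq_zero_iff] at h5
  exact hv h5

end Fermat.HT.Descent

end
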