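import Fermat.Agent.HT.Descent.Eis
import Fermat.Agent.HT.Descent.Cocycle
import Fermat.Agent.JAC.X0.ESParts
import Fermat.Agent.GR.ES.JZeroGalois
import Fermat.Agent.RED.Spec.Final
import Fermat.Agent.JAC.ConstExtExists

/-!
# The Galois modules `e J₀(p)[n ^ r]`

For an operator `e` idempotent modulo `n ^ r` (`Eis`) the classes `x` killed by `n ^ r` with
`e x = x` form a Galois module `eisV` with a twisted Weil pairing `pairV`, self-adjoint for the
Hecke algebra. This is the module to which `AtN`, `AtP` and `Residual` apply the general descent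
of `Cocycle`, `Devissage`, `LocalN` and `Bound`.
-/

set_option autoImplicit false
set_option linter.unusedSectionVars false

attribute [local instance 10000] SubalgebraClass.toAlgebra HahnSeries.powerSeriesAlgebra

noncomputable section

open ModularCurve AlgebraicCurve

namespace Fermat.HT.Descent

open Fermat.GR (FullHecke ESInput)
open Fermat.JAC.X0 (jAct frickePair)

local notation "ℚbar" => AlgebraicClosure ℚ
local notation "Γℚ" => (AlgebraicClosure ℚ ≃ₐ[ℚ] AlgebraicClosure ℚ)

variable (p : ℕ) [hp : Fact p.Prime] [NeZero p]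

/-- The Eichler-Shimura input at `n`. -/
def esIn (n : ℕ) [Fact n.Prime] : ESInput p n :=
  Fermat.JAC.X0.esInputOfSpec p n
    (Fermat.RED.specializationExists p n (Fermat.JAC.X0.heckeOperatorsCommuteBar p))

/-- Galois commutes with the Hecke algebra on `J₀(p)`. -/
theorem smul_jAct (σ : Γℚ) (t : FullHecke p) (x : JZero p) :
    σ • jAct p t x = jAct p t (σ • x) := by
  have : Fact (Nat.Prime 2) := ⟨Nat.prime_two⟩
  exact (esIn p 2).galois_act σ t x

variable {p}

/-- Galois commutes with natural multiples on `J₀(p)`. -/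
theorem nsmul_galois (σ : Γℚ) (m : ℕ) (x : JZero p) : σ • (m • x) = m • (σ • x) :=
  (DistribSMul.toAddMonoidHom (JZero p) σ).map_nsmul m x

/-- A product of Hecke elements acts as the composite. -/
theorem jAct_mul (s t : FullHecke p) (x : JZero p) : jAct p (s * t) x = jAct p s (jAct p t x) := by
  rw [map_mul]; rfl

/-- A natural number acts as multiplication by it. -/
theorem jAct_natCast (m : ℕ) (x : JZero p) : jAct p (m : FullHecke p) x = m • x := by
  rw [map_natCast]; exact AddMonoid.End.natCast_apply m x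

/-- The unit acts as the identity. -/
theorem jAct_one (x : JZero p) : jAct p 1 x = x := by rw [map_one]; rfl

/-- Elements congruent modulo `n ^ r` agree on the classes killed by `n ^ r`. -/
theorem jAct_eq_of_sub_mem {n r : ℕ} {a b : FullHecke p} (h : a - b ∈ lvl p n r) {x : JZero p}
    (hx : n ^ r • x = 0) : jAct p a x = jAct p b x := by
  obtain ⟨c, hc⟩ := Ideal.mem_span_singleton.mp h
  rw [show a = b + c * ((n ^ r : ℕ) : FullHecke p) by
      rw [Nat.cast_pow, mul_comm c, ← hc]; ring, map_add]
  change jAct p b x + jAct p (c * ((n ^ r : ℕ) : FullHecke p)) x = jAct p b x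
  rw [jAct_mul, jAct_natCast, hx, map_zero, add_zero]

variable (p) in
/-- The classes killed by `n ^ r` and fixed by `e`. -/
def eisV (n r : ℕ) (e : FullHecke p) : AddSubgroup (JZero p) where
  carrier := {x | n ^ r • x = 0 ∧ jAct p e x = x}
  zero_mem' := ⟨nsmul_zero _, map_zero _⟩
  add_mem' := fun {a b} ha hb => ⟨by rw [nsmul_add, ha.1, hb.1, add_zero],
    by rw [map_add, ha.2, hb.2]⟩
  neg_mem' := fun {a} ha => ⟨(neg_nsmul a _).trans (by rw [ha.1, neg_zero]),
    by rw [map_neg, ha.2]⟩

variable {n r : ℕ} {e : FullHecke p}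

/-- The module is stable under Galois. -/
theorem galois_mem_eisV (σ : Γℚ) {x : JZero p} (hx : x ∈ eisV p n r e) : σ • x ∈ eisV p n r e :=
  ⟨(nsmul_galois σ _ x).symm.trans ((congrArg (σ • ·) hx.1).trans (smul_zero (A := JZero p) σ)),
    by rw [← smul_jAct, hx.2]⟩

/-- The Galois action on the module. -/
instance eisVSMul : SMul Γℚ (eisV p n r e) := ⟨fun σ x => ⟨σ • x.1, galois_mem_eisV σ x.2⟩⟩

/-- Galois acts on the module by additive maps. -/
instance eisVAction : DistribMulAction Γℚ (eisV p n r e) where
  one_smul x := Subtype.ext (one_smul Γℚ (x : JZero p))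
  mul_smul σ τ x := Subtype.ext (mul_smul σ τ (x : JZero p))
  smul_zero σ := Subtype.ext (smul_zero (A := JZero p) σ)
  smul_add σ x y := Subtype.ext (smul_add σ (x : JZero p) (y : JZero p))

/-- The module is stable under the Hecke algebra. -/
theorem jAct_mem_eisV (t : FullHecke p) {x : JZero p} (hx : x ∈ eisV p n r e) :
    jAct p t x ∈ eisV p n r e :=
  ⟨by rw [← map_nsmul, hx.1, map_zero], by rw [← jAct_mul, mul_comm, jAct_mul, hx.2]⟩

variable (n r e) in
/-- A Hecke operator on the module. -/
def opV (t : FullHecke p) : eisV p n r e →+ eisV p n r e :=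
  AddMonoidHom.mk' (fun x => ⟨jAct p t x.1, jAct_mem_eisV t x.2⟩)
    fun _ _ => Subtype.ext (map_add _ _ _)

/-- `opV` is the restriction of `jAct`. -/
theorem coe_opV (t : FullHecke p) (x : eisV p n r e) :
    ((opV n r e t x : eisV p n r e) : JZero p) = jAct p t x.1 := rfl

/-- An idempotent modulo `n ^ r` projects the `n ^ r`-torsion into the module. -/
theorem proj_mem_eisV (he : e * e - e ∈ lvl p n r) {x : JZero p} (hx : n ^ r • x = 0) :
    jAct p e x ∈ eisV p n r e :=
  ⟨by rw [← map_nsmul, hx, map_zero], by rw [← jAct_mul]; exact jAct_eq_of_sub_mem he hx⟩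

/-- The module is killed by `n ^ r`. -/
theorem killed_eisV (x : eisV p n r e) : n ^ r • x = 0 := Subtype.ext x.2.1

variable (p) in
/-- `J₀(p)` has finitely many points killed by a nonzero natural number. -/
theorem finite_torsion {N : ℕ} (hN : N ≠ 0) : Finite {x : JZero p // N • x = 0} := by
  have := Fermat.GR.isFunctionField_modularFunctionFieldBar p
  have hc := Fermat.JAC.natCard_torsion_of_ringHom (k := ℚbar) (F₀ := modularFunctionFieldBar p)
    (IsAlgClosed.lift : ℚbar →ₐ[ℚ] ℂ).toRingHom N hN
  have : Finite (Pic0.torsion ℚbar (modularFunctionFieldBar p) N) :=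
    Nat.finite_of_card_ne_zero (by rw [hc]; exact pow_ne_zero _ hN)
  exact Finite.of_injective
    (fun x => (⟨x.1, x.2⟩ : Pic0.torsion ℚbar (modularFunctionFieldBar p) N))
    fun a b h => Subtype.ext (congrArg (fun y : Pic0.torsion ℚbar (modularFunctionFieldBar p) N =>
      (y : JZero p)) h)

/-- The module is finite. -/
theorem finite_eisV (hn : n ≠ 0) : Finite (eisV p n r e) := by
  have := finite_torsion p (N := n ^ r) (pow_ne_zero r hn)
  exact Finite.of_injective (fun x => (⟨x.1, x.2.1⟩ : {x : JZero p // n ^ r • x = 0}))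
    fun a b h => Subtype.ext (congrArg (fun y : {x : JZero p // n ^ r • x = 0} => y.1) h)

variable [hn : Fact n.Prime]

/-- The twisted pairing of classes killed by `n ^ r` is not zero, so it gives a unit. -/
theorem frickePair_nonzero {x y : JZero p} (hx : n ^ r • x = 0) (hy : n ^ r • y = 0) :
    frickePair p (n ^ r) x y ≠ 0 :=
  Fermat.JAC.X0.frickePair_ne_zero p (pow_ne_zero r hn.out.ne_zero) hx hy

/-- The value of the twisted Weil pairing. -/
def pairVal (x y : eisV p n r e) : Mu :=
  Additive.ofMul (Units.mk0 (frickePair p (n ^ r) x.1 y.1) (frickePair_nonzero x.2.1 y.2.1))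

/-- The number underlying the pairing. -/
theorem num_pairVal (x y : eisV p n r e) : num (pairVal x y) = frickePair p (n ^ r) x.1 y.1 := rfl

/-- The sum in the module is the sum in `J₀(p)`. -/
theorem coe_add_eisV (x y : eisV p n r e) :
    ((x + y : eisV p n r e) : JZero p) = (x : JZero p) + (y : JZero p) := rfl

/-- The pairing is additive on the left. -/
theorem pairVal_add_left (x y z : eisV p n r e) :
    pairVal (x + y) z = pairVal x z + pairVal y z :=
  num_injective (by
    rw [num_add, num_pairVal, num_pairVal, num_pairVal, coe_add_eisV]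
    exact Fermat.JAC.X0.frickePair_add_left p x.2.1 y.2.1 z.2.1)

/-- The pairing is additive on the right. -/
theorem pairVal_add_right (x y z : eisV p n r e) :
    pairVal x (y + z) = pairVal x y + pairVal x z :=
  num_injective (by
    rw [num_add, num_pairVal, num_pairVal, num_pairVal, coe_add_eisV]
    exact Fermat.JAC.X0.frickePair_add_right p (pow_ne_zero r hn.out.ne_zero) x.2.1 y.2.1 z.2.1)

variable (n r e) in
/-- The twisted Weil pairing. -/
def pairV : eisV p n r e →+ eisV p n r e →+ Mu :=
  AddMonoidHom.mk' (fun x => AddMonoidHom.mk' (pairVal x) (pairVal_add_right x))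
    fun x y => AddMonoidHom.ext (pairVal_add_left x y)

/-- The number underlying the bundled pairing. -/
theorem num_pairV (x y : eisV p n r e) : num (pairV n r e x y) = frickePair p (n ^ r) x.1 y.1 := rfl

/-- The pairing is Galois equivariant. -/
theorem pairV_gal (σ : Γℚ) (x y : eisV p n r e) :
    gal σ (pairV n r e x y) = pairV n r e (σ • x) (σ • y) :=
  num_injective (by
    rw [num_gal, num_pairV, num_pairV]
    exact Fermat.JAC.X0.frickePair_galois p x.2.1 y.2.1 σ)

/-- Hecke operators are self-adjoint for the pairing. -/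
theorem pairV_adj (t : FullHecke p) (x y : eisV p n r e) :
    pairV n r e (opV n r e t x) y = pairV n r e x (opV n r e t y) :=
  num_injective (by
    rw [num_pairV, num_pairV, coe_opV, coe_opV]
    exact Fermat.JAC.X0.frickePair_jAct p (pow_ne_zero r hn.out.ne_zero) t x.2.1 y.2.1)

/-- Exchanging the arguments negates the pairing. -/
theorem pairV_symm (x y : eisV p n r e) : pairV n r e y x = -pairV n r e x y :=
  eq_neg_of_add_eq_zero_left (num_injective (by
    rw [num_add, num_zero, num_pairV, num_pairV]
    exact Fermat.JAC.X0.frickePair_symm p x.2.1 y.2.1))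

/-- The pairing is nondegenerate on the module of an idempotent modulo `n ^ r`. -/
theorem pairV_nondeg (he : e * e - e ∈ lvl p n r) (x : eisV p n r e)
    (h : ∀ y, pairV n r e x y = 0) : x = 0 := by
  have hn0 : n ^ r ≠ 0 := pow_ne_zero r hn.out.ne_zero
  refine Subtype.ext (Fermat.JAC.X0.frickePair_nondeg p hn0 x.2.1 fun y hy => ?_)
  have h1 := congrArg num (h ⟨_, proj_mem_eisV he hy⟩)
  rw [num_pairV, num_zero] at h1
  rwa [← Fermat.JAC.X0.frickePair_jAct p hn0 e x.2.1 hy, x.2.2] at h1

/-- The Galois action on the module factors through a finite extension. -/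
theorem smooth_eisV : ∃ L : IntermediateField ℚ ℚbar, FiniteDimensional ℚ L ∧
    ∀ σ ∈ L.fixingSubgroup, ∀ v : eisV p n r e, σ • v = v := by
  obtain ⟨L, hL, h⟩ := (esIn p n).exists_field r
  exact ⟨L, hL, fun σ hσ v => Subtype.ext
    (h σ (fun a ha => (IntermediateField.mem_fixingSubgroup_iff L σ).mp hσ a ha) v.1 v.2.1)⟩

/-- The module is unramified away from `n p`. -/
theorem unram_eisV {l : ℕ} (hl : l.Prime) (hln : l ≠ n) (hlp : l ≠ p)
    {A : ValuationSubring ℚbar} (hA : A.LiesOverPrime l) {σ : Γℚ}
    (hσ : σ ∈ A.inertiaSubgroupIn ℚ) (v : eisV p n r e) : σ • v = v :=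
  Subtype.ext ((esIn p n).inertia_smul l hl
    (fun h => (hl.dvd_mul.mp h).elim
      (fun h => hlp ((Nat.prime_dvd_prime_iff_eq hl hp.out).mp h))
      fun h => hln ((Nat.prime_dvd_prime_iff_eq hl hn.out).mp h)) A hA σ hσ v.1 ⟨r, v.2.1⟩)

/-- Division points of rational classes are unramified away from `n p`. -/
theorem inertia_fixes_divided {x y : JZero p} (hx : ∀ σ : Γℚ, σ • x = x) {s : ℕ}
    (hy : n ^ s • y = x) {l : ℕ} (hl : l.Prime) (hln : l ≠ n) (hlp : l ≠ p)
    {A : ValuationSubring ℚbar} (hA : A.LiesOverPrime l) {σ : Γℚ}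
    (hσ : σ ∈ A.inertiaSubgroupIn ℚ) : σ • y = y := by
  have hcomm := Fermat.JAC.X0.heckeOperatorsCommuteBar p
  let := heckeModuleBar p
  have hlN : ¬ l ∣ p * n := fun h => (hl.dvd_mul.mp h).elim
    (fun h => hlp ((Nat.prime_dvd_prime_iff_eq hl hp.out).mp h))
    fun h => hln ((Nat.prime_dvd_prime_iff_eq hl hn.out).mp h)
  obtain ⟨J', _, _, sp, F, hsp, -⟩ := Fermat.RED.specializationExists p n hcomm
    (Fermat.GR.smulCommClass_heckeModuleBar hcomm) l hl hlN A hA
  refine sub_eq_zero.mp (hsp.injective_torsion _ ⟨s, ?_⟩ ?_)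
  · rw [nsmul_sub, ← nsmul_galois, hy, hx, sub_self]
  · rw [map_sub, hsp.inertia_comm σ hσ, sub_self]

end Fermat.HT.Descent

end
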